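import Mathlib.LinearAlgebra.Matrix.Charpoly.Coeff
import Mathlib.GroupTheory.PGroup
import Mathlib.RingTheory.SimpleModule.Basic
import Mathlib.LinearAlgebra.Trace
import Mathlib.Algebra.CharP.Lemmas
import Mathlib.Order.Atoms.Finite
import Mathlib.Tactic

/-!
# Modules killed by the quadratic relations of an irreducible two-dimensional representation

If `ψ` satisfies the characteristic polynomials of an absolutely irreducible `r`, it has a stable
submodule on which the kernel of `r` acts trivially and on which an element with non-scalar image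
under `r` is non-scalar.
-/

set_option autoImplicit false

namespace Fermat.Agent.RT.Mazur

open Matrix

variable {G : Type*} [Group G] {k : Type*} [Field k]

/-- A pencil of `2 × 2` matrices all having eigenvalue one does not span the matrix algebra. -/
theorem exists_det_sub_one_ne_zero (r : G →* Matrix (Fin 2) (Fin 2) k)
    (hspan : Submodule.span k (Set.range r) = ⊤) : ∃ g, (r g - 1).det ≠ 0 := by
  by_contra hcon
  simp only [not_exists, not_not] at hcon
  have hd : ∀ g, (r g).det = (r g).trace - 1 := fun g => by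
    have h := hcon g
    simp only [Matrix.det_fin_two, Matrix.sub_apply, Matrix.one_apply, Matrix.trace_fin_two] at h ⊢
    simp at h
    linear_combination h
  set X : G → Matrix (Fin 2) (Fin 2) k := fun g => r g - ((r g).trace - 1) • 1 with hX
  have htr : ∀ g h, (X g * r h).trace = 2 - (r g).trace := fun g h => by
    have h1 := hd (g * h)
    rw [map_mul, det_mul, hd g, hd h] at h1
    rw [hX, sub_mul, smul_mul_assoc, one_mul, trace_sub, trace_smul, smul_eq_mul]
    linear_combination -h1
  set S : Submodule k (Matrix (Fin 2) (Fin 2) k) :=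
    Submodule.span k (Set.range fun g => r g - 1) with hS
  have hgen : ∀ g, r g - 1 ∈ S := fun g => Submodule.subset_span ⟨g, rfl⟩
  have hleft : ∀ (a : Matrix (Fin 2) (Fin 2) k), ∀ s ∈ S, a * s ∈ S := by
    intro a s hs
    have ha : a ∈ Submodule.span k (Set.range r) := by rw [hspan]; trivial
    induction ha using Submodule.span_induction with
    | mem x hx =>
      obtain ⟨g, rfl⟩ := hx
      induction hs using Submodule.span_induction with
      | mem y hy =>
        obtain ⟨h, rfl⟩ := hy
        have e : r g * (r h - 1) = (r (g * h) - 1) - (r g - 1) := by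
          rw [map_mul, mul_sub, mul_one]; abel
        show r g * (r h - 1) ∈ S
        rw [e]; exact S.sub_mem (hgen _) (hgen _)
      | zero => simp
      | add y z _ _ hy hz => rw [mul_add]; exact S.add_mem hy hz
      | smul c y _ hy => rw [mul_smul_comm]; exact S.smul_mem c hy
    | zero => simp
    | add y z _ _ hy hz => rw [add_mul]; exact S.add_mem hy hz
    | smul c y _ hy => rw [smul_mul_assoc]; exact S.smul_mem c hy
  have hright : ∀ (a : Matrix (Fin 2) (Fin 2) k), ∀ s ∈ S, s * a ∈ S := by
    intro a s hs
    have ha : a ∈ Submodule.span k (Set.range r) := by rw [hspan]; trivial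
    induction ha using Submodule.span_induction with
    | mem x hx =>
      obtain ⟨g, rfl⟩ := hx
      induction hs using Submodule.span_induction with
      | mem y hy =>
        obtain ⟨h, rfl⟩ := hy
        have e : (r h - 1) * r g = (r (h * g) - 1) - (r g - 1) := by
          rw [map_mul, sub_mul, one_mul]; abel
        show (r h - 1) * r g ∈ S
        rw [e]; exact S.sub_mem (hgen _) (hgen _)
      | zero => simp
      | add y z _ _ hy hz => rw [add_mul]; exact S.add_mem hy hz
      | smul c y _ hy => rw [smul_mul_assoc]; exact S.smul_mem c hy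
    | zero => simp
    | add y z _ _ hy hz => rw [mul_add]; exact S.add_mem hy hz
    | smul c y _ hy => rw [mul_smul_comm]; exact S.smul_mem c hy
  have hscalar : ∀ g, r g ∈ Submodule.span k {(1 : Matrix (Fin 2) (Fin 2) k)} := by
    intro g
    have hzero : ∀ s ∈ S, (X g * s).trace = 0 := by
      intro s hs
      induction hs using Submodule.span_induction with
      | mem y hy =>
        obtain ⟨h, rfl⟩ := hy
        have e : (X g).trace = 2 - (r g).trace := by
          simpa using htr g 1
        show (X g * (r h - 1)).trace = 0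
        rw [mul_sub, mul_one, trace_sub, htr, e, sub_self]
      | zero => simp
      | add y z _ _ hy hz => rw [mul_add, trace_add, hy, hz, add_zero]
      | smul c y _ hy => rw [mul_smul_comm, trace_smul, hy, smul_zero]
    have hX0 : X g = 0 := by
      by_contra hne
      obtain ⟨h, hh⟩ : ∃ h, r h - 1 ≠ 0 := by
        by_contra hall
        simp only [not_exists, not_not] at hall
        have hle : Submodule.span k (Set.range r) ≤ Submodule.span k {1} :=
          Submodule.span_le.mpr (by
            rintro _ ⟨h, rfl⟩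
            rw [sub_eq_zero.mp (hall h)]
            exact Submodule.mem_span_singleton_self 1)
        rw [hspan] at hle
        obtain ⟨c, hc⟩ := Submodule.mem_span_singleton.mp
          (hle (Submodule.mem_top (x := Matrix.single 0 1 1)))
        have := congrFun (congrFun hc 0) 1
        simp at this
      obtain ⟨a, b, hab⟩ : ∃ a b, (r h - 1) a b ≠ 0 := by
        by_contra hall
        simp only [not_exists, not_not] at hall
        exact hh (by ext a b; exact hall a b)
      refine hne ?_
      ext i j
      have hm : Matrix.single j a (1 : k) * (r h - 1) * Matrix.single b i 1 ∈ S :=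
        hright _ _ (hleft _ _ (hgen h))
      have h0 := hzero _ hm
      rw [show Matrix.single j a (1 : k) * (r h - 1) * Matrix.single b i 1 =
        Matrix.single j i ((r h - 1) a b) by simp] at h0
      simp [Matrix.trace_mul_single] at h0
      tauto
    exact Submodule.mem_span_singleton.mpr ⟨(r g).trace - 1, (sub_eq_zero.mp hX0).symm⟩
  have hle : Submodule.span k (Set.range r) ≤ Submodule.span k {1} :=
    Submodule.span_le.mpr (by rintro _ ⟨g, rfl⟩; exact hscalar g)
  rw [hspan] at hle
  obtain ⟨c, hc⟩ := Submodule.mem_span_singleton.mp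
    (hle (Submodule.mem_top (x := Matrix.single 0 1 1)))
  have := congrFun (congrFun hc 0) 1
  simp at this

variable {p : ℕ} [hp : Fact p.Prime] {V : Type*} [AddCommGroup V] [Module (ZMod p) V]

/-- An operator with square-zero difference from the identity has order dividing `p`. -/
theorem pow_char_eq_one_of_sq {R : Type*} [Ring R] [CharP R p] {x : R}
    (h : (x - 1) * (x - 1) = 0) : x ^ p = 1 := by
  have h2 : (x - 1) ^ p = 0 := by
    obtain ⟨m, hm⟩ := Nat.exists_eq_add_of_le hp.out.two_le
    rw [hm, pow_add, pow_two, h, zero_mul]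
  rw [sub_pow_char_of_commute p (Commute.one_right x), one_pow, sub_eq_zero] at h2
  exact h2

variable (ψ : G →* Module.End (ZMod p) V)

/-- A submodule stable under the group. -/
def IsStableUnder (U : Submodule (ZMod p) V) : Prop := ∀ g, ∀ v ∈ U, ψ g v ∈ U

/-- A normal subgroup acting by unipotents of square zero fixes every minimal stable submodule. -/
theorem fixed_of_minimal [Finite V] {U : Submodule (ZMod p) V} (hU : IsStableUnder ψ U)
    (hU0 : U ≠ ⊥) (hmin : ∀ W, IsStableUnder ψ W → W ≤ U → W ≠ ⊥ → W = U)
    (H : Subgroup G) [hH : H.Normal]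
    (hsq : ∀ h ∈ H, ∀ v ∈ U, ψ h (ψ h v - v) = ψ h v - v) :
    ∀ h ∈ H, ∀ v ∈ U, ψ h v = v := by
  classical
  let φ : H →* Module.End (ZMod p) U :=
    { toFun := fun h => (ψ h).restrict (hU h)
      map_one' := LinearMap.ext fun v => Subtype.ext (by simp [LinearMap.restrict_apply])
      map_mul' := fun a b => LinearMap.ext fun v => Subtype.ext (by
        simp [LinearMap.restrict_apply]) }
  have hφ : ∀ h : H, (φ h) ^ p = 1 := by
    intro h
    have : Nontrivial U := Submodule.nontrivial_iff_ne_bot.mpr hU0
    have : CharP (Module.End (ZMod p) U) p :=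
      charP_of_injective_algebraMap (FaithfulSMul.algebraMap_injective (ZMod p) _) p
    refine pow_char_eq_one_of_sq (LinearMap.ext fun v => Subtype.ext ?_)
    have := hsq h h.2 v.1 v.2
    simp [φ, LinearMap.restrict_apply, Module.End.mul_apply, sub_eq_zero] at this ⊢
    exact this
  let φu : H →* (Module.End (ZMod p) U)ˣ := φ.toHomUnits
  have : Finite U := Subtype.finite
  have : Finite (Module.End (ZMod p) U) :=
    Finite.of_injective (fun f : Module.End (ZMod p) U => ⇑f) DFunLike.coe_injective
  have hP : IsPGroup p φu.range := by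
    rintro ⟨_, h, rfl⟩
    refine ⟨1, Subtype.ext (Units.ext ?_)⟩
    simp [φu, hφ h]
  let : MulAction φu.range U :=
    { smul := fun g v => ((g : (Module.End (ZMod p) U)ˣ) : Module.End (ZMod p) U) v
      one_smul := fun v => rfl
      mul_smul := fun g g' v => rfl }
  have hdvd : p ∣ Nat.card U := by
    have : Nontrivial U := Submodule.nontrivial_iff_ne_bot.mpr hU0
    rw [Module.natCard_eq_pow_finrank (K := ZMod p), Nat.card_zmod]
    exact dvd_pow_self p (Module.finrank_pos).ne'
  obtain ⟨v, hv, hv0⟩ := hP.exists_fixed_point_of_prime_dvd_card_of_fixed_point U hdvd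
    (a := (0 : U)) (fun g => map_zero _)
  let W : Submodule (ZMod p) V :=
    { carrier := {v | v ∈ U ∧ ∀ h ∈ H, ψ h v = v}
      add_mem' := fun {a b} ha hb =>
        ⟨U.add_mem ha.1 hb.1, fun h hh => by rw [map_add, ha.2 h hh, hb.2 h hh]⟩
      zero_mem' := ⟨U.zero_mem, fun h _ => map_zero _⟩
      smul_mem' := fun c a ha => ⟨U.smul_mem c ha.1, fun h hh => by rw [map_smul, ha.2 h hh]⟩ }
  have hW : IsStableUnder ψ W := fun g a ha => ⟨hU g a ha.1, fun h hh => by
    have hc : g⁻¹ * h * g ∈ H := by simpa using hH.conj_mem h hh g⁻¹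
    calc ψ h (ψ g a) = ψ (g * (g⁻¹ * h * g)) a := by
          rw [← Module.End.mul_apply, ← map_mul]; group
      _ = ψ g a := by rw [map_mul, Module.End.mul_apply, ha.2 _ hc]⟩
  have hvW : (v : V) ∈ W := ⟨v.2, fun h hh => congrArg Subtype.val (hv ⟨φu ⟨h, hh⟩, _, rfl⟩)⟩
  have hW0 : W ≠ ⊥ := by
    intro h0
    rw [h0, Submodule.mem_bot] at hvW
    exact hv0 (Subtype.ext hvW.symm)
  have hWU := hmin W hW (fun a ha => ha.1) hW0
  intro h hh a ha
  rw [← hWU] at ha
  exact ha.2 h hh

/-- A minimal stable submodule. -/
theorem exists_minimal_stable [Finite V] (V₁ : Submodule (ZMod p) V) (h₁ : IsStableUnder ψ V₁)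
    (h₁0 : V₁ ≠ ⊥) : ∃ U, U ≤ V₁ ∧ U ≠ ⊥ ∧ IsStableUnder ψ U ∧
      ∀ W, IsStableUnder ψ W → W ≤ U → W ≠ ⊥ → W = U := by
  have : Finite (Submodule (ZMod p) V) := Finite.of_injective _ SetLike.coe_injective
  let S : Set (Submodule (ZMod p) V) := {W | W ≤ V₁ ∧ W ≠ ⊥ ∧ IsStableUnder ψ W}
  obtain ⟨U, hU⟩ := Set.Finite.exists_minimal S.toFinite ⟨V₁, le_rfl, h₁0, h₁⟩
  exact ⟨U, hU.prop.1, hU.prop.2.1, hU.prop.2.2, fun W hW hle hW0 =>
    le_antisymm hle (hU.le_of_le ⟨hle.trans hU.prop.1, hW0, hW⟩ hle)⟩

/-- Inside a module satisfying the quadratic relations of `r`, some stable submodule sees exactly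
the kernel of `r` and keeps non-scalar elements non-scalar. -/
theorem exists_submodule_kernel [Finite V] (r : G →* Matrix (Fin 2) (Fin 2) (ZMod p))
    (hspan : Submodule.span (ZMod p) (Set.range r) = ⊤) (V₁ : Submodule (ZMod p) V)
    (h₁ : IsStableUnder ψ V₁) (h₁0 : V₁ ≠ ⊥)
    (hquad : ∀ g, ∀ v ∈ V₁, ψ g (ψ g v) - (r g).trace • ψ g v + (r g).det • v = 0) :
    ∃ U ≤ V₁, U ≠ ⊥ ∧ IsStableUnder ψ U ∧ (∀ g, r g = 1 → ∀ v ∈ U, ψ g v = v) ∧
      ∀ σ, (∀ c : ZMod p, r σ ≠ c • 1) → ∀ c : ZMod p, ∃ v ∈ U, ψ σ v ≠ c • v := by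
  classical
  obtain ⟨U, hle, hU0, hU, hmin⟩ := exists_minimal_stable ψ V₁ h₁ h₁0
  have htriv : ∀ g, r g = 1 → ∀ v ∈ U, ψ g v = v := by
    refine fun g hg => fixed_of_minimal ψ hU hU0 hmin r.ker (fun h hh v hv => ?_) g hg
    have h2 := hquad h v (hle hv)
    rw [MonoidHom.mem_ker.mp hh, trace_one, det_one, one_smul, Fintype.card_fin] at h2
    rw [map_sub, ← sub_eq_zero]
    linear_combination (norm := module) h2
  refine ⟨U, hle, hU0, hU, htriv, fun σ hσ c => ?_⟩
  by_contra hcon
  simp only [not_exists, not_and, not_not] at hcon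
  obtain ⟨u, hu, hu0⟩ := Submodule.exists_mem_ne_zero_of_ne_bot hU0
  -- some element is not scalar on `U`
  obtain ⟨g₀, hg₀⟩ : ∃ g₀, ∀ a : ZMod p, ∃ v ∈ U, ψ g₀ v ≠ a • v := by
    by_contra hall
    simp only [not_exists, not_forall, not_and, not_not] at hall
    choose χ hχ using hall
    have hχmul : ∀ g h, χ (g * h) = χ g * χ h := fun g h => by
      have h1 := hχ (g * h) u hu
      rw [map_mul, Module.End.mul_apply, hχ h u hu, map_smul, hχ g u hu, smul_smul] at h1
      exact (smul_left_injective (ZMod p) hu0 h1).symm.trans (mul_comm _ _)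
    have hχ1 : χ 1 = 1 := by
      have h1 := hχ 1 u hu
      rw [map_one, Module.End.one_apply] at h1
      exact (smul_left_injective (ZMod p) hu0 (by simpa using h1)).symm
    have hχ0 : ∀ g, χ g ≠ 0 := fun g h0 => by
      have h1 := hχmul g g⁻¹
      rw [mul_inv_cancel, hχ1, h0, zero_mul] at h1
      exact one_ne_zero h1
    let r' : G →* Matrix (Fin 2) (Fin 2) (ZMod p) :=
      { toFun := fun g => (χ g)⁻¹ • r g
        map_one' := by simp [hχ1]
        map_mul' := fun g h => by
          rw [hχmul, mul_inv, map_mul, smul_mul_smul_comm] }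
    have hspan' : Submodule.span (ZMod p) (Set.range r') = ⊤ := by
      refine top_le_iff.mp (hspan ▸ Submodule.span_le.mpr ?_)
      rintro _ ⟨g, rfl⟩
      have : r g = χ g • r' g := by simp [r', smul_smul, hχ0 g]
      rw [this]
      exact Submodule.smul_mem _ _ (Submodule.subset_span ⟨g, rfl⟩)
    obtain ⟨g, hg⟩ := exists_det_sub_one_ne_zero r' hspan'
    refine hg ?_
    have h1 := hquad g u (hle hu)
    rw [hχ g u hu, map_smul, hχ g u hu, smul_smul, smul_smul, ← sub_smul, ← add_smul] at h1
    have h2 := (smul_eq_zero.mp h1).resolve_right hu0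
    have hne := hχ0 g
    simp only [r', MonoidHom.coe_mk, OneHom.coe_mk, det_fin_two, Matrix.sub_apply,
      Matrix.smul_apply, smul_eq_mul, Matrix.one_apply, trace_fin_two] at h2 ⊢
    simp at h2 ⊢
    field_simp
    linear_combination h2
  -- elements acting trivially have unipotent image
  have hK : ∀ x, (∀ v ∈ U, ψ x v = v) → (r x).trace = 2 ∧ (r x).det = 1 := by
    intro x hx
    have h1 : ∀ v ∈ U, ((r (g₀ * x)).trace - (r g₀).trace) • ψ g₀ v =
        ((r (g₀ * x)).det - (r g₀).det) • v := by
      intro v hv
      have ha := hquad g₀ v (hle hv)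
      have hb := hquad (g₀ * x) v (hle hv)
      have hx' : ψ (g₀ * x) v = ψ g₀ v := by rw [map_mul, Module.End.mul_apply, hx v hv]
      have hx'' : ψ (g₀ * x) (ψ g₀ v) = ψ g₀ (ψ g₀ v) := by
        rw [map_mul, Module.End.mul_apply, hx _ (hU g₀ v hv)]
      rw [hx', hx''] at hb
      linear_combination (norm := module) ha - hb
    have ht : (r (g₀ * x)).trace = (r g₀).trace := by
      by_contra hne
      obtain ⟨v, hv, hvne⟩ := hg₀ (((r (g₀ * x)).trace - (r g₀).trace)⁻¹ *
        ((r (g₀ * x)).det - (r g₀).det))
      refine hvne ?_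
      rw [mul_smul, ← h1 v hv, smul_smul, inv_mul_cancel₀ (sub_ne_zero.mpr hne), one_smul]
    have hd : (r (g₀ * x)).det = (r g₀).det := by
      have h2 := h1 u hu
      rw [ht, sub_self, zero_smul, eq_comm] at h2
      exact sub_eq_zero.mp ((smul_eq_zero.mp h2).resolve_right hu0)
    have hdet0 : (r g₀).det ≠ 0 := by
      have h : r g₀ * r g₀⁻¹ = 1 := by rw [← map_mul, mul_inv_cancel, map_one]
      intro h0
      have := congrArg Matrix.det h
      rw [det_mul, h0, zero_mul, det_one] at this
      exact zero_ne_one this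
    rw [map_mul, det_mul, mul_eq_left₀ hdet0] at hd
    have h2 := hquad x u (hle hu)
    rw [hx u hu, hx u hu, hd, one_smul] at h2
    have h3 : ((2 : ZMod p) - (r x).trace) • u = 0 := by
      linear_combination (norm := module) h2
    exact ⟨(sub_eq_zero.mp ((smul_eq_zero.mp h3).resolve_right hu0)).symm, hd⟩
  -- hence trivial image, so `r σ` commutes with everything
  have hker : ∀ x, (∀ v ∈ U, ψ x v = v) → r x = 1 := by
    intro x hx
    let H : Subgroup G :=
      { carrier := {x | ∀ v ∈ U, ψ x v = v}
        one_mem' := fun v _ => by simp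
        mul_mem' := fun {a b} ha hb v hv => by rw [map_mul, Module.End.mul_apply, hb v hv, ha v hv]
        inv_mem' := fun {a} ha v hv => by
          conv_lhs => rw [← ha v hv, ← Module.End.mul_apply, ← map_mul, inv_mul_cancel, map_one]
          rfl }
    have : H.Normal := ⟨fun a ha g v hv => by
      rw [map_mul, map_mul, Module.End.mul_apply, Module.End.mul_apply, ha _ (hU g⁻¹ v hv),
        ← Module.End.mul_apply, ← map_mul, mul_inv_cancel, map_one]
      rfl⟩
    let φ : G →* Module.End (ZMod p) (Fin 2 → ZMod p) :=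
      (Matrix.toLinAlgEquiv' (R := ZMod p) (n := Fin 2)).toAlgHom.toRingHom.toMonoidHom.comp r
    have hφ : ∀ g v, φ g v = (r g) *ᵥ v := fun g v => Matrix.toLinAlgEquiv'_apply _ _
    have hline : ∀ W : Submodule (ZMod p) (Fin 2 → ZMod p), IsStableUnder φ W → W ≠ ⊥ → W = ⊤ := by
      intro W hW hW0
      obtain ⟨w, hw, hw0⟩ := Submodule.exists_mem_ne_zero_of_ne_bot hW0
      have hall : ∀ a : Matrix (Fin 2) (Fin 2) (ZMod p), a *ᵥ w ∈ W := by
        intro a
        have ha : a ∈ Submodule.span (ZMod p) (Set.range r) := by rw [hspan]; trivial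
        induction ha using Submodule.span_induction with
        | mem y hy => obtain ⟨g, rfl⟩ := hy; rw [← hφ]; exact hW g w hw
        | zero => simp
        | add y z _ _ hy hz => rw [add_mulVec]; exact W.add_mem hy hz
        | smul c y _ hy => rw [smul_mulVec]; exact W.smul_mem c hy
      obtain ⟨i, hi⟩ := Function.ne_iff.mp hw0
      refine top_le_iff.mp fun v _ => ?_
      have e : (∑ j, Matrix.single j i (v j * (w i)⁻¹)) *ᵥ w = v := by
        have hi' : w i ≠ 0 := hi
        ext j
        fin_cases j <;> simp [Matrix.add_mulVec, Matrix.single_mulVec, Fin.sum_univ_two, mul_assoc,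
          inv_mul_cancel₀ hi']
      rw [← e]
      exact hall _
    have htop := fixed_of_minimal φ (U := ⊤) (fun _ _ _ => trivial) top_ne_bot
      (fun W hW _ hW0 => hline W hW hW0) H (fun h hh v _ => by
        obtain ⟨ht, hd⟩ := hK h hh
        have e : r h * r h - r h = r h - 1 := by
          rw [trace_fin_two] at ht
          rw [det_fin_two] at hd
          ext i j
          fin_cases i <;> fin_cases j <;> simp [Matrix.mul_apply, Fin.sum_univ_two]
          · linear_combination (r h 0 0) * ht - hd
          · linear_combination (r h 0 1) * ht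
          · linear_combination (r h 1 0) * ht
          · linear_combination (r h 1 1) * ht - hd
        rw [map_sub, hφ, hφ, mulVec_mulVec, ← sub_mulVec, e, sub_mulVec, one_mulVec])
    refine Matrix.ext_iff_mulVec.mpr fun v => ?_
    rw [one_mulVec, ← hφ]
    exact htop x hx v trivial
  have hdet : ∀ g, IsUnit (r g) := fun g => (Group.isUnit g).map r
  have hcomm : ∀ g, r σ * r g = r g * r σ := by
    intro g
    have h1 : r ((g * σ)⁻¹ * (σ * g)) = 1 := by
      refine hker _ fun v hv => ?_
      have e : ψ (σ * g) v = ψ (g * σ) v := by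
        rw [map_mul, map_mul, Module.End.mul_apply, Module.End.mul_apply, hcon _ (hU g v hv),
          hcon v hv, map_smul]
      rw [map_mul, Module.End.mul_apply, e, ← Module.End.mul_apply, ← map_mul, inv_mul_cancel,
        map_one]
      rfl
    have h2 : r (σ * g) = r (g * σ) := by
      calc r (σ * g) = r (g * σ) * r ((g * σ)⁻¹ * (σ * g)) := by rw [← map_mul]; group
        _ = _ := by rw [h1, mul_one]
    rwa [map_mul, map_mul] at h2
  have hall : ∀ a, r σ * a = a * r σ := by
    intro a
    have ha : a ∈ Submodule.span (ZMod p) (Set.range r) := by rw [hspan]; trivial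
    induction ha using Submodule.span_induction with
    | mem y hy => obtain ⟨g, rfl⟩ := hy; exact hcomm g
    | zero => simp
    | add y z _ _ hy hz => rw [mul_add, add_mul, hy, hz]
    | smul c y _ hy => rw [mul_smul_comm, smul_mul_assoc, hy]
  obtain ⟨a, ha⟩ := Matrix.mem_range_scalar_of_commute_single (M := r σ)
    fun i j _ => (hall _).symm
  exact hσ a (by rw [← ha]; ext i j; simp [Matrix.one_apply, Matrix.diagonal])

end Fermat.Agent.RT.Mazur
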