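import Fermat.Agent.FiniteFlat.CurveLemmas
import Fermat.Agent.JacTorsion.DescentEquiv
import Fermat.Agent.Mazur.Eisenstein.Cusps
import Fermat.Agent.RT.Mazur.Scale

/-!
# Rational Kummer functions of fixed torsion classes

A torsion class fixed by a set of semilinear automorphisms which fix a place has a Kummer function
fixed by all of them.
-/

set_option autoImplicit false

noncomputable section

open AlgebraicCurve Fermat.Agent.FF

namespace Fermat.Agent.RT.Mazur

section Generic

variable {K F : Type*} [Field K] [Field F] [Algebra K F] [IsFunctionField K F] [IsAlgClosed K]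
variable (S : Set (SemilinearAut K F))

/-- A fixed class contains a fixed divisor, provided some place is fixed. -/
theorem exists_fixed_divisor {P₀ : Place K F} (hP₀ : ∀ g ∈ S, g • P₀ = P₀)
    {x : Pic0 K F} (hx : ∀ g ∈ S, g • x = x) :
    ∃ D : Divisor.degZero (K := K) (F := F),
      Pic0.mk D = x ∧ ∀ g ∈ S, g • (D : Divisor K F) = (D : Divisor K F) := by
  classical
  obtain ⟨⟨D, hD⟩, rfl⟩ := Pic0.mk_surjective x
  rw [Divisor.mem_degZero] at hD
  have hdegP : ∀ n : ℕ, Divisor.degree (Finsupp.single P₀ (n : ℤ)) = n := fun n => by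
    rw [FiniteFlat.degree_single_one]
  have hex : ∃ n : ℕ, 1 ≤ ell K (D + Finsupp.single P₀ (n : ℤ)) := by
    refine ⟨genusFF K F, ?_⟩
    have h := riemann_inequality (D + Finsupp.single P₀ (genusFF K F : ℤ))
    rw [map_add, hD, hdegP, ell_zero] at h
    omega
  set n := Nat.find hex with hn
  set E := D + Finsupp.single P₀ (n : ℤ) with hE
  have h1 : ell K E = 1 := by
    refine le_antisymm ?_ (Nat.find_spec hex)
    rcases Nat.eq_zero_or_pos n with h0 | hpos
    · exact FiniteFlat.ell_le_one_of_degree_eq_zero (by rw [hE, map_add, hD, hdegP, h0]; simp)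
    · obtain ⟨m, hm⟩ := Nat.exists_eq_add_of_le hpos
      have hlt := Nat.find_min hex (m := m) (by omega)
      have hle : D + Finsupp.single P₀ (m : ℤ) ≤ E := by
        rw [hE, add_le_add_iff_left]
        exact Finsupp.le_def.mpr fun w => by
          rcases eq_or_ne w P₀ with rfl | hw
          · simp only [Finsupp.single_eq_same]; omega
          · simp [Finsupp.single_eq_of_ne hw]
      have h := ell_le_of_le hle
      rw [hE, map_add, map_add, hD, hdegP, hdegP] at h
      rw [← hE] at h
      have hnm : (n : ℤ) = m + 1 := by omega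
      omega
  obtain ⟨u, hu, heff⟩ := exists_ne_zero_of_ell_pos (D := E) (by omega)
  have hdeg : Divisor.degree (D + div K u) = 0 := by rw [map_add, hD, degree_div, add_zero]
  refine ⟨⟨D + div K u, Divisor.mem_degZero.mpr hdeg⟩, ?_, fun g hg => ?_⟩
  · refine ((QuotientAddGroup.eq_iff_sub_mem (N := (Divisor.principal (K := K)
      (F := F)).addSubgroupOf (Divisor.degZero (K := K) (F := F)))).mpr ?_)
    rw [AddSubgroup.mem_addSubgroupOf, AddSubgroupClass.coe_sub, add_sub_cancel_left]
    exact ⟨u, hu, fun v => JacTorsion.div_apply _ _⟩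
  · set D₀ := D + div K u with hD₀
    have hfix := hx g hg
    rw [SemilinearAut.pic0_smul_mk] at hfix
    have hp := (QuotientAddGroup.eq_iff_sub_mem).mp hfix
    rw [AddSubgroup.mem_addSubgroupOf, AddSubgroupClass.coe_sub,
      SemilinearAut.coe_degZeroSMulHom] at hp
    obtain ⟨w, hw, hwD⟩ := hp
    have hu' : g • u ≠ 0 := (map_ne_zero (SemilinearAut.toRingAut g)).mpr hu
    have hgdiv : g • div K u = div K (g • u) := Finsupp.ext fun v => by
      rw [SemilinearAut.divisor_smul_apply, JacTorsion.div_apply, JacTorsion.div_apply]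
      have h := SemilinearAut.ord_smul g (g⁻¹ • v) u
      rw [smul_inv_smul] at h
      exact h.symm
    set h : F := w * (g • u) / u with hh
    have hh0 : h ≠ 0 := div_ne_zero (mul_ne_zero hw hu') hu
    have hdiff : g • D₀ = D₀ + div K h := by
      have e1 : g • D - D = div K w := Finsupp.ext fun v => by
        rw [JacTorsion.div_apply]; exact hwD v
      have e2 : div K h = div K w + div K (g • u) - div K u := by
        rw [hh, div_eq_mul_inv, FF.div_mul (mul_ne_zero hw hu') (inv_ne_zero hu), FF.div_mul hw hu',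
          div_inv, sub_eq_add_neg]
      rw [hD₀, smul_add, hgdiv, e2, ← e1]
      abel
    have hE0 : E + div K u = D₀ + Finsupp.single P₀ (n : ℤ) := by rw [hE, hD₀]; abel
    have hpos : (0 : Divisor K F) ≤ g • (E + div K u) := Finsupp.le_def.mpr fun v => by
      rw [SemilinearAut.divisor_smul_apply]
      exact Finsupp.le_def.mp heff _
    have hsm : g • (E + div K u) = g • D₀ + Finsupp.single P₀ (n : ℤ) := by
      rw [hE0, smul_add, SemilinearAut.smul_single, hP₀ g hg]
    have heq := FiniteFlat.eq_of_ell_eq_one heff hpos (by rw [ell_add_div hu, h1]) (f := h)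
      (by rw [hsm, hdiff, hE0]; abel)
    rw [hsm, hE0, add_left_inj] at heq
    exact heq

variable {m : ℕ} [NeZero m]

/-- A fixed torsion class has a fixed Kummer function, normalised by `lead`. -/
theorem exists_fixed_kummer {P₀ : Place K F} (hP₀ : ∀ g ∈ S, g • P₀ = P₀) (lead : F → K)
    (hlead_mul : ∀ (c : K) (y : F), lead (algebraMap K F c * y) = c * lead y)
    (hlead0 : ∀ y : F, y ≠ 0 → lead y ≠ 0)
    (hlead_smul : ∀ g ∈ S, ∀ y : F, lead (g • y) = SemilinearAut.baseAut g (lead y))
    {x : Pic0.torsion K F m} (hx : ∀ g ∈ S, g • (x : Pic0 K F) = x) :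
    ∃ f : JacTorsion.divGrp K F m, JacTorsion.toTorsion (Additive.ofMul f) = x ∧
      lead ((f : Fˣ) : F) = 1 ∧ ∀ g ∈ S, g • ((f : Fˣ) : F) = ((f : Fˣ) : F) := by
  obtain ⟨D, hDx, hfix⟩ := exists_fixed_divisor S hP₀ hx
  have hm := x.2
  rw [Pic0.mem_torsion, ← hDx] at hm
  have hm' := (QuotientAddGroup.eq_zero_iff ((m : ℤ) • D)).mp hm
  rw [AddSubgroup.mem_addSubgroupOf, AddSubgroup.coe_zsmul] at hm'
  obtain ⟨f₁, hf₁, hord⟩ := hm'
  set c := lead f₁ with hc
  have hc0 : c ≠ 0 := hlead0 _ hf₁
  set f : F := algebraMap K F c⁻¹ * f₁ with hf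
  have hf0 : f ≠ 0 := mul_ne_zero ((map_ne_zero _).mpr (inv_ne_zero hc0)) hf₁
  have hordf : ∀ v : Place K F, v.ord f = (m : ℤ) * (D : Divisor K F) v := fun v => by
    rw [hf, v.ord_mul ((map_ne_zero _).mpr (inv_ne_zero hc0)) hf₁, ord_algebraMap, zero_add,
      ← hord v, Finsupp.smul_apply, smul_eq_mul]
  have hmem : Units.mk0 f hf0 ∈ JacTorsion.divGrp K F m := fun v => ⟨_, hordf v⟩
  have hl : lead f = 1 := by rw [hf, hlead_mul, ← hc, inv_mul_cancel₀ hc0]
  refine ⟨⟨_, hmem⟩, ?_, hl, fun g hg => ?_⟩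
  · refine Subtype.ext ?_
    rw [← hDx]
    refine congrArg Pic0.mk (Subtype.ext (JacTorsion.eq_of_smul_eq (m := m) ?_))
    show (m : ℤ) • JacTorsion.divQuot ⟨_, hmem⟩ = _
    rw [JacTorsion.smul_divQuot]
    exact Finsupp.ext fun v => by
      rw [JacTorsion.div_apply, Finsupp.smul_apply, smul_eq_mul, ← hordf v]; rfl
  · show g • f = f
    have hgf0 : g • f ≠ 0 := (map_ne_zero (SemilinearAut.toRingAut g)).mpr hf0
    obtain ⟨a, ha⟩ : ∃ a : K, g • f / f = algebraMap K F a := by
      refine eq_algebraMap_of_ord_nonneg fun v => ?_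
      have h1 := SemilinearAut.ord_smul g (g⁻¹ • v) f
      rw [smul_inv_smul] at h1
      rw [JacTorsion.ord_div v hgf0 hf0, h1, hordf, hordf]
      have h2 := DFunLike.congr_fun (hfix g hg) v
      rw [SemilinearAut.divisor_smul_apply] at h2
      rw [h2, sub_self]
    have h3 : g • f = algebraMap K F a * f := by rw [← ha, div_mul_cancel₀ _ hf0]
    have h4 := congrArg lead h3
    rw [hlead_smul g hg, hl, map_one, hlead_mul a f, hl, mul_one] at h4
    rw [h3, ← h4, map_one, one_mul]

end Generic

section Modular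

open ModularCurve Fermat.Agent.Semistable Fermat.Agent.Arith

variable {N : ℕ} [NeZero N]

/-- Galois fixes the cusp at infinity. -/
theorem galois_smul_placeInf (σ : GQ) :
    arithmeticGalois (modularFunctionFieldFull N) σ • Mazur.Eisenstein.placeInf N =
      Mazur.Eisenstein.placeInf N := by
  set g := arithmeticGalois (modularFunctionFieldFull N) σ
  set P := Mazur.Eisenstein.placeInf N
  have key : ∀ x : FB N, x ≠ 0 → (g • P).ord x = P.ord x := by
    intro x hx
    have hx' : g⁻¹ • x ≠ 0 := (map_ne_zero (SemilinearAut.toRingAut g⁻¹)).mpr hx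
    have h := SemilinearAut.ord_smul g P (g⁻¹ • x)
    rw [smul_inv_smul] at h
    rw [h, Mazur.Eisenstein.ord_placeInf N hx', Mazur.Eisenstein.ord_placeInf N hx]
    have e : ((g⁻¹ • x : FB N) : LSer) = coeffMap ((σ⁻¹ : GQ) : QBar →+* QBar) (x : LSer) := by
      rw [← map_inv]
      rfl
    rw [e]
    have hne : (x : LSer) ≠ 0 := fun h0 => hx (Subtype.ext h0)
    have hne' : coeffMap ((σ⁻¹ : GQ) : QBar →+* QBar) (x : LSer) ≠ 0 := (map_ne_zero _).mpr hne
    refine le_antisymm (HahnSeries.order_le_of_coeff_ne_zero ?_)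
      (HahnSeries.order_le_of_coeff_ne_zero ?_)
    · rw [coeff_coeffMap]
      simpa using mt HahnSeries.coeff_order_eq_zero.mp hne
    · have := mt HahnSeries.coeff_order_eq_zero.mp hne'
      rw [coeff_coeffMap] at this
      exact fun h0 => this (by rw [h0, map_zero])
  refine Place.ext (SetLike.ext fun x => ?_)
  rcases eq_or_ne x 0 with rfl | hx
  · simp
  · rw [JacTorsion.mem_iff_ord_nonneg, JacTorsion.mem_iff_ord_nonneg, key x hx]

/-- An inertia-fixed torsion class has a Kummer function with inertia-fixed coefficients and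
leading coefficient one. -/
theorem exists_rational_kummer {m : ℕ} [NeZero m] (A : ValuationSubring QBar)
    (x : Pic0.torsion QBar (FB N) m)
    (hx : ∀ τ ∈ A.inertiaSubgroupIn ℚ, τ • (x : JZero N) = x) :
    ∃ f : JacTorsion.divGrp QBar (FB N) m, JacTorsion.toTorsion (Additive.ofMul f) = x ∧
      (((f : (FB N)ˣ) : FB N) : LSer).leadingCoeff = 1 ∧
      InertiaFixed A (((f : (FB N)ˣ) : FB N) : LSer) := by
  obtain ⟨f, hfx, hl, hfix⟩ := exists_fixed_kummer
    (S := arithmeticGalois (modularFunctionFieldFull N) '' (A.inertiaSubgroupIn ℚ : Set GQ))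
    (P₀ := Mazur.Eisenstein.placeInf N)
    (by rintro _ ⟨τ, -, rfl⟩; exact galois_smul_placeInf τ)
    (fun y : FB N => (y : LSer).leadingCoeff)
    (fun c y => by
      show ((algebraMap QBar LSer c) * (y : LSer)).leadingCoeff = _
      rw [HahnSeries.leadingCoeff_mul, algebraMap_laurentSeries_eq_single,
        HahnSeries.leadingCoeff_of_single])
    (fun y hy => HahnSeries.leadingCoeff_ne_zero.mpr fun h => hy (Subtype.ext h))
    (by rintro _ ⟨τ, -, rfl⟩ y; exact JacTorsion.coeffMap_leadingCoeff (τ : QBar →+* QBar) _)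
    (x := x) (by rintro _ ⟨τ, hτ, rfl⟩; exact hx τ hτ)
  exact ⟨f, hfx, hl, fun τ hτ =>
    congrArg Subtype.val (hfix _ ⟨τ, hτ, rfl⟩)⟩

end Modular

end Fermat.Agent.RT.Mazur

end
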