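import Fermat.Agent.RT.Mazur.FixedBasis
import Fermat.Agent.RT.Mazur.Units
import Fermat.Agent.RT.MazurP.Coeff
import Fermat.Agent.Semistable.GoodM
import Fermat.Agent.FF.GenusEq
import Fermat.Agent.Genus.Main
import Fermat.Agent.FiniteFlat.Instance

/-!
# Numerics and units for the orders of reductions

The genus identity at levels `M` and `q M`, rounded divisors, and the reduction of the unit.
-/

set_option autoImplicit false
set_option synthInstance.maxHeartbeats 400000
set_option maxHeartbeats 1000000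

noncomputable section

namespace Fermat.Agent.RT.Mazur

open ModularCurve AlgebraicCurve Polynomial
open Fermat.Agent.Semistable Fermat.Agent.Arith

/-! ### Numerics -/

theorem cuspCount_prime_mul {q M : ℕ} [NeZero M] (hq : q.Prime) (hqM : ¬ q ∣ M) :
    cuspCount (q * M) = 2 * cuspCount M := by
  classical
  have hM : M ≠ 0 := NeZero.ne M
  have hco : Nat.Coprime q M := (Nat.Prime.coprime_iff_not_dvd hq).mpr hqM
  have hdvd : ∀ d, d ∣ M → Nat.Coprime q d := fun d hd => hco.coprime_dvd_right hd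
  have hsplit : (q * M).divisors = M.divisors ∪ M.divisors.image (q * ·) := by
    ext d
    simp only [Finset.mem_union, Finset.mem_image, Nat.mem_divisors]
    constructor
    · rintro ⟨hd, -⟩
      rcases dvs_cases q M hq hd with h | ⟨e, he, h⟩
      · exact Or.inl ⟨h, hM⟩
      · exact Or.inr ⟨e, ⟨he, hM⟩, h.symm⟩
    · rintro (⟨hd, -⟩ | ⟨e, ⟨he, -⟩, rfl⟩)
      · exact ⟨dvd_mul_of_dvd_right hd q, mul_ne_zero hq.ne_zero hM⟩
      · exact ⟨mul_dvd_mul_left q he, mul_ne_zero hq.ne_zero hM⟩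
  have hdisj : Disjoint M.divisors (M.divisors.image (q * ·)) := by
    rw [Finset.disjoint_left]
    intro d hd hd'
    obtain ⟨e, -, rfl⟩ := Finset.mem_image.mp hd'
    exact hqM ((dvd_mul_right q e).trans (Nat.dvd_of_mem_divisors hd))
  rw [cuspCount, cuspCount, hsplit, Finset.sum_union hdisj,
    Finset.sum_image fun x _ y _ h => Nat.eq_of_mul_eq_mul_left hq.pos h, two_mul]
  congr 1 <;> refine Finset.sum_congr rfl fun d hd => ?_ <;>
    have hd' := Nat.dvd_of_mem_divisors hd
  · rw [Nat.mul_div_assoc q hd', Nat.Coprime.gcd_mul_left_cancel_right (M / d) (hdvd d hd')]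
  · rw [Nat.mul_div_mul_left M d hq.pos,
      Nat.Coprime.gcd_mul_left_cancel d (hdvd (M / d) (Nat.div_dvd_of_dvd hd'))]

/-- A level without elliptic points. -/
def NoElliptic (M : ℕ) : Prop := nuTwo M = 0 ∧ nuThree M = 0

theorem noElliptic_of_dvd {M d : ℕ} (hd : d = 4 ∨ d = 9) (h : d ∣ M) : NoElliptic M :=
  RedTorsion.no_root_sq_add_one hd h

theorem NoElliptic.mono {M M' : ℕ} (hM : NoElliptic M) (h : M ∣ M') (hM0 : M ≠ 0) :
    NoElliptic M' := by
  have : NeZero M := ⟨hM0⟩
  obtain ⟨h2, h3⟩ := hM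
  rw [nuTwo, Nat.card_eq_zero, or_iff_left (not_infinite_iff_finite.mpr inferInstance)] at h2
  rw [nuThree, Nat.card_eq_zero, or_iff_left (not_infinite_iff_finite.mpr inferInstance)] at h3
  refine ⟨Nat.card_eq_zero.mpr (Or.inl ⟨fun ⟨y, hy⟩ => ?_⟩),
    Nat.card_eq_zero.mpr (Or.inl ⟨fun ⟨y, hy⟩ => ?_⟩)⟩
  · exact h2.elim ⟨ZMod.castHom h (ZMod M) y, by
      have := congrArg (ZMod.castHom h (ZMod M)) hy
      rwa [map_add, map_pow, map_one, map_zero] at this⟩
  · exact h3.elim ⟨ZMod.castHom h (ZMod M) y, by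
      have := congrArg (ZMod.castHom h (ZMod M)) hy
      rwa [map_add, map_add, map_pow, map_one, map_zero] at this⟩

theorem genus_FB {M : ℕ} [NeZero M] (hell : NoElliptic M) :
    (genusFF QBar (FB M) : ℚ) = 1 + (dedekindPsi M : ℚ) / 12 - (cuspCount M : ℚ) / 2 := by
  have h : (genus QBar (FB M) : ℚ) = genusFormula M := Genus.genus_eq_genusFormula (N := M)
  rw [FF.genus_eq_genusFF, genusFormula, hell.1, hell.2] at h
  rw [h]
  simp

/-- The genus identity behind the orders. -/
theorem genus_identity {q M : ℕ} [NeZero M] [Fact q.Prime] (hqM : ¬ q ∣ M) (hell : NoElliptic M) :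
    12 * ((genusFF QBar (FB (q * M)) : ℤ) + 1 - 2 * genusFF QBar (FB M)) =
      ((q : ℤ) - 1) * dedekindPsi M := by
  have h1 := genus_FB (M := q * M) (hell.mono (dvd_mul_left M q) (NeZero.ne M))
  have h2 := genus_FB (M := M) hell
  rw [cuspCount_prime_mul Fact.out hqM, Gamma0.dedekindPsi_mul_of_not_dvd Fact.out hqM] at h1
  have : (12 : ℚ) * ((genusFF QBar (FB (q * M)) : ℚ) + 1 - 2 * genusFF QBar (FB M)) =
      ((q : ℚ) - 1) * dedekindPsi M := by
    rw [h1, h2]; push_cast; ring
  exact_mod_cast this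

/-- The genus does not drop in residue fields of characteristic prime to the level. -/
theorem goodM_of_ne_zero {A : ValuationSubring QBar} {M : ℕ} [NeZero M]
    (hM : (M : Res A) ≠ 0) : GoodM A M := by
  have := Arith.residueField_isAlgClosed A
  have : FF.IsFunctionField (Res A) (KM A M) := RedTorsion.isFunctionField_full rfl hM
  have : FF.IsFunctionField QBar (modularFunctionFieldBar M) := EichlerShimura.isFunctionField_bar
  exact (FiniteFlat.genusFF_eq_of_goodRed (FiniteFlat.goodRed hM)).ge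

/-! ### Divisors divided by an integer -/

section Divisors

variable {K F : Type*} [Field K] [Field F] [Algebra K F]

/-- The rounded down quotient of a divisor by an integer. -/
def divFloor (k : ℤ) (X : Divisor K F) : Divisor K F :=
  Finsupp.mapRange (fun s : ℤ => s / k) (Int.zero_ediv k) X

@[simp]
theorem divFloor_apply (k : ℤ) (X : Divisor K F) (v : Place K F) : divFloor k X v = X v / k :=
  Finsupp.mapRange_apply ..

variable [IsAlgClosed K] [FF.IsFunctionField K F]

omit [IsAlgClosed K] in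
theorem mul_degree_divFloor_le {k : ℤ} (hk : 0 < k) (X : Divisor K F) :
    k * Divisor.degree (divFloor k X) ≤ Divisor.degree X := by
  have h : k • divFloor k X ≤ X := Finsupp.le_def.mpr fun v => by
    rw [Finsupp.smul_apply, divFloor_apply, smul_eq_mul]
    exact Int.mul_ediv_self_le hk.ne'
  have := FF.degree_mono h
  rwa [map_zsmul, smul_eq_mul] at this

theorem dvd_of_degree_divFloor {k : ℤ} (hk : 0 < k) (X : Divisor K F)
    (h : Divisor.degree X ≤ k * Divisor.degree (divFloor k X)) (v : Place K F) : k ∣ X v := by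
  classical
  set E := X - k • divFloor k X with hE
  have hE0 : ∀ w, 0 ≤ E w := fun w => by
    rw [hE, Finsupp.sub_apply, Finsupp.smul_apply, divFloor_apply, smul_eq_mul, sub_nonneg]
    exact Int.mul_ediv_self_le hk.ne'
  have hdeg : Divisor.degree E ≤ 0 := by
    rw [hE, map_sub, map_zsmul, smul_eq_mul]; linarith
  have hEv : E v = 0 := by
    by_contra hne
    rw [FF.degree_eq_sum E E.support subset_rfl] at hdeg
    have : 0 < ∑ w ∈ E.support, E w * (w.deg : ℤ) := by
      refine Finset.sum_pos' (fun w _ => by rw [FF.deg_eq_one]; simpa using hE0 w)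
        ⟨v, Finsupp.mem_support_iff.mpr hne, ?_⟩
      rw [FF.deg_eq_one]
      simpa using lt_of_le_of_ne (hE0 v) (Ne.symm hne)
    linarith
  rw [hE, Finsupp.sub_apply, Finsupp.smul_apply, divFloor_apply, smul_eq_mul, sub_eq_zero] at hEv
  exact ⟨_, hEv⟩

end Divisors

/-! ### The reduction of the unit -/

section Rho

variable {k : Type*} [Field k]

theorem rhoSer_ne_zero (q : ℕ) [Fact q.Prime] : rhoSer q k ≠ 0 :=
  mul_ne_zero Igusa.deltaSer_ne_zero ((_root_.map_ne_zero _).mpr Igusa.deltaInvSer_ne_zero)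

theorem order_rhoSer (q : ℕ) [Fact q.Prime] : (rhoSer q k).order = 1 - (q : ℤ) := by
  rw [rhoSer, HahnSeries.order_mul Igusa.deltaSer_ne_zero
    ((_root_.map_ne_zero _).mpr Igusa.deltaInvSer_ne_zero), Igusa.order_qExpand Igusa.deltaInvSer_ne_zero,
    Igusa.order_deltaSer, Igusa.order_deltaInvSer]
  ring

end Rho

variable {A : ValuationSubring QBar} {q : ℕ} [hq : Fact q.Prime] [CharP (Res A) q]
  {M : ℕ} [NeZero M] [FF.IsFunctionField (Res A) (KM A M)]

omit [NeZero M] in
/-- The reduction of the unit is a rational function of `j`, of pole order `q - 1` at every cusp. -/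
theorem exists_rho :
    ∃ ρ : KM A M, (ρ : LaurentSeries (Res A)) = rhoSer q (Res A) ∧
      ∀ P : Place (Res A) (KM A M), P.ord (jK A M) < 0 →
        P.ord ρ = ((q : ℤ) - 1) * P.ord (jK A M) := by
  have h1 : ¬ q ∣ 1 := hq.out.not_dvd_one
  have hU := unitU_mem_intS q 1 h1 A
  have hmem : unitU q 1 h1 ∈ loc2 A (iota2 1 q h1) := by
    rw [mem_loc2_iff]
    refine ⟨intS_le_locS hU, ?_⟩
    have hw := wEquiv_unitU_mul q 1 h1
    have hw' : (wEquiv q 1 h1 (unitU q 1 h1) : LSer) =
        algebraMap QBar LSer ((q : QBar) ^ 12) * (unitU q 1 h1 : LSer)⁻¹ :=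
      (eq_mul_inv_iff_mul_eq₀ fun h => unitU_ne_zero q 1 h1 (Subtype.ext h)).mpr
        (congrArg Subtype.val hw)
    rw [hw']
    refine mul_mem (algebraMap_mem_locS (pow_mem (natCast_mem A q) 12)) ?_
    exact (inv_mem_locS (intS_le_locS hU) (by rw [redL_unitU]; exact rhoSer_ne_zero q)).1
  have hρ1 : rhoSer q (Res A) ∈ KM A 1 := by
    have h := red2_mem_KM 1 q h1 (A := A) (by simp) ⟨_, hmem⟩ 0
    rwa [red2_apply, redL_congr _ (intS_le_locS hU) (iota2_zero 1 q h1 _), redL_unitU] at h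
  have hρj : rhoSer q (Res A) ∈
      IntermediateField.adjoin (Res A) ({jqModC (Res A)} : Set (LaurentSeries (Res A))) := by
    refine IntermediateField.adjoin.mono _ _ _ ?_ hρ1
    rintro x ⟨d, hd, hd1, rfl⟩
    obtain rfl := Nat.dvd_one.mp hd1
    exact qExpand_one_apply _
  obtain ⟨r, s, hrs⟩ := IntermediateField.mem_adjoin_simple_iff _ _ |>.mp hρj
  have hcoe : ∀ p : (Res A)[X], ((aeval (jK A M) p : KM A M) : LaurentSeries (Res A)) =
      aeval (jqModC (Res A)) p := fun p => (aeval_algHom_apply (KM A M).val (jK A M) p).symm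
  set ρ : KM A M := aeval (jK A M) r / aeval (jK A M) s with hρdef
  have hρ : (ρ : LaurentSeries (Res A)) = rhoSer q (Res A) := by
    rw [hρdef, IntermediateField.coe_div, hcoe, hcoe, ← hrs]
  have hr : r ≠ 0 := by rintro rfl; exact rhoSer_ne_zero q (by rw [hrs, map_zero, zero_div])
  have hs : s ≠ 0 := by rintro rfl; exact rhoSer_ne_zero q (by rw [hrs, map_zero, div_zero])
  have key : ∀ P : Place (Res A) (KM A M), P.ord (jK A M) < 0 →
      P.ord ρ = ((r.natDegree : ℤ) - s.natDegree) * P.ord (jK A M) := by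
    intro P hP
    obtain ⟨a1, a2⟩ := RedTorsion.ord_aeval_of_pole P hP r hr
    obtain ⟨b1, b2⟩ := RedTorsion.ord_aeval_of_pole P hP s hs
    rw [hρdef, FF.ord_div P a1 b1, a2, b2]
    ring
  -- the place at infinity
  have hj : 1 < ModFun.valInf (Res A) ((KM A M).val (jK A M)) := by
    have hj0 : jqModC (Res A) ≠ 0 := fun h0 => by
      simpa [h0] using Igusa.order_jqModC (K := Res A)
    show 1 < ModFun.valInf (Res A) (jqModC (Res A))
    rw [ModFun.valInf_apply hj0, Igusa.order_jqModC, ← WithZero.exp_zero, WithZero.exp_lt_exp]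
    norm_num
  let P₀ : Place (Res A) (KM A M) := ModFun.placeOfEmb (ModFun.valInf (Res A))
    (fun _ hc => ModFun.valInf_constant hc) (KM A M).val hj
  obtain ⟨e, he, hord⟩ := ModFun.exists_pos_mul_of_mem_iff P₀ (ModFun.valInf (Res A))
    (KM A M).val (fun f => ModFun.mem_placeOfEmb _ _ _ _ f)
  have hρ0 : ρ ≠ 0 := fun h => rhoSer_ne_zero q (by rw [← hρ, h]; rfl)
  have hjK0 : jK A M ≠ 0 := fun h => by
    have := Igusa.order_jqModC (K := Res A)
    rw [← coe_jK, h] at this
    simp at this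
  have e1 := hord _ hjK0
  have e2 := hord _ hρ0
  rw [IntermediateField.coe_val, ModFun.ordL_valInf (fun h => hjK0 (Subtype.ext h)), coe_jK,
    Igusa.order_jqModC] at e1
  rw [IntermediateField.coe_val, ModFun.ordL_valInf (fun h => hρ0 (Subtype.ext h)), hρ,
    order_rhoSer] at e2
  have hP₀ : P₀.ord (jK A M) < 0 := by nlinarith
  rw [key P₀ hP₀] at e2
  have hdeg : (r.natDegree : ℤ) - s.natDegree = (q : ℤ) - 1 := by
    linear_combination e2 - ((r.natDegree : ℤ) - s.natDegree) * e1
  exact ⟨ρ, hρ, fun P hP => hdeg ▸ key P hP⟩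

/-! ### Orders -/

omit [CharP (Res A) q] [NeZero M] [FF.IsFunctionField (Res A) (KM A M)] in
/-- A fixed integral series with zero reduction is `q` times an integral one. -/
theorem inv_mul_mem_locS (hA : A.LiesOverPrime q) {x : LSer} (hx : x ∈ locS A)
    (hf : InertiaFixed A x) (hxs : x ∈ fracS A) (h : redL A ⟨x, hx⟩ = 0) :
    algebraMap QBar LSer (q : QBar)⁻¹ * x ∈ locS A := by
  rcases eq_or_ne x 0 with rfl | h0
  · rw [mul_zero]; exact zero_mem _
  obtain ⟨n, hn⟩ := exists_zpow_isGUnit hA hq.out hxs h0 hf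
  have hqA : (q : QBar) ∈ A := natCast_mem A q
  have hn1 : 1 ≤ n := by
    by_contra hle
    obtain ⟨t, ht⟩ : ∃ t : ℕ, -n = t := Int.eq_ofNat_of_zero_le (by omega)
    obtain ⟨hl, hne⟩ := hn
    refine hne ?_
    obtain ⟨hm, e⟩ := redL_const_mul (pow_mem hqA t) hx
    rw [h, mul_zero] at e
    rw [← e]
    exact redL_congr _ _ (by rw [ht, zpow_natCast])
  obtain ⟨t, ht⟩ : ∃ t : ℕ, n - 1 = t := Int.eq_ofNat_of_zero_le (by omega)
  obtain ⟨hl, -⟩ := hn
  have h' := mul_mem (algebraMap_mem_locS (pow_mem hqA t)) hl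
  rwa [← mul_assoc, ← map_mul, ← zpow_natCast, ← ht,
    ← zpow_add₀ (Nat.cast_ne_zero.mpr hq.out.ne_zero), show n - 1 + -n = -1 by ring,
    zpow_neg_one] at h'

omit [CharP (Res A) q] [FF.IsFunctionField (Res A) (KM A M)] in
theorem ord_algEquiv {K F : Type*} [Field K] [Field F] [Algebra K F] (σ : F ≃ₐ[K] F)
    (v : Place K F) (f : F) : v.ord (σ f) = (σ⁻¹ • v).ord f := by
  have h := Place.ord_smul σ (σ⁻¹ • v) f
  rwa [smul_inv_smul] at h

end Fermat.Agent.RT.Mazur

end
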