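import Fermat.Agent.RT.MazurP.Embed

/-!
# A plane of eigen classes carrying a given representation

An eigen class of `J₀(N)[p]` for the traces of an absolutely irreducible two dimensional
representation `r` of finite level generates classes containing a Galois stable copy of `r`.
-/

set_option autoImplicit false
set_option synthInstance.maxHeartbeats 400000

noncomputable section

namespace Fermat.Agent.RT.Mazur

open ModularCurve AlgebraicCurve Fermat.Agent.Arith Fermat.Agent.GaloisReps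
open Matrix
open MazurP (IsEigen galois_smul_zsmul)

variable {p : ℕ} [Fact p.Prime]

set_option maxHeartbeats 1000000 in
/-- A finite stable group on which Frobenius elements satisfy the quadratics of `r` contains it. -/
theorem exists_plane {J : Type*} [AddCommGroup J] [DistribMulAction GQ J]
    (V : AddSubgroup J) [Finite V] (hV0 : V ≠ ⊥) (hpV : ∀ v ∈ V, p • v = 0)
    (hst : ∀ g : GQ, ∀ v ∈ V, g • v ∈ V)
    (hfix : ∀ v ∈ V, ∃ L : IntermediateField ℚ QBar, FiniteDimensional ℚ L ∧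
      ∀ τ : GQ, (∀ z ∈ L, τ z = z) → τ • v = v)
    (r : GQ →* Matrix (Fin 2) (Fin 2) (ZMod p))
    (hfin : ∃ L : IntermediateField ℚ QBar, FiniteDimensional ℚ L ∧
      ∀ τ : GQ, (∀ z ∈ L, τ z = z) → r τ = 1)
    (hspan : Submodule.span (ZMod p) (Set.range r) = ⊤) (a : ℕ → ℤ) (S : Finset ℕ)
    (hfrob : ∀ l : ℕ, l.Prime → l ∉ S → ∀ B : ValuationSubring QBar, B.LiesOverPrime l →
      ∀ σ : GQ, B.IsFrobeniusAt σ l → (r σ).trace = (a l : ZMod p) ∧ (r σ).det = (l : ZMod p) ∧
        ∀ v ∈ V, σ • σ • v - a l • (σ • v) + l • v = 0) :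
    ∃ ι : (Fin 2 → ZMod p) →+ J, Function.Injective ι ∧ (∀ v, ι v ∈ V) ∧
      ∀ g v, ι (r g *ᵥ v) = g • ι v := by
  classical
  have htorV : ∀ v : V, p • v = 0 := fun v => Subtype.ext (hpV v v.2)
  let _ : Module (ZMod p) V := AddCommGroup.zmodModule (n := p) htorV
  let act : GQ → V →+ V := fun g =>
    { toFun := fun v => ⟨g • (v : J), hst g v v.2⟩
      map_zero' := Subtype.ext (smul_zero g)
      map_add' := fun v w => Subtype.ext (smul_add g (v : J) w) }
  let ψ : GQ →* Module.End (ZMod p) V :=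
    { toFun := fun g => (act g).toZModLinearMap p
      map_one' := LinearMap.ext fun v => Subtype.ext (one_smul GQ (v : J))
      map_mul' := fun g h => LinearMap.ext fun v => Subtype.ext (mul_smul g h (v : J)) }
  have hψ : ∀ g (v : V), ((ψ g v : V) : J) = g • (v : J) := fun g v => rfl
  have hsmul : ∀ (c : ℤ) (v : V), (((c : ZMod p) • v : V) : J) = c • (v : J) := fun c v => by
    rw [Int.cast_smul_eq_zsmul]; rfl
  have hquad : ∀ g, ψ g * ψ g - (r g).trace • ψ g + (r g).det • 1 = 0 := by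
    intro g
    obtain ⟨L₁, hL₁, h₁⟩ := hfin
    choose L₂ hL₂ h₂ using fun w : V => hfix w w.2
    have : ∀ w, FiniteDimensional ℚ (L₂ w) := hL₂
    obtain ⟨ℓ, hℓ, hℓS, B, hB, σ, hσ, ⟨i, hi⟩, -⟩ :=
      Arith.Density.exists_frobenius_pow (r.prod ψ) (L₁ ⊔ ⨆ w, L₂ w) (fun τ hτ => Prod.ext
        (h₁ τ fun z hz => hτ z ((le_sup_left : L₁ ≤ L₁ ⊔ ⨆ w, L₂ w) hz))
        (LinearMap.ext fun w => Subtype.ext (h₂ w τ fun z hz =>
          hτ z ((le_sup_right : ⨆ w, L₂ w ≤ L₁ ⊔ ⨆ w, L₂ w) (le_iSup L₂ w hz))))) g S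
    obtain ⟨htrσ, hdetσ, hv⟩ := hfrob ℓ hℓ hℓS B hB σ hσ
    obtain ⟨hrg, hψg⟩ := Prod.ext_iff.mp hi
    simp only [MonoidHom.prod_apply, Prod.pow_fst, Prod.pow_snd] at hrg hψg
    set c : ZMod p := (a ℓ : ZMod p) with hc
    have hq : ψ σ * ψ σ - algebraMap (ZMod p) _ c * ψ σ + (ℓ : Module.End (ZMod p) V) = 0 := by
      refine LinearMap.ext fun w => Subtype.ext ?_
      have he := hv w w.2
      simp only [LinearMap.add_apply, LinearMap.sub_apply, Module.End.mul_apply,
        Module.algebraMap_end_apply, Module.End.natCast_apply, LinearMap.zero_apply,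
        AddSubgroup.coe_add, AddSubgroup.coe_sub, AddSubgroup.coe_zero,
        AddSubmonoidClass.coe_nsmul, hc, hsmul, hψ]
      exact he
    have hi2 := pow_quadratic (Algebra.commutes c (ψ σ)) ℓ hq i
    rw [← map_natCast (algebraMap (ZMod p) (Module.End (ZMod p) V)) ℓ, ← map_powerTrace,
      ← map_natCast (algebraMap (ZMod p) (Module.End (ZMod p) V)) (ℓ ^ i)] at hi2
    have htr : (r g).trace = powerTrace c (ℓ : ZMod p) i := by
      have hcp : LinearMap.charpoly (Matrix.toLin' (r σ)) =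
          Polynomial.X ^ 2 - Polynomial.C c * Polynomial.X + Polynomial.C (ℓ : ZMod p) := by
        rw [Matrix.charpoly_toLin', Matrix.charpoly_fin_two, htrσ, hdetσ]
      have e := trace_pow_of_charpoly (Module.finrank_fin_fun (ZMod p)) _ c ℓ hcp i
      rwa [← Matrix.toLin'_pow, Matrix.trace_toLin'_eq, ← hrg] at e
    have hdet : (r g).det = ((ℓ ^ i : ℕ) : ZMod p) := by
      rw [hrg, Matrix.det_pow, hdetσ, Nat.cast_pow]
    rw [htr, hdet, hψg, Algebra.smul_def, Algebra.smul_def, mul_one]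
    exact hi2
  have : Nontrivial V := by
    obtain ⟨v, hv, hv0⟩ : ∃ v ∈ V, v ≠ 0 := by
      by_contra hall
      simp only [not_exists, not_and, not_not] at hall
      exact hV0 (V.eq_bot_iff_forall.mpr hall)
    exact ⟨⟨⟨v, hv⟩, 0, fun e => hv0 (congrArg Subtype.val e)⟩⟩
  obtain ⟨ι, hι, hιg⟩ := MazurP.exists_embedding hquad hspan
  exact ⟨V.subtype.comp ι.toAddMonoidHom, Subtype.val_injective.comp hι, fun v => (ι v).2,
    fun g v => congrArg Subtype.val (hιg g v)⟩

variable {N : ℕ} [NeZero N]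

/-- **A plane of eigen classes carrying `r`.** -/
theorem exists_eigen_plane (r : GQ →* Matrix (Fin 2) (Fin 2) (ZMod p))
    (hfin : ∃ L : IntermediateField ℚ QBar, FiniteDimensional ℚ L ∧
      ∀ τ : GQ, (∀ z ∈ L, τ z = z) → r τ = 1)
    (hspan : Submodule.span (ZMod p) (Set.range r) = ⊤) (G : ℕ → Prop) (a : ℕ → ℤ)
    (hcof : ∃ S : Finset ℕ, ∀ l : ℕ, l.Prime → l ∉ S → G l)
    (hfrob : ∀ l : ℕ, l.Prime → G l → ∀ B : ValuationSubring QBar, B.LiesOverPrime l →
      ∀ σ : GQ, B.IsFrobeniusAt σ l → (r σ).trace = (a l : ZMod p) ∧ (r σ).det = (l : ZMod p))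
    {x : JZero N} (hx0 : x ≠ 0) (hpx : p • x = 0) (hxe : IsEigen N G a x) :
    ∃ ι : (Fin 2 → ZMod p) →+ JZero N, Function.Injective ι ∧
      (∀ v, p • ι v = 0 ∧ IsEigen N G a (ι v)) ∧ ∀ g v, ι (r g *ᵥ v) = g • ι v := by
  classical
  have hp : p.Prime := Fact.out
  have : NeZero (p ^ 1) := ⟨pow_ne_zero 1 hp.ne_zero⟩
  have hES := congruenceProperty_all EichlerShimura.injectiveOnTorsion_all N p
  let V : AddSubgroup (JZero N) :=
    { carrier := {v | p • v = 0 ∧ IsEigen N G a v}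
      zero_mem' := ⟨nsmul_zero _, fun l hl _ => by simp⟩
      add_mem' := fun {v w} hv hw => ⟨by rw [nsmul_add, hv.1, hw.1, add_zero], fun l hl hGl => by
        rw [map_add, hv.2 l hl hGl, hw.2 l hl hGl, zsmul_add]⟩
      neg_mem' := fun {v} hv => ⟨by rw [neg_nsmul, hv.1, neg_zero], fun l hl hGl => by
        rw [map_neg, hv.2 l hl hGl, zsmul_neg]⟩ }
  have htors : ∀ v ∈ V, v ∈ JTors N p 1 := fun v hv => by
    rw [Pic0.mem_torsion, pow_one, natCast_zsmul]; exact hv.1
  have : Finite (JTors N p 1) :=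
    Finite.of_injective _ ((torsionIso N p (conjProperty N)).psi 1).injective
  have : Finite V := Finite.of_injective (fun v : V => (⟨v, htors v v.2⟩ : JTors N p 1))
    fun v w h => Subtype.ext (congrArg Subtype.val h :)
  obtain ⟨S, hS⟩ := hcof
  obtain ⟨ι, hι, hιV, hιg⟩ := exists_plane V
    (fun e => hx0 ((AddSubgroup.eq_bot_iff_forall V).mp e x ⟨hpx, hxe⟩)) (fun v hv => hv.1)
    (fun g v hv =>
      ⟨(map_nsmul (DistribSMul.toAddMonoidHom (JZero N) g) p v).symm.trans
        ((congrArg (g • ·) hv.1).trans (smul_zero (A := JZero N) g)),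
      fun l hl hGl => (galois_heckeOperatorBar (N := N) ⟨l, hl⟩ g v).symm.trans
        ((congrArg (g • ·) (hv.2 l hl hGl)).trans (galois_smul_zsmul g _ v))⟩)
    (fun v hv => exists_fixing_torsion (N := N) ⟨v, htors v hv⟩) r hfin hspan a
    (S ∪ (N * p).primeFactors)
    (fun l hl hlS B hB σ hσ => by
      rw [Finset.mem_union, not_or] at hlS
      have hlN : ¬ l ∣ N * p := fun h => hlS.2 (Nat.mem_primeFactors.mpr
        ⟨hl, h, mul_ne_zero (NeZero.ne N) hp.ne_zero⟩)
      refine ⟨(hfrob l hl (hS l hl hlS.1) B hB σ hσ).1, (hfrob l hl (hS l hl hlS.1) B hB σ hσ).2,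
        fun v hv => ?_⟩
      have he := (hES l hl hlN B hB 1 ⟨v, htors v hv⟩).2 σ hσ
      have hT := (galois_heckeOperatorBar (N := N) ⟨l, hl⟩ σ v).symm.trans
        ((congrArg (σ • ·) (hv.2 l hl (hS l hl hlS.1))).trans (galois_smul_zsmul σ _ v))
      exact (congrArg (fun y => σ • σ • v - y + l • v) hT).symm.trans he)
  exact ⟨ι, hι, hιV, hιg⟩

end Fermat.Agent.RT.Mazur

end
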