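import Fermat.Agent.RT.Lift.LowerSq.Lifting
import Fermat.Agent.RT.MazurP.Flat

/-!
# A torsion class of level `M` gives a congruent form

A nonzero eigen class of `J₀(M)[p]` lies in a proper ideal of the Hecke algebra, so its eigenvalues
are those of an eigenform of level `M` modulo a maximal ideal over `p`.
-/

set_option autoImplicit false

noncomputable section

namespace Fermat.Agent.RT.Mazur

open ModularCurve AlgebraicCurve Fermat.Agent.GaloisReps
open scoped Matrix

variable {N p : ℕ} [NeZero N] [Fact p.Prime]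

/-- A nonzero vector killed by `p` lies over a maximal ideal containing `t - a` whenever `t` acts
on it by the integer `a`. -/
theorem exists_maximal_mulVec {T : Type} [CommRing T] {ι : Type} [Fintype ι] [DecidableEq ι]
    {R : Type} [CommRing R] [Finite R] (Φ : T →+* Matrix ι ι R) {M : Type*} [AddCommGroup M]
    (e : M ≃+ (ι → R)) {x : M} (hx : x ≠ 0) (hp : (p : R) = 0) :
    ∃ m : Ideal T, m.IsMaximal ∧ Finite (T ⧸ m) ∧ CharP (T ⧸ m) p ∧
      ∀ (t : T) (a : ℤ), Φ t *ᵥ e x = e (a • x) → t - a ∈ m := by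
  set v := e x with hv
  have hv0 : v ≠ 0 := fun h => hx (e.map_eq_zero_iff.mp h)
  let I : Ideal T :=
    { carrier := {t | Φ t *ᵥ v = 0}
      zero_mem' := by simp
      add_mem' := fun {a b} ha hb => by
        show Φ (a + b) *ᵥ v = 0
        rw [map_add, Matrix.add_mulVec, show Φ a *ᵥ v = 0 from ha, show Φ b *ᵥ v = 0 from hb,
          add_zero]
      smul_mem' := fun c t ht => by
        show Φ (c * t) *ᵥ v = 0
        rw [map_mul, ← Matrix.mulVec_mulVec, show Φ t *ᵥ v = 0 from ht, Matrix.mulVec_zero] }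
  have hmem : ∀ t, t ∈ I ↔ Φ t *ᵥ v = 0 := fun _ => Iff.rfl
  have hI : I ≠ ⊤ := fun he => hv0 (by simpa using (hmem 1).1 (he ▸ Submodule.mem_top))
  have hker : RingHom.ker Φ ≤ I := fun t ht => by
    rw [hmem, RingHom.mem_ker.mp ht, Matrix.zero_mulVec]
  have hpI : (p : T) ∈ I := by rw [hmem, map_natCast, Matrix.natCast_mulVec, hp, zero_smul]
  obtain ⟨m, hm, hIm, hfin, hchar⟩ := Lift.LowerSq.exists_maximal_finite Φ hI hker hpI
  refine ⟨m, hm, hfin, hchar, fun t a h => hIm ?_⟩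
  rw [hmem, map_sub, map_intCast, Matrix.sub_mulVec, h, map_zsmul, ← hv, Matrix.intCast_mulVec,
    Int.cast_smul_eq_zsmul, sub_self]

/-- **A congruent form from a torsion class.** -/
theorem congrForm_of_eigenClass {G : ℕ → Prop} {a : ℕ → ℤ} {y : JZero N} (hy0 : y ≠ 0)
    (hy : p • y = 0) (h : MazurP.IsEigen N G a y) : MazurP.CongrForm N p G a := by
  classical
  have : NeZero (p ^ 1) := ⟨pow_ne_zero 1 (Fact.out : p.Prime).ne_zero⟩
  let E := torsionIso N p (conjProperty N)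
  have hy1 : ((p ^ 1 : ℕ) : ℤ) • y = 0 := (natCast_zsmul y (p ^ 1)).trans ((pow_one p).symm ▸ hy)
  let x : JTors N p 1 := ⟨y, hy1⟩
  obtain ⟨m, hm, hfin, hchar, hmem⟩ := exists_maximal_mulVec (p := p)
    (matIn (latticeMat N) (ZMod (p ^ 1))) (E.psi 1) (x := x)
    (fun e => hy0 (congrArg Subtype.val e)) ((ZMod.natCast_eq_zero_iff _ _).2 (dvd_of_eq (pow_one p)))
  let _ : Field (FullHecke N ⧸ m) := Ideal.Quotient.field m
  obtain ⟨f, hf, 𝔪, h𝔪, hp𝔪, hcong⟩ := HeckeDuality.exists_eigenform_lifting (p := p)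
    (IntegralStructure.hasIntegralStructure N 2) (Ideal.Quotient.mk m)
  refine ⟨f, hf, 𝔪, h𝔪, hp𝔪, fun l hl hGl => hcong l hl (a l) ?_⟩
  rw [← map_intCast (Ideal.Quotient.mk m), Ideal.Quotient.mk_eq_mk_iff_sub_mem]
  refine hmem _ _ ?_
  exact (((congrArg (fun M => M.map (Int.castRingHom (ZMod (p ^ 1))) *ᵥ E.psi 1 x)
    (latticeMat_heckeOp (N := N) l hl)).trans
      (congrArg (· *ᵥ E.psi 1 x) (E.mat_heckeTors 1 l hl)).symm).trans
    (E.mat_mulVec 1 _ x)).trans (congrArg (E.psi 1) (Subtype.ext (h l hl hGl)))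

end Fermat.Agent.RT.Mazur

end
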