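import Fermat.Agent.RT.Mazur.OrdersBasic

/-!
# Bounds on the orders of reductions at level `q M`

For `y ^ m * f` with poles bounded by `n ∞` the orders of the reductions satisfy
`m ord ȳ + ord f̄ ≥ -n ord_∞`; when the first reduction of `y` vanishes, the second one gains the
order of the reduction of the vertical unit.
-/

set_option autoImplicit false

noncomputable section

namespace Fermat.Agent.RT.Mazur

open ModularCurve AlgebraicCurve Polynomial
open Fermat.Agent.Semistable Fermat.Agent.Arith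

/-! ### Monomials -/

section Monomials

variable {K R F : Type*} [Field K] [CommRing R] [Algebra K R] [Field F] [Algebra K F]

private theorem ringHom_monomial {R' : Type*} [CommRing R'] (f : R →+* R') (a b c : R)
    (i j k : ℕ) : f (a ^ i * b ^ j * c ^ k) = f a ^ i * f b ^ j * f c ^ k := by
  simp only [map_mul, map_pow]

private theorem algHom_monomial {R' : Type*} [CommRing R'] [Algebra K R'] (f : R →ₐ[K] R')
    (t : K) (a b c : R) (i j k : ℕ) :
    f (algebraMap K R t * a ^ i * b ^ j * c ^ k) =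
      algebraMap K R' t * f a ^ i * f b ^ j * f c ^ k := by
  simp only [map_mul, map_pow, AlgHom.commutes]

private theorem le_ord_monomial (v : Place K F) {y f : F} (hy : y ≠ 0) (hf : f ≠ 0) {m : ℕ}
    {z : ℤ} (h : y ^ m * f = 0 ∨ z ≤ v.ord (y ^ m * f)) : z ≤ m * v.ord y + v.ord f := by
  have h' := h.resolve_left (mul_ne_zero (pow_ne_zero m hy) hf)
  rwa [v.ord_mul (pow_ne_zero m hy) hf, FF.ord_pow] at h'

private theorem ord_monomial_nonneg (v : Place K F) {t : K} {y f u : F} (ht : t ≠ 0) (hy : y ≠ 0)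
    (hf : f ≠ 0) (hu : u ≠ 0) (hu0 : v.ord u = 0) {m : ℕ} {z : ℤ} (hz : z = 0)
    (h : y ^ m * f = 0 ∨ z ≤ v.ord (y ^ m * f)) :
    0 ≤ v.ord (algebraMap K F t * y ^ (12 * m) * f ^ 12 * u ^ m) := by
  have ht' : algebraMap K F t ≠ 0 := (_root_.map_ne_zero _).mpr ht
  have h' := le_ord_monomial v hy hf h
  rw [hz] at h'
  rw [v.ord_mul (mul_ne_zero (mul_ne_zero ht' (pow_ne_zero _ hy)) (pow_ne_zero _ hf))
      (pow_ne_zero _ hu), v.ord_mul (mul_ne_zero ht' (pow_ne_zero _ hy)) (pow_ne_zero _ hf),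
    v.ord_mul ht' (pow_ne_zero _ hy), FF.ord_algebraMap, FF.ord_pow, FF.ord_pow, FF.ord_pow, hu0]
  push_cast
  linarith

private theorem mul_ord_le (v : Place K F) {y f r : F} (hy : y ≠ 0) (hf : f ≠ 0) (hr : r ≠ 0)
    {m : ℕ} {z : ℤ} (hz : z = 0)
    (h : y ^ (12 * m) * f ^ 12 * r⁻¹ ^ m = 0 ∨ z ≤ v.ord (y ^ (12 * m) * f ^ 12 * r⁻¹ ^ m)) :
    (m : ℤ) * v.ord r ≤ 12 * (m : ℤ) * v.ord y + 12 * v.ord f := by
  replace h := hz ▸ h.resolve_left (mul_ne_zero (mul_ne_zero (pow_ne_zero _ hy) (pow_ne_zero _ hf))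
    (pow_ne_zero _ (inv_ne_zero hr)))
  rw [v.ord_mul (mul_ne_zero (pow_ne_zero _ hy) (pow_ne_zero _ hf))
      (pow_ne_zero _ (inv_ne_zero hr)), v.ord_mul (pow_ne_zero _ hy) (pow_ne_zero _ hf),
    FF.ord_pow, FF.ord_pow, FF.ord_pow, v.ord_inv] at h
  push_cast at h
  linarith

end Monomials

-- shorter instance searches for the function fields and their residual counterparts
attribute [local instance 10000] HahnSeries.powerSeriesAlgebra
attribute [-instance] IntermediateField.algebra'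
  IntermediateField.instNontriviallyNormedFieldSubtypeMem IsScalarTower.of_algHom

variable {A : ValuationSubring QBar} {q : ℕ} [hq : Fact q.Prime] [CharP (Res A) q]
  {M : ℕ} [NeZero M] [FF.IsFunctionField (Res A) (KM A M)] {hqM : ¬ q ∣ M}

/-- The reduction on side `s` as an element of the function field of level `M`. -/
def redK (hM : (M : Res A) ≠ 0) (x : loc2 A (iota2 M q hqM)) (s : Fin 2) : KM A M :=
  ⟨red2 A (iota2 M q hqM) x s, red2_mem_KM M q hqM hM x s⟩

omit [FF.IsFunctionField (Res A) (KM A M)] in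
theorem coe_redK (hM : (M : Res A) ≠ 0) (x : loc2 A (iota2 M q hqM)) (s : Fin 2) :
    (redK hM x s : LaurentSeries (Res A)) = red2 A (iota2 M q hqM) x s := rfl

omit [FF.IsFunctionField (Res A) (KM A M)] in
theorem redK_mul (hM : (M : Res A) ≠ 0) (x y : loc2 A (iota2 M q hqM)) (s : Fin 2) :
    redK hM (x * y) s = redK hM x s * redK hM y s :=
  Subtype.ext (congrFun ((red2 A (iota2 M q hqM)).map_mul x y) s)

omit [FF.IsFunctionField (Res A) (KM A M)] in
theorem redK_pow (hM : (M : Res A) ≠ 0) (x : loc2 A (iota2 M q hqM)) (n : ℕ) (s : Fin 2) :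
    redK hM (x ^ n) s = redK hM x s ^ n :=
  Subtype.ext ((congrFun ((red2 A (iota2 M q hqM)).map_pow x n) s).trans
    (IntermediateField.coe_pow _ (redK hM x s) n).symm)

/-- The reduction of a function with bounded poles has bounded poles. -/
theorem redK_mem_Hk (hA : A.LiesOverPrime q) (hM : (M : Res A) ≠ 0)
    {x : loc2 A (iota2 M q hqM)} {n : ℕ} (hx : (x : FB (q * M)) ∈ HN M q n) (s : Fin 2) :
    redK hM x s ∈ Hk A M (sideDeg q s * n) := by
  have h := red2_mem_Pk M q hqM hA hM hx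
  rw [mem_Pk, mem_HkS, mem_HkS] at h
  obtain ⟨⟨_, h0⟩, ⟨_, h1⟩⟩ := h
  fin_cases s
  · show redK hM x 0 ∈ Hk A M (1 * n)
    rw [one_mul]
    exact h0
  · exact h1

/-- The bound from the pole order. -/
theorem pow_order_bound (hA : A.LiesOverPrime q) (hM : (M : Res A) ≠ 0)
    {y F : loc2 A (iota2 M q hqM)} {m n : ℕ}
    (hyF : ((y ^ m * F : loc2 A (iota2 M q hqM)) : FB (q * M)) ∈ HN M q n) (s : Fin 2)
    (hy : redK hM y s ≠ 0) (hF : redK hM F s ≠ 0) (v : Place (Res A) (KM A M)) :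
    -((sideDeg q s * n : ℕ) * FF.poles (Res A) (jK A M) v : ℤ) ≤
      (m : ℤ) * v.ord (redK hM y s) + v.ord (redK hM F s) := by
  have h := mem_riemannRochSpace_iff.mp (redK_mem_Hk hA hM hyF s) v
  rw [redK_mul, redK_pow, Finsupp.smul_apply, nsmul_eq_mul] at h
  exact le_ord_monomial v hy hF h

omit [CharP (Res A) q] [FF.IsFunctionField (Res A) (KM A M)] in
/-- The twist of `y ^ (12 m) f ^ 12` by the vertical unit, for `y` divisible by `q` on the first
side, is integral on both sides. -/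
theorem twist_mem_loc2 (hA : A.LiesOverPrime q) {y F : loc2 A (iota2 M q hqM)} (m : ℕ)
    (hyfix : InertiaFixed A ((y : FB (q * M)) : LSer)) (hy0 : red2 A (iota2 M q hqM) y 0 = 0) :
    ∃ h : algebraMap QBar (FB (q * M)) (((q : QBar)⁻¹) ^ (12 * m)) *
        (y : FB (q * M)) ^ (12 * m) * (F : FB (q * M)) ^ 12 * unitU q M hqM ^ m ∈
          loc2 A (iota2 M q hqM),
      red2 A (iota2 M q hqM) ⟨_, h⟩ 1 = red2 A (iota2 M q hqM) y 1 ^ (12 * m) *
        red2 A (iota2 M q hqM) F 1 ^ 12 * (rhoSer q (Res A))⁻¹ ^ m := by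
  have hy' : algebraMap QBar LSer (q : QBar)⁻¹ * ((y : FB (q * M)) : LSer) ∈ locS A := by
    refine inv_mul_mem_locS hA ((mem_loc2_iff M q hqM).mp y.2).1 hyfix (mem_fracS_of_mem _) ?_
    rw [red2_apply] at hy0
    exact (redL_congr _ _ (iota2_zero M q hqM _).symm).trans hy0
  set U := unitU q M hqM
  have hUl : (U : LSer) ∈ locS A := intS_le_locS (unitU_mem_intS q M hqM A)
  obtain ⟨hUi, hUie⟩ := inv_mem_locS hUl (by rw [redL_unitU]; exact rhoSer_ne_zero q)
  have hwU : algebraMap QBar LSer ((q : QBar)⁻¹ ^ 12) * (wEquiv q M hqM U : LSer) =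
      (U : LSer)⁻¹ := by
    refine eq_inv_of_mul_eq_one_left ?_
    have h2 : (wEquiv q M hqM U : LSer) * (U : LSer) = algebraMap QBar LSer ((q : QBar) ^ 12) :=
      congrArg Subtype.val (wEquiv_unitU_mul q M hqM)
    rw [mul_assoc, h2, ← map_mul, ← mul_pow,
      inv_mul_cancel₀ (Nat.cast_ne_zero.mpr hq.out.ne_zero), one_pow, map_one]
  set H : FB (q * M) := algebraMap QBar (FB (q * M)) (((q : QBar)⁻¹) ^ (12 * m)) *
    (y : FB (q * M)) ^ (12 * m) * (F : FB (q * M)) ^ 12 * U ^ m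
  have e0 : iota2 M q hqM 0 H = (algebraMap QBar LSer (q : QBar)⁻¹ * ((y : FB (q * M)) : LSer)) ^
      (12 * m) * iota2 M q hqM 0 (F : FB (q * M)) ^ 12 * (U : LSer) ^ m := by
    refine (algHom_monomial (iota2 M q hqM 0) _ _ _ _ _ _ _).trans ?_
    rw [map_pow (algebraMap QBar LSer), ← mul_pow]
    rfl
  have e1 : iota2 M q hqM 1 H = iota2 M q hqM 1 (y : FB (q * M)) ^ (12 * m) *
      iota2 M q hqM 1 (F : FB (q * M)) ^ 12 * (U : LSer)⁻¹ ^ m := by
    rw [algHom_monomial (iota2 M q hqM 1), ← hwU, iota2_one M q hqM U, pow_mul _ 12 m, mul_pow,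
      map_pow (algebraMap QBar LSer) (_ ^ 12) m]
    ring
  have hF := (mem_loc2 (iota2 M q hqM)).mp F.2
  have hy1 := (mem_loc2 (iota2 M q hqM)).mp y.2 1
  have hH : H ∈ loc2 A (iota2 M q hqM) := by
    refine (mem_loc2 _).mpr fun s => ?_
    fin_cases s
    · show iota2 M q hqM 0 H ∈ locS A
      rw [e0]
      exact mul_mem (mul_mem (pow_mem hy' _) (pow_mem (hF 0) _)) (pow_mem hUl _)
    · show iota2 M q hqM 1 H ∈ locS A
      rw [e1]
      exact mul_mem (mul_mem (pow_mem hy1 _) (pow_mem (hF 1) _)) (pow_mem hUi _)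
  have e : (⟨iota2 M q hqM 1 H, (mem_loc2 _).mp hH 1⟩ : locS A) =
      ⟨_, hy1⟩ ^ (12 * m) * ⟨_, hF 1⟩ ^ 12 * ⟨_, hUi⟩ ^ m := Subtype.ext e1
  refine ⟨hH, (congrArg (redL A) e).trans ((ringHom_monomial (redL A) _ _ _ _ _ _).trans ?_)⟩
  rw [hUie, redL_unitU, red2_apply, red2_apply]

/-- The gain from the vertical unit at finite places. -/
theorem unit_order_bound (hA : A.LiesOverPrime q) (hM : (M : Res A) ≠ 0)
    {y F : loc2 A (iota2 M q hqM)} {m n : ℕ}
    (hyF : ((y ^ m * F : loc2 A (iota2 M q hqM)) : FB (q * M)) ∈ HN M q n)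
    (hyfix : InertiaFixed A ((y : FB (q * M)) : LSer)) (hy0 : red2 A (iota2 M q hqM) y 0 = 0)
    (hy : redK hM y 1 ≠ 0) (hF : redK hM F 1 ≠ 0) {ρ : KM A M}
    (hρ : (ρ : LaurentSeries (Res A)) = rhoSer q (Res A)) {v : Place (Res A) (KM A M)}
    (hv : 0 ≤ v.ord (jK A M)) :
    (m : ℤ) * v.ord ρ ≤ 12 * (m : ℤ) * v.ord (redK hM y 1) + 12 * v.ord (redK hM F 1) := by
  obtain ⟨hH, he⟩ := twist_mem_loc2 hA (F := F) m hyfix hy0
  have hy0' : (y : FB (q * M)) ≠ 0 := fun h => hy (Subtype.ext (by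
    rw [coe_redK, show y = 0 from Subtype.ext h, map_zero]; rfl))
  have hF0' : (F : FB (q * M)) ≠ 0 := fun h => hF (Subtype.ext (by
    rw [coe_redK, show F = 0 from Subtype.ext h, map_zero]; rfl))
  obtain ⟨N', hN'⟩ := RedTorsion.exists_mem_polesSpace (K := QBar) (x := upF M q (jM M))
    (f := ((⟨_, hH⟩ : loc2 A (iota2 M q hqM)) : FB (q * M))) fun u hu => by
      refine FF.mem_ordGe_of_le u (ord_monomial_nonneg u
        (pow_ne_zero _ (inv_ne_zero (Nat.cast_ne_zero.mpr hq.out.ne_zero))) hy0' hF0'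
        (unitU_ne_zero q M hqM) (ord_unitU q M hqM hu) ?_ (mem_riemannRochSpace_iff.mp hyF u))
      rw [Finsupp.smul_apply, FF.poles_apply, max_eq_left (neg_nonpos.mpr hu), smul_zero, neg_zero]
  have hρ0 : ρ ≠ 0 := fun h => rhoSer_ne_zero (k := Res A) q (by rw [← hρ, h]; rfl)
  have h := mem_riemannRochSpace_iff.mp (redK_mem_Hk hA hM (x := ⟨_, hH⟩) hN' 1) v
  have e : redK hM ⟨_, hH⟩ 1 = redK hM y 1 ^ (12 * m) * redK hM F 1 ^ 12 * ρ⁻¹ ^ m :=
    Subtype.ext (he.trans (by rw [← hρ]; rfl))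
  rw [e] at h
  refine mul_ord_le v hy hF hρ0 ?_ h
  rw [Finsupp.smul_apply, FF.poles_apply, max_eq_left (neg_nonpos.mpr hv), smul_zero, neg_zero]

end Fermat.Agent.RT.Mazur

end
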