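import Fermat.Agent.RT.MazurP.Classes
import Fermat.Agent.RT.Mazur.OrdersSides

/-!
# Hecke images of residual functions

For a prime `l` prime to `q M` the image of a residual function of level `M` under the product
`x(q^(l²)) ∏ x(ζⁱ q)` is a residual function of level `M`, and the reductions of the norms of
`T_l` at level `q M` are the images of the reductions.
-/

set_option autoImplicit false
set_option linter.unusedSectionVars false

noncomputable section

namespace Fermat.Agent.RT.Mazur

open ModularCurve AlgebraicCurve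
open Fermat.Agent.Semistable Fermat.Agent.Arith
open Fermat.Agent.RT.MazurP (IsRed IsHeckeImage heckeNorm heckeProd)

attribute [local instance high] HahnSeries.powerSeriesAlgebra SubalgebraClass.toAlgebra

variable {A : ValuationSubring QBar} {q : ℕ} [hq : Fact q.Prime] {M : ℕ} [NeZero M]
  {l : ℕ} [NeZero l]

/-- Images are unique. -/
theorem heckeImage_unique (hA : A.LiesOverPrime q) (hql : ¬ q ∣ l) {z X Y : LaurentSeries (Res A)}
    (hX : IsHeckeImage l z X) (hY : IsHeckeImage l z Y) : X = Y := by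
  obtain ⟨ζ₀, hζ₀⟩ := HasEnoughRootsOfUnity.exists_primitiveRoot QBar l
  have hζ : IsPrimitiveRoot (hζ₀.isUnit (NeZero.ne l)).unit l :=
    IsPrimitiveRoot.coe_units_iff.mp (by simpa using hζ₀)
  have h := MazurP.resRoot_primitive hA hq.out hql hζ
  exact qExpand_injective l ((hX _ h).trans (hY _ h).symm)

/-- A nonzero residual function is the reduction of a function of level `M`. -/
theorem exists_isRed_lift (hM : (M : Res A) ≠ 0) {z : LaurentSeries (Res A)} (hz : z ∈ KM A M)
    (hz0 : z ≠ 0) : ∃ x : FB M, x ≠ 0 ∧ IsRed A (x : LSer) z := by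
  obtain ⟨x, rfl⟩ := red1_surjective M hM hz
  have h := IsRed.of_locS ((mem_loc2 _).mp x.2 ()) hz0
  exact ⟨x, fun h0 => h.ne_zero_left ((congrArg (iota1 M ()) h0).trans (map_zero _)), h⟩

/-- A reduction of a function of level `M` lies in the residual function field. -/
theorem isRed_mem_level (hM : (M : Res A) ≠ 0) {x : FB M} {z : LaurentSeries (Res A)}
    (h : IsRed A (x : LSer) z) : z ∈ KM A M := by
  obtain ⟨-, c, -, hcx, rfl⟩ := h
  exact red1_mem_KM M hM ⟨algebraMap QBar (FB M) c * x, (mem_loc2 _).mpr fun _ => hcx⟩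

/-- Products of images. -/
theorem heckeImage_mul {z z' X X' : LaurentSeries (Res A)} (h : IsHeckeImage l z X)
    (h' : IsHeckeImage l z' X') : IsHeckeImage l (z * z') (X * X') := fun η hη => by
  rw [map_mul, map_mul, h η hη, h' η hη]

/-- The reductions of an eigen Kummer function are eigen up to constants and `p`-th powers. -/
theorem exists_eigen_reduction [CharP (Res A) q] (hA : A.LiesOverPrime q)
    (hM : (M : Res A) ≠ 0) (hqM : ¬ q ∣ M) (hl : l.Prime) (hlN : ¬ l ∣ q * M) {p : ℕ}
    {f : FB (q * M)} {a : ℤ} {h : FB (q * M)} (hh : h ≠ 0)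
    (heq : heckeNorm (q * M) l f = f ^ a * h ^ p) (s : Fin 2) {z : LaurentSeries (Res A)}
    (hz : IsRed A (iota2 M q hqM s f) z) :
    ∃ w ∈ KM A M, w ≠ 0 ∧ ∃ u : Res A, u ≠ 0 ∧
      IsHeckeImage l z (algebraMap (Res A) (LaurentSeries (Res A)) u * (z ^ a * w ^ p)) := by
  have hql : ¬ q ∣ l := fun h =>
    hlN ((Nat.prime_dvd_prime_iff_eq hq.out hl).mp h ▸ dvd_mul_right q M)
  obtain ⟨X, hX, himg⟩ := MazurP.exists_isRed_heckeImage hA hq.out hql
    (iota2_fracS M q hqM s (heckeNorm (q * M) l f))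
    (fun ζ hζ => MazurP.qExpand_iota2_heckeNorm q M l hqM hl hlN s hζ f) hz
  obtain ⟨w, hw⟩ := IsRed.exists_of_ne_zero hA hq.out (iota2_fracS M q hqM s h)
    ((map_ne_zero _).mpr hh)
  rw [heq, map_mul (iota2 M q hqM s), map_zpow₀ (iota2 M q hqM s),
    map_pow (iota2 M q hqM s)] at hX
  obtain ⟨u, hu, hXu⟩ := IsRed.unique ((hz.zpow a).mul (hw.pow p)) hX
  exact ⟨w, MazurP.isRed_mem_KM q M hqM hA hM hw, hw.1, u, hu, hXu ▸ himg⟩

end Fermat.Agent.RT.Mazur

end
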