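import Fermat.Agent.RT.Mazur.Frobenius

/-!
# Mazur's principle: the Galois stable plane cannot be toric

If a plane of eigen classes of level `q M` realises a residual representation which is unramified
at `q` with a nonscalar Frobenius, one of its classes gives an eigen class of level `M`: otherwise
Frobenius would be `-q w` on the plane and commute with the whole Galois group.
-/

set_option autoImplicit false
set_option synthInstance.maxHeartbeats 400000
set_option maxHeartbeats 1000000
set_option linter.unusedSectionVars false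

noncomputable section

namespace Fermat.Agent.RT.Mazur

open ModularCurve AlgebraicCurve Matrix
open Fermat.Agent.Semistable Fermat.Agent.Arith
open Fermat.Agent.RT.MazurP (IsEigen)

/-- A matrix commuting with a spanning set is scalar. -/
theorem eq_smul_one_of_commute_span {k : Type*} [Field k] {ι : Type*}
    {r : ι → Matrix (Fin 2) (Fin 2) k} (hspan : Submodule.span k (Set.range r) = ⊤)
    {s : Matrix (Fin 2) (Fin 2) k} (h : ∀ i, s * r i = r i * s) : s = s 0 0 • 1 := by
  have hall : ∀ m : Matrix (Fin 2) (Fin 2) k, s * m = m * s := by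
    intro m
    have hm : m ∈ Submodule.span k (Set.range r) := hspan ▸ Submodule.mem_top
    induction hm using Submodule.span_induction with
    | mem _ hx => obtain ⟨i, rfl⟩ := hx; exact h i
    | zero => simp
    | add _ _ _ _ ha hb => rw [mul_add, add_mul, ha, hb]
    | smul c _ _ ha => rw [mul_smul_comm, smul_mul_assoc, ha]
  have e01 := hall !![0, 1; 0, 0]
  have e10 := hall !![0, 0; 1, 0]
  have a := congrFun (congrFun e01 0) 0
  have b := congrFun (congrFun e01 0) 1
  have c := congrFun (congrFun e10 0) 0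
  simp [Matrix.mul_apply, Fin.sum_univ_two] at a b c
  ext i j
  fin_cases i <;> fin_cases j <;> simp [← a, b, c]

/-- Two commuting semilinear automorphisms commute on classes. -/
theorem smul_comm_of_forall {K F : Type*} [Field K] [Field F] [Algebra K F]
    {g g' : SemilinearAut K F} (hF : ∀ x : F, g • g' • x = g' • g • x)
    (hK : ∀ a : K, SemilinearAut.baseAut g (SemilinearAut.baseAut g' a) =
      SemilinearAut.baseAut g' (SemilinearAut.baseAut g a)) (z : Pic0 K F) :
    g • g' • z = g' • g • z := by
  rw [← mul_smul, ← mul_smul, show g * g' = g' * g from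
    Subtype.ext (Prod.ext (RingEquiv.ext hF) (RingEquiv.ext hK))]

variable {q M : ℕ} [Fact q.Prime] [NeZero M] {A : ValuationSubring QBar}
  [CharP (Res A) q] [FF.IsFunctionField (Res A) (KM A M)] (h : Setup A M q)

/-- The Atkin involution commutes with Galois on classes. -/
theorem wAut_smul_galois (g : GQ) (z : JZero (q * M)) :
    wAut h • (g • z) = g • (wAut h • z) := by
  show wAut h • (arithmeticGalois (modularFunctionFieldFull (q * M)) g • z) =
    arithmeticGalois (modularFunctionFieldFull (q * M)) g • (wAut h • z)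
  refine smul_comm_of_forall (g := wAut h)
    (g' := arithmeticGalois (modularFunctionFieldFull (q * M)) g) (fun x => ?_) (fun a => rfl) z
  rw [h.wAut_smul, h.wAut_smul]
  exact wEquiv_galois q M h.hqM g x

include h in
/-- **Some class of the plane comes from level `M`.** -/
theorem exists_eigen_level_of_embedding {p M' : ℕ} [Fact p.Prime] [NeZero M']
    [FF.IsFunctionField (Res A) (KM A M')] (hMM : M ∣ M')
    (hqM' : ¬ q ∣ M') (hell : NoElliptic M')
    (hdeg : ∃ d, d * dedekindPsi M = dedekindPsi M' ∧ Nat.Coprime p d) (hpq : p ≠ q)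
    (r : GQ →* Matrix (Fin 2) (Fin 2) (ZMod p))
    (hspan : Submodule.span (ZMod p) (Set.range r) = ⊤)
    (hunr : ∀ τ ∈ A.inertiaSubgroupIn ℚ, r τ = 1) {σ : GQ} (hσ : A.IsFrobeniusAt σ q)
    (hns : ∀ c : ZMod p, r σ ≠ c • 1) (G : ℕ → Prop) (a : ℕ → ℤ)
    (hG : ∀ l, l.Prime → G l → ¬ l ∣ q * M)
    (hl₀ : ∃ l, l.Prime ∧ G l ∧ ¬ (p : ℤ) ∣ a l - (1 + (l : ℤ)))
    (ι : (Fin 2 → ZMod p) →+ JZero (q * M)) (hι : Function.Injective ι)
    (hequiv : ∀ (g : GQ) v, ι (r g *ᵥ v) = g • ι v)
    (hιe : ∀ v, p • ι v = 0 ∧ IsEigen (q * M) G a (ι v)) :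
    ∃ y : JZero M, y ≠ 0 ∧ p • y = 0 ∧ IsEigen M G a y := by
  have : IsAlgClosed (Res A) := residueField_isAlgClosed A
  by_contra hno
  have hfr : ∀ v, σ • ι v + q • (wAut h • ι v) = 0 := fun v => by
    rcases exists_toric_or_eigen h hMM hqM' hell hdeg hpq G a hG hl₀ (hιe v).1
      (fun τ hτ => by rw [← hequiv, hunr τ hτ, one_mulVec]) (hιe v).2 with ⟨D, hD, hT⟩ | hy
    · rw [← hD]
      exact frobenius_smul_toric h hMM hqM' hell hdeg hpq hσ hT
    · exact absurd hy hno
  refine hns (r σ 0 0) (eq_smul_one_of_commute_span hspan fun g => ?_)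
  refine Matrix.toLin'.injective (LinearMap.ext fun v => hι ?_)
  rw [Matrix.toLin'_apply, Matrix.toLin'_apply, ← mulVec_mulVec, ← mulVec_mulVec, hequiv, hequiv,
    hequiv g (r σ *ᵥ v), hequiv σ v]
  have h1 := hfr (r g *ᵥ v)
  rw [hequiv, wAut_smul_galois h] at h1
  have h2 : g • (σ • ι v + q • (wAut h • ι v)) = 0 := by
    rw [hfr v]; exact map_zero (DistribSMul.toAddMonoidHom (JZero (q * M)) g)
  rw [smul_add, show g • (q • (wAut h • ι v)) = q • (g • (wAut h • ι v)) from
    map_nsmul (DistribSMul.toAddMonoidHom (JZero (q * M)) g) q _] at h2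
  exact add_right_cancel (h1.trans h2.symm)

end Fermat.Agent.RT.Mazur

end
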