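import Fermat.Agent.RT.Mazur.Normalise

/-!
# Frobenius at `q` on toric classes of level `q M`

After pulling back to a level without elliptic points Frobenius is `-q w` on toric classes, and
this descends because the degree is prime to `p`.
-/

set_option autoImplicit false
set_option synthInstance.maxHeartbeats 400000
set_option maxHeartbeats 1000000
set_option linter.unusedSectionVars false

noncomputable section

namespace Fermat.Agent.RT.Mazur

open ModularCurve AlgebraicCurve
open Fermat.Agent.Semistable Fermat.Agent.Arith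

variable {A : ValuationSubring QBar} {q p : ℕ} [hq : Fact q.Prime] [hp : Fact p.Prime]
  [CharP (Res A) q] {M M' : ℕ} [NeZero M] [NeZero M']
  [FF.IsFunctionField (Res A) (KM A M)] [FF.IsFunctionField (Res A) (KM A M')]

/-- The order of a Galois conjugate. -/
theorem ord_galF {N : ℕ} [NeZero N] (σ : GQ) (v : Place QBar (FB N)) (x : FB N) :
    v.ord (galF N σ x) = ((arithmeticGalois (modularFunctionFieldFull N) σ)⁻¹ • v).ord x := by
  set g := arithmeticGalois (modularFunctionFieldFull N) σ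
  have h := SemilinearAut.ord_smul g (g⁻¹ • v) x
  rw [smul_inv_smul] at h
  exact h

/-- **Frobenius is `-q w` on toric classes.** -/
theorem frobenius_smul_toric (h : Setup A M q) (hMM : M ∣ M') (hqM' : ¬ q ∣ M')
    (hell : NoElliptic M') (hdeg : ∃ d, d * dedekindPsi M = dedekindPsi M' ∧ Nat.Coprime p d)
    (hpq : p ≠ q) {σ : GQ} (hσ : A.IsFrobeniusAt σ q)
    {D : Divisor.degZero (K := QBar) (F := FB (q * M))}
    (hD : IsToric h p (D : Divisor QBar (FB (q * M)))) :
    σ • (Pic0.mk D : JZero (q * M)) + q • (wAut h • (Pic0.mk D : JZero (q * M))) = 0 := by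
  have hM' : (M' : Res A) ≠ 0 := fun e => hqM' ((CharP.cast_eq_zero_iff (Res A) q M').mp e)
  have hp0 : (p : Res A) ≠ 0 := fun e => hpq
    (((Nat.prime_dvd_prime_iff_eq hq.out hp.out).mp ((CharP.cast_eq_zero_iff (Res A) q p).mp e))).symm
  let h' : Setup A M' q := ⟨h.hA, hqM', hM', goodM_of_ne_zero hM'⟩
  obtain ⟨d, hd, hpd⟩ := hdeg
  set ι := incl (M := M) (M' := M') q hMM
  have hι : ι.toRingHom.IsIntegral := FF.isIntegralAlong ι
  have hdeg' : finrankAlong QBar ι = d :=
    Nat.eq_of_mul_eq_mul_right (dedekindPsi_pos M)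
      ((finrankAlong_incl hMM h.hqM hqM').trans hd.symm)
  obtain ⟨f, hfD, a, ha, hr⟩ := hD
  set f0 : FB (q * M) := (f : FB (q * M))
  have hf : f0 ≠ 0 := fun e => ha 0 (by
    have h0 := hr 0
    rw [show f = 0 from Subtype.ext e, map_zero, Pi.zero_apply, eq_comm, _root_.map_eq_zero] at h0
    exact h0)
  have hmem : ι f0 ∈ loc2 A (iota2 M' q hqM') :=
    (mem_loc2 _).mpr fun s => by rw [iota2_incl hMM h.hqM hqM']; exact (mem_loc2 _).mp f.2 s
  set D' : Divisor QBar (FB (q * M')) := divFloor (p : ℤ) (FF.div QBar (ι f0))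
  have hD' : ∀ w, (p : ℤ) * D' w = w.ord (ι f0) := fun w => by
    rw [divFloor_apply, FF.div_apply, Int.mul_ediv_cancel']
    rw [Place.ord_restrictAlong ι hι, hfD]
    exact dvd_mul_of_dvd_right (dvd_mul_right _ _) _
  have htor : IsToric h' p D' := ⟨⟨_, hmem⟩, fun w => (hD' w).symm, a, ha, fun s => by
    rw [← hr s, red2_apply, red2_apply]
    exact redL_congr _ _ (iota2_incl hMM h.hqM hqM' s f0)⟩
  obtain ⟨y, hy0, hy⟩ := exists_principal_frobenius hell hp0 hσ htor
  -- the divisor below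
  set E : Divisor QBar (FB (q * M)) :=
    arithmeticGalois (modularFunctionFieldFull (q * M)) σ • (D : Divisor QBar (FB (q * M))) +
      q • (wAut h • (D : Divisor QBar (FB (q * M)))) with hE
  have hσf : galF (q * M) σ f0 ≠ 0 := (map_ne_zero _).mpr hf
  have hwf : wEquiv q M h.hqM f0 ≠ 0 := (map_ne_zero _).mpr hf
  set fE : FB (q * M) := galF (q * M) σ f0 * wEquiv q M h.hqM f0 ^ q with hfE
  have hfE0 : fE ≠ 0 := mul_ne_zero hσf (pow_ne_zero _ hwf)
  have hordE : ∀ v, v.ord fE = (p : ℤ) * E v := fun v => by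
    rw [hfE, v.ord_mul hσf (pow_ne_zero _ hwf), FF.ord_pow, ord_galF, h.ord_wEquiv, hfD, hfD, hE,
      Finsupp.add_apply, Finsupp.smul_apply, SemilinearAut.divisor_smul_apply,
      SemilinearAut.divisor_smul_apply, nsmul_eq_mul]
    ring
  have hkey : ∀ w : Place QBar (FB (q * M')), (p : ℤ) * w.ord y = w.ord (ι fE) := fun w => by
    have e : ι fE = galF (q * M') σ (ι f0) * wEquiv q M' hqM' (ι f0) ^ q := by
      rw [hfE, map_mul, map_pow, galF_incl, wEquiv_incl hMM hqM']
    have hι0 : ι f0 ≠ 0 := (map_ne_zero _).mpr hf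
    rw [e, w.ord_mul ((map_ne_zero _).mpr hι0) (pow_ne_zero _ ((map_ne_zero _).mpr hι0)),
      FF.ord_pow, ord_galF, h'.ord_wEquiv, ← hD', ← hD', hy, Finsupp.add_apply,
      Finsupp.smul_apply, SemilinearAut.divisor_smul_apply, SemilinearAut.divisor_smul_apply,
      nsmul_eq_mul]
    ring
  obtain ⟨z, hz0, hz⟩ := exists_principal_descend ι (hdeg' ▸ hpd) hfE0 hordE hy0
    (fun v _ w hw => by
      refine mul_left_cancel₀ (Int.natCast_ne_zero.mpr hp.out.ne_zero) ?_
      rw [hkey, ord_along ι hι hw, hordE]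
      ring)
  set g := arithmeticGalois (modularFunctionFieldFull (q * M)) σ
  show g • (Pic0.mk D : JZero (q * M)) + q • (wAut h • (Pic0.mk D : JZero (q * M))) = 0
  rw [SemilinearAut.pic0_smul_mk, SemilinearAut.pic0_smul_mk]
  refine (QuotientAddGroup.eq_zero_iff (SemilinearAut.degZeroSMulHom g D +
    q • SemilinearAut.degZeroSMulHom (wAut h) D)).mpr
    (AddSubgroup.mem_addSubgroupOf.mpr ⟨z, hz0, fun v => ?_⟩)
  rw [hz v]
  rfl

end Fermat.Agent.RT.Mazur

end
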