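import Fermat.Agent.Semistable.Classes
import Fermat.Agent.Mazur.Eisenstein.CuspFibre
import Fermat.Agent.FF.Along

/-!
# Raising the level away from `q`

The inclusions of level `q M` into level `q M'` and of `K_M` into `K_M'`, for `M ∣ M'`, and
descent along them.
-/

set_option autoImplicit false
set_option synthInstance.maxHeartbeats 400000
set_option maxHeartbeats 1000000
set_option linter.unusedSectionVars false

noncomputable section

namespace Fermat.Agent.RT.Mazur

open ModularCurve AlgebraicCurve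
open Fermat.Agent.Semistable Fermat.Agent.Arith

section Generic

variable {K F F' : Type*} [Field K] [Field F] [Field F'] [Algebra K F] [Algebra K F']
  [IsAlgClosed K] [FF.IsFunctionField K F] [FF.IsFunctionField K F']

theorem ord_along (φ : F →ₐ[K] F') (hφ : φ.toRingHom.IsIntegral) {v : Place K F} {w : Place K F'}
    (hw : w ∈ Place.fiberAlong φ hφ v) (z : F) :
    w.ord (φ z) = (w.ramificationIndexAlong φ : ℤ) * v.ord z := by
  rw [Place.ord_restrictAlong φ hφ, Place.mem_fiberAlong.mp hw]

/-- Divisibility of orders descends along a map of degree prime to the prime. -/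
theorem dvd_ord_descend (φ : F →ₐ[K] F') {p : ℕ} (hp : p.Prime)
    (hd : Nat.Coprime p (finrankAlong K φ)) {z : F} (h : ∀ w : Place K F', (p : ℤ) ∣ w.ord (φ z))
    (v : Place K F) : (p : ℤ) ∣ v.ord z := by
  have hφ := FF.isIntegralAlong φ
  by_contra hv
  refine hp.coprime_iff_not_dvd.mp hd ?_
  rw [← Int.natCast_dvd_natCast, ← FF.fundamental_identity_along φ hφ v]
  refine Finset.dvd_sum fun w hw => dvd_mul_of_dvd_left ?_ _
  have h1 := h w
  rw [ord_along φ hφ hw] at h1
  exact ((Nat.prime_iff_prime_int.mp hp).dvd_or_dvd h1).resolve_right hv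

/-- A torsion divisor which becomes principal after a map of degree prime to its order is
principal. -/
theorem exists_principal_descend (φ : F →ₐ[K] F') {p : ℕ}
    (hd : Nat.Coprime p (finrankAlong K φ)) {D : Divisor K F} {f : F} (hf0 : f ≠ 0)
    (hf : ∀ v, v.ord f = (p : ℤ) * D v) {y : F'} (hy0 : y ≠ 0)
    (hy : ∀ (v : Place K F) (hφ : φ.toRingHom.IsIntegral), ∀ w ∈ Place.fiberAlong φ hφ v,
      w.ord y = (w.ramificationIndexAlong φ : ℤ) * D v) :
    ∃ z : F, z ≠ 0 ∧ ∀ v, v.ord z = D v := by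
  have hφ := FF.isIntegralAlong φ
  set N : F := (letI := algebraAlong φ; Algebra.norm F y) with hN
  have hN0 : N ≠ 0 := by
    let _ := algebraAlong φ
    have : Module.Finite F F' := FF.finiteAlong φ
    exact Algebra.norm_ne_zero_iff.mpr hy0
  have hNord : ∀ v : Place K F, v.ord N = (finrankAlong K φ : ℤ) * D v := by
    intro v
    rw [hN, FF.ord_norm_along φ hφ v hy0, ← FF.fundamental_identity_along φ hφ v, Finset.sum_mul]
    refine Finset.sum_congr rfl fun w hw => ?_
    rw [hy v hφ w hw]
    ring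
  obtain ⟨s, t, hst⟩ : ∃ s t : ℤ, s * p + t * finrankAlong K φ = 1 :=
    Int.isCoprime_iff_nat_coprime.mpr (by simpa using hd)
  refine ⟨f ^ s * N ^ t, mul_ne_zero (zpow_ne_zero _ hf0) (zpow_ne_zero _ hN0), fun v => ?_⟩
  rw [v.ord_mul (zpow_ne_zero _ hf0) (zpow_ne_zero _ hN0), v.ord_zpow, v.ord_zpow, hf, hNord,
    ← mul_assoc, ← mul_assoc, ← add_mul, hst, one_mul]

end Generic

section Levels

variable {A : ValuationSubring QBar} {q M M' : ℕ} [hq : Fact q.Prime] [NeZero M] [NeZero M']

theorem fb_mono {N N' : ℕ} [NeZero N] [NeZero N'] (h : N ∣ N') : FB N ≤ FB N' := by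
  rw [fb_eq_adjoin N, IntermediateField.adjoin_le_iff]
  rintro _ ⟨d, rfl⟩
  exact gen_mem N' ⟨d.1, d.2.trans h⟩

/-- The inclusion of level `q M` into level `q M'`. -/
def incl (q : ℕ) [Fact q.Prime] (h : M ∣ M') : FB (q * M) →ₐ[QBar] FB (q * M') :=
  IntermediateField.inclusion (fb_mono (mul_dvd_mul_left q h))

@[simp]
theorem coe_incl (h : M ∣ M') (x : FB (q * M)) : (incl q h x : LSer) = (x : LSer) :=
  IntermediateField.coe_inclusion (fb_mono (mul_dvd_mul_left q h)) x

theorem galF_incl (h : M ∣ M') (σ : GQ) (x : FB (q * M)) :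
    galF (q * M') σ (incl q h x) = incl q h (galF (q * M) σ x) :=
  Subtype.ext (by rw [coe_incl, coe_arithmeticRingAut, coe_arithmeticRingAut, coe_incl])

theorem wEquiv_incl (h : M ∣ M') (hqM' : ¬ q ∣ M') (x : FB (q * M)) :
    wEquiv q M' hqM' (incl q h x) =
      incl q h (wEquiv q M (fun hd => hqM' (hd.trans h)) x) := by
  have hqM : ¬ q ∣ M := fun hd => hqM' (hd.trans h)
  refine DFunLike.congr_fun (fb_ringHom_ext
    (φ := (wEquiv q M' hqM').toRingEquiv.toRingHom.comp (incl q h).toRingHom)
    (ψ := (incl q h).toRingHom.comp (wEquiv q M hqM).toRingEquiv.toRingHom) (fun a => ?_)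
    (fun d => ?_)) x
  · show wEquiv q M' hqM' (incl q h (algebraMap QBar _ a)) =
      incl q h (wEquiv q M hqM (algebraMap QBar _ a))
    rw [AlgHom.commutes, AlgEquiv.commutes, AlgEquiv.commutes, AlgHom.commutes]
  · show wEquiv q M' hqM' (incl q h (genF (q * M) d)) = incl q h (wEquiv q M hqM (genF (q * M) d))
    have e : incl q h (genF (q * M) d) =
        genF (q * M') ⟨d.1, d.2.trans (mul_dvd_mul_left q h)⟩ :=
      Subtype.ext (by rw [coe_incl, coe_genF, coe_genF]; rfl)
    rw [e, wEquiv_gen, wEquiv_gen]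
    exact Subtype.ext (by rw [coe_incl, coe_genF, coe_genF]; exact qExpand_congr rfl _)

theorem iota2_incl (h : M ∣ M') (hqM : ¬ q ∣ M) (hqM' : ¬ q ∣ M') (s : Fin 2) (x : FB (q * M)) :
    iota2 M' q hqM' s (incl q h x) = iota2 M q hqM s x := by
  fin_cases s
  · exact coe_incl h x
  · show ((wEquiv q M' hqM' (incl q h x) : FB (q * M')) : LSer) = _
    rw [wEquiv_incl h hqM' x, coe_incl]
    rfl

theorem finrankAlong_incl (h : M ∣ M') (hqM : ¬ q ∣ M) (hqM' : ¬ q ∣ M') :
    finrankAlong QBar (incl q h) * dedekindPsi M = dedekindPsi M' := by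
  have h1 := Fermat.Agent.Mazur.Eisenstein.degree_poles_map (incl q h) (transcendental_upF_jM M q)
  have e : incl q h (upF M q (jM M)) = upF M' q (jM M') :=
    Subtype.ext (by rw [coe_incl, coe_upF, coe_upF, coe_jM, coe_jM])
  rw [e, (finrank_level_mul M' q).2, (finrank_level_mul M q).2,
    Gamma0.dedekindPsi_mul_of_not_dvd hq.out hqM', Gamma0.dedekindPsi_mul_of_not_dvd hq.out hqM,
    mul_left_comm] at h1
  exact (Nat.eq_of_mul_eq_mul_left (Nat.succ_pos q) h1).symm

/-- The inclusion of `K_M` into `K_M'`. -/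
def inclK (A : ValuationSubring QBar) (h : M ∣ M') : KM A M →ₐ[Res A] KM A M' :=
  IntermediateField.inclusion (full_degeneracyC_le (Res A) h)

@[simp]
theorem coe_inclK (h : M ∣ M') (x : KM A M) :
    (inclK A h x : LaurentSeries (Res A)) = (x : LaurentSeries (Res A)) :=
  IntermediateField.coe_inclusion (full_degeneracyC_le (Res A) h) x

theorem finrankAlong_inclK [IsAlgClosed (Res A)] [FF.IsFunctionField (Res A) (KM A M)]
    [FF.IsFunctionField (Res A) (KM A M')] (h : M ∣ M') (hM : (M : Res A) ≠ 0)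
    (hM' : (M' : Res A) ≠ 0) :
    finrankAlong (Res A) (inclK A h) * dedekindPsi M = dedekindPsi M' := by
  have e : inclK A h (jK A M) = jK A M' := Subtype.ext (by rw [coe_inclK, coe_jK, coe_jK])
  have h1 := Fermat.Agent.Mazur.Eisenstein.degree_poles_map (inclK A h) (jK_transcendental A M)
  rw [e] at h1
  have h2 := degree_poles_jK (A := A) M hM
  have h3 := degree_poles_jK (A := A) M' hM'
  rw [FF.degree_poles (jK_transcendental A M)] at h2
  rw [FF.degree_poles (jK_transcendental A M')] at h3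
  rw [Nat.cast_inj] at h2 h3
  rw [h2, h3] at h1
  exact h1.symm

end Levels

end Fermat.Agent.RT.Mazur

end
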