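import Fermat.Agent.S18
import Fermat.Agent.CurveTorsion.Main
import Fermat.Agent.Mazur.Eisenstein.RedKernel
import Fermat.Agent.RT.Mazur.OrdersBasic

/-!
# Reduction is bijective on torsion prime to the residue characteristic

Both torsion groups have `p ^ (2 g)` elements, and the reduction is injective.
-/

set_option autoImplicit false
set_option synthInstance.maxHeartbeats 400000
set_option maxHeartbeats 1000000
set_option linter.unusedSectionVars false

noncomputable section

namespace Fermat.Agent.RT.Mazur

open ModularCurve AlgebraicCurve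
open Fermat.Agent.Semistable Fermat.Agent.Arith

variable {A : ValuationSubring QBar} {q p : ℕ} [hq : Fact q.Prime] [hp : Fact p.Prime]
  {M : ℕ} [NeZero M]

/-- Every torsion class of order prime to `q` in the residual Jacobian lifts. -/
theorem exists_torsion_of_reduced (hA : A.LiesOverPrime q) (hqM : ¬ q ∣ M) (hpq : p ≠ q)
    (ξ : JZeroC (Res A) M) (hξ : p • ξ = 0) :
    ∃ x : JZero M, p • x = 0 ∧ reductionModL A M x = ξ := by
  have := Arith.residueField_isAlgClosed A
  have hch : CharP (Res A) q := Arith.residueField_charP hA hq.out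
  have hM : (M : Res A) ≠ 0 := fun h => hqM ((CharP.cast_eq_zero_iff (Res A) q M).mp h)
  have : FF.IsFunctionField (Res A) (KM A M) := RedTorsion.isFunctionField_full rfl hM
  have : FF.IsFunctionField QBar (modularFunctionFieldBar M) := EichlerShimura.isFunctionField_bar
  have hqp : ¬ q ∣ p := fun h => hpq ((Nat.prime_dvd_prime_iff_eq hq.out hp.out).mp h).symm
  have h1 : Nat.card (Pic0.torsion QBar (modularFunctionFieldBar M) (p ^ 1)) =
      p ^ (2 * genusFF QBar (modularFunctionFieldBar M) * 1) :=
    CurveTorsion.natCard_torsion_pow_of_charZero _ _ p 1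
  have h2 : Nat.card (Pic0.torsion (Res A) (KM A M) (p ^ 1)) =
      p ^ (2 * genusFF (Res A) (KM A M) * 1) :=
    CurveTorsion.natCard_torsion_of_isFrob (Mazur.Eisenstein.isFrob_coeffAut M A hA) p
      (fun h => hpq ((Nat.prime_dvd_prime_iff_eq hp.out hq.out).mp
        (hp.out.dvd_of_dvd_pow h))) 1
  rw [pow_one, mul_one] at h1 h2
  rw [FiniteFlat.genusFF_eq_of_goodRed (FiniteFlat.goodRed hM)] at h2
  have hmem : ∀ x : Pic0.torsion QBar (modularFunctionFieldBar M) p,
      reductionModL A M (x : JZero M) ∈ Pic0.torsion (Res A) (KM A M) p := fun x => by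
    rw [Pic0.mem_torsion, ← map_zsmul, Pic0.mem_torsion.mp x.2, map_zero]
  let R : Pic0.torsion QBar (modularFunctionFieldBar M) p →+
      Pic0.torsion (Res A) (KM A M) p :=
    ((reductionModL A M).comp (Pic0.torsion QBar (modularFunctionFieldBar M) p).subtype).codRestrict
      _ hmem
  have hR : Function.Injective R := by
    refine (injective_iff_map_eq_zero R).mpr fun x hx => Subtype.ext ?_
    refine S18.result M hqM A hA (EichlerShimura.reductionInputsModL hM) p hqp _ ?_
      (congrArg Subtype.val hx)
    rw [← natCast_zsmul]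
    exact Pic0.mem_torsion.mp x.2
  have : Finite (Pic0.torsion (Res A) (KM A M) p) :=
    Nat.finite_of_card_ne_zero (by rw [h2]; exact pow_ne_zero _ hp.out.ne_zero)
  obtain ⟨x, hx⟩ := (hR.bijective_of_nat_card_le (le_of_eq (h2.trans h1.symm))).2
    ⟨ξ, Pic0.mem_torsion.mpr (by rw [natCast_zsmul]; exact hξ)⟩
  exact ⟨x, by rw [← natCast_zsmul]; exact Pic0.mem_torsion.mp x.2, congrArg Subtype.val hx⟩

end Fermat.Agent.RT.Mazur

end
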