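import Fermat.Agent.RT.Mazur.HeckeRed
import Fermat.Agent.RT.Mazur.Surjective

/-!
# Eigen residual functions with orders divisible by `p`

Such a function is a `p`-th power, or the class of a `p`-th part of its divisor lifts to an eigen
torsion class of the Jacobian of level `M`.
-/

set_option autoImplicit false
set_option linter.unusedSectionVars false

noncomputable section

namespace Fermat.Agent.RT.Mazur

open ModularCurve AlgebraicCurve
open Fermat.Agent.Semistable Fermat.Agent.Arith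
open Fermat.Agent.RT.MazurP (IsRed IsHeckeImage heckeNorm heckeProd cls IsEigen)

-- Searches through these instances fail slowly on series fields; the algebras used are found first.
attribute [-instance] IsLocalRing.ResidueField.algebraOfIsIntegral RingHom.Finite.instFinite
attribute [local instance 1100] SubalgebraClass.toAlgebra
attribute [local instance 1200] instAlgebraKM

variable {A : ValuationSubring QBar} {q p : ℕ} [hq : Fact q.Prime] [hp : Fact p.Prime]
  {M : ℕ} [NeZero M]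

/-- Series with integral coefficients as elements of `serInt`. -/
theorem intS_serInt (b : intS A) : ∃ h : (b : LSer) ∈ RedTorsion.serInt A,
    RedTorsion.serRed A ⟨_, h⟩ = red A b := by
  refine ⟨RedTorsion.mem_serInt.mpr fun n => coeff_mem A b n, ?_⟩
  ext n
  rw [RedTorsion.coeff_serRed, coeff_red]

/-- A constant multiplying a primitive series to a primitive series is a unit. -/
theorem exists_unit_of_mul_eq {e : QBar} {y w : RedTorsion.serInt A}
    (hy : RedTorsion.serRed A y ≠ 0) (hw : RedTorsion.serRed A w ≠ 0)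
    (h : algebraMap QBar LSer e * (y : LSer) = w) :
    ∃ r : Res A, RedTorsion.serRed A w =
      algebraMap (Res A) (LaurentSeries (Res A)) r * RedTorsion.serRed A y := by
  have hC : ∀ {e : QBar} (he : e ∈ A), ∃ hm : algebraMap QBar LSer e ∈ RedTorsion.serInt A,
      RedTorsion.serRed A ⟨_, hm⟩ =
        algebraMap (Res A) (LaurentSeries (Res A)) (IsLocalRing.residue A ⟨e, he⟩) := by
    intro e he
    have hc : ∀ n, (algebraMap QBar LSer e).coeff n = if n = 0 then e else 0 := fun n => by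
      rw [algebraMap_laurentSeries_eq_single, HahnSeries.coeff_single]
      congr 1
    refine ⟨RedTorsion.mem_serInt.mpr fun n => ?_, ?_⟩
    · rw [hc]; split_ifs
      exacts [he, zero_mem A]
    · ext n
      refine (RedTorsion.coeff_serRed _ n).trans ?_
      have h2 : ∀ r : Res A, (algebraMap (Res A) (LaurentSeries (Res A)) r).coeff n =
          if n = 0 then r else 0 := fun r => by
        rw [algebraMap_laurentSeries_eq_single, HahnSeries.coeff_single]
        congr 1
      rw [h2]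
      rcases eq_or_ne n 0 with rfl | hn
      · rw [if_pos rfl]
        exact congrArg _ (Subtype.ext ((hc 0).trans (if_pos rfl)))
      · rw [if_neg hn]
        exact (congrArg _ (Subtype.ext ((hc n).trans (if_neg hn)))).trans
          (map_zero (IsLocalRing.residue A))
  rcases A.mem_or_inv_mem e with he | he
  · obtain ⟨hm, hr⟩ := hC he
    refine ⟨IsLocalRing.residue A ⟨e, he⟩, ?_⟩
    rw [← hr, ← map_mul]
    exact congrArg _ (Subtype.ext h.symm)
  · obtain ⟨hm, hr⟩ := hC he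
    have he0 : e ≠ 0 := by
      rintro rfl
      rw [map_zero, zero_mul] at h
      exact hw (by rw [show w = 0 from Subtype.ext h.symm, map_zero])
    have e2 : RedTorsion.serRed A y = algebraMap (Res A) (LaurentSeries (Res A))
        (IsLocalRing.residue A ⟨e⁻¹, he⟩) * RedTorsion.serRed A w := by
      rw [← hr, ← map_mul]
      refine congrArg _ (Subtype.ext ?_)
      show (y : LSer) = algebraMap QBar LSer e⁻¹ * (w : LSer)
      rw [← h, ← mul_assoc, ← map_mul, inv_mul_cancel₀ he0, map_one, one_mul]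
    have hr0 : IsLocalRing.residue A ⟨e⁻¹, he⟩ ≠ 0 := fun h0 => hy (by
      rw [e2, h0, map_zero, zero_mul])
    refine ⟨(IsLocalRing.residue A ⟨e⁻¹, he⟩)⁻¹, ?_⟩
    rw [e2, ← mul_assoc, ← map_mul, inv_mul_cancel₀ hr0, map_one, one_mul]

private theorem mul_div_pow_cancel {K : Type*} [Field K] {a b c w X G Z : K} (n : ℕ) (hc : c ≠ 0)
    (hG : G ≠ 0) :
    a * b / c * (w * X / G) ^ n * (c * (Z * G ^ n)) = a * (b * (Z * w ^ n) * X ^ n) := by
  rw [div_pow]
  field_simp
  ring

private theorem ord_const_mul {K F : Type*} [Field K] [Field F] [Algebra K F] (v : Place K F)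
    {r : K} (hr : r ≠ 0) {x : F} (hx : x ≠ 0) : v.ord (algebraMap K F r * x) = v.ord x := by
  rw [v.ord_mul ((map_ne_zero _).mpr hr) hx, FF.ord_algebraMap, zero_add]

variable [CharP (Res A) q] [FF.IsFunctionField (Res A) (KM A M)] [IsAlgClosed (Res A)]

/-- The lattice element behind a reduction. -/
theorem exists_lattice_red (hM : (M : Res A) ≠ 0) {f : FB M} (hf : f ≠ 0) {z : KM A M}
    (hz : IsRed A (f : LSer) (z : LaurentSeries (Res A))) :
    ∃ (g : (FiniteFlat.lattice (A := A) (N := M) hM).S) (c : QBar) (r : Res A), c ≠ 0 ∧ r ≠ 0 ∧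
      FiniteFlat.redF (FiniteFlat.lattice (A := A) (N := M) hM) g ≠ 0 ∧
      f = c • (g : FB M) ∧
      z = algebraMap (Res A) (KM A M) r *
        FiniteFlat.redF (FiniteFlat.lattice (A := A) (N := M) hM) g := by
  obtain ⟨c, g, hc, hg, hfg⟩ := (FiniteFlat.lattice (A := A) (N := M) hM).scal f hf
  obtain ⟨d, P, hd, hgd⟩ := FiniteFlat.exists_series_frac hM g
  have hgP := FiniteFlat.redF_mul_eq hM g hd hgd
  obtain ⟨hz0, c', hc', hcx, hred⟩ := hz
  obtain ⟨a, b, hb, hab⟩ := (mem_locS A).mp hcx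
  rw [redL_eq ⟨_, hcx⟩ hb hab] at hred
  obtain ⟨ha, ea⟩ := intS_serInt a
  obtain ⟨hb', eb⟩ := intS_serInt b
  set R := FiniteFlat.redF (FiniteFlat.lattice (A := A) (N := M) hM) g
  have hg' : (R : LaurentSeries (Res A)) ≠ 0 := fun h0 => hg (Subtype.ext h0)
  have hP : RedTorsion.serRed A P ≠ 0 := by
    rw [← hgP]; exact mul_ne_zero hg' hd
  have ha0 : RedTorsion.serRed A ⟨_, ha⟩ ≠ 0 := by
    rw [ea]; intro h0; exact hz0 (by rw [← hred, h0, zero_div])
  have hfL : (f : LSer) = algebraMap QBar LSer c * ((g : FB M) : LSer) :=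
    (congrArg Subtype.val hfg).trans
      ((congrArg Subtype.val (Algebra.smul_def c (g : FB M))).trans rfl)
  set Y : RedTorsion.serInt A := P * ⟨_, hb'⟩ with hY
  set W : RedTorsion.serInt A := ⟨_, ha⟩ * d with hW
  have hY' : (Y : LSer) = (P : LSer) * (b : LSer) := by rw [hY, Subring.coe_mul]
  have hW' : (W : LSer) = (a : LSer) * (d : LSer) := by rw [hW, Subring.coe_mul]
  have hYr : RedTorsion.serRed A Y =
      (R : LaurentSeries (Res A)) * RedTorsion.serRed A d * red A b := by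
    rw [hY, map_mul, eb, hgP]
  have hWr : RedTorsion.serRed A W = red A a * RedTorsion.serRed A d := by
    rw [hW, map_mul, ea]
  have heq : algebraMap QBar LSer (c' * c) * (Y : LSer) = (W : LSer) := by
    rw [hY', hW', ← hab, ← hgd, hfL, map_mul]
    ring
  obtain ⟨r, hr⟩ := exists_unit_of_mul_eq (e := c' * c) (y := Y) (w := W)
    (by rw [hYr]; exact mul_ne_zero (mul_ne_zero hg' hd) hb)
    (by rw [hWr]; exact mul_ne_zero (by rwa [ea] at ha0) hd) heq
  rw [hYr, hWr] at hr
  have hzg : (z : LaurentSeries (Res A)) =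
      algebraMap (Res A) (LaurentSeries (Res A)) r * (R : LaurentSeries (Res A)) := by
    rw [← hred, div_eq_iff hb]
    exact mul_right_cancel₀ hd (hr.trans (by ring))
  exact ⟨g, c, r, hc, fun h0 => hz0 (by rw [hzg, h0, map_zero, zero_mul]), hg, hfg,
    Subtype.ext hzg⟩

/-- The reduction of the class of `f` is the class of the `p`-th part of the divisor of the
reduction of `f`. -/
theorem exists_reduction_cls (hM : (M : Res A) ≠ 0) {f : FB M} (hf : f ≠ 0)
    (hdvd : ∀ v : Place QBar (FB M), (p : ℤ) ∣ v.ord f) {z : KM A M}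
    (hz : IsRed A (f : LSer) (z : LaurentSeries (Res A))) :
    ∃ D : Divisor.degZero (K := Res A) (F := KM A M),
      (∀ v, (p : ℤ) * (D : Divisor (Res A) (KM A M)) v = v.ord z) ∧
        reductionModL A M (cls p hf hdvd) = Pic0.mk D := by
  have : FF.IsFunctionField QBar (modularFunctionFieldBar M) := EichlerShimura.isFunctionField_bar
  obtain ⟨g, c, r, hc, hr0, hg, hfg, hzg⟩ := exists_lattice_red hM hf hz
  let R := FiniteFlat.redF (FiniteFlat.lattice (A := A) (N := M) hM) g
  have hg0 : (g : FB M) ≠ 0 := fun h0 => hg (by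
    rw [show g = 0 from Subtype.ext h0, map_zero])
  let h := FiniteFlat.goodRed (N := M) (A := A) hM
  let φ : JacTorsion.divGrp QBar (FB M) p := ⟨Units.mk0 f hf, hdvd⟩
  let D := JacTorsion.divQuot φ
  have hdeg : D ∈ Divisor.degZero (K := QBar) (F := FB M) := JacTorsion.divQuot_mem_degZero _
  have hcls : cls p hf hdvd = Pic0.mk ⟨D, hdeg⟩ := rfl
  have htor : (p : ℤ) • Pic0.mk (⟨D, hdeg⟩ : Divisor.degZero (K := QBar) (F := FB M)) = 0 := by
    rw [← hcls, natCast_zsmul]; exact MazurP.nsmul_cls hf hdvd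
  have e1 : FF.div QBar f = FF.div QBar (g : FB M) := Finsupp.ext fun w => by
    rw [FF.div_apply, FF.div_apply, hfg, Algebra.smul_def, ord_const_mul w hc hg0]
  have hsm : (p : ℤ) • D = FF.div QBar f := JacTorsion.smul_divQuot φ
  have e2 : (p : ℤ) • FiniteFlat.redDiv h D = FF.div (Res A) R := by
    rw [← map_zsmul, hsm, e1]
    exact FiniteFlat.redDiv_div h g hg
  have hdeg' : FiniteFlat.redDiv h D ∈ Divisor.degZero (K := Res A) (F := KM A M) :=
    Divisor.mem_degZero.mpr (by rw [FiniteFlat.degree_redDiv]; exact hdeg)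
  refine ⟨⟨_, hdeg'⟩, fun v => ?_, ?_⟩
  · show (p : ℤ) * FiniteFlat.redDiv h D v = v.ord z
    rw [hzg, ord_const_mul v hr0 hg]
    exact DFunLike.congr_fun e2 v
  · exact (congrArg _ hcls).trans (FiniteFlat.reductionModL_mk_of_torsion
      (FiniteFlat.seriesCompat hM) (EichlerShimura.principalGeneratedByIntegral hM) _
      hp.out.ne_zero htor)

/-- Residual functions have images. -/
theorem exists_heckeImage (hA : A.LiesOverPrime q) (hM : (M : Res A) ≠ 0) {l : ℕ} [NeZero l]
    (hl : l.Prime) (hlM : ¬ l ∣ M) (hql : ¬ q ∣ l) {z : KM A M} (hz : z ≠ 0) :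
    ∃ X : KM A M, X ≠ 0 ∧
      IsHeckeImage l (z : LaurentSeries (Res A)) (X : LaurentSeries (Res A)) := by
  obtain ⟨x, -, hx⟩ := exists_isRed_lift hM z.2 (fun h => hz (Subtype.ext h))
  obtain ⟨Y, hY, himg⟩ := MazurP.exists_isRed_heckeImage hA hq.out hql
    (mem_fracS_of_mem (heckeNorm M l x)) (fun ζ hζ => MazurP.qExpand_heckeNorm hl hlM hζ x) hx
  exact ⟨⟨Y, isRed_mem_level hM hY⟩, fun h => hY.1 (congrArg Subtype.val h), himg⟩

/-- The image of a Kummer function under the norm is the Kummer function of the image. -/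
theorem exists_norm_cls {l : ℕ} [NeZero l] (hl : l.Prime) {f : FB M} (hf : f ≠ 0)
    (hdvd : ∀ v : Place QBar (FB M), (p : ℤ) ∣ v.ord f) :
    ∃ (h : heckeNorm M l f ≠ 0) (h' : ∀ v : Place QBar (FB M), (p : ℤ) ∣ v.ord (heckeNorm M l f)),
      cls p h h' = heckeOperatorBar M ⟨l, hl⟩ (cls p hf hdvd) := by
  have hin := FF.heckeInputsAlong QBar M l
  have := hin.snd.snd.fst
  obtain ⟨f', hf', htor⟩ := GaloisReps.correspondence_toTorsion (heckeBetaBar QBar M l)
    (heckeAlphaBar QBar M l) hin.snd.fst hin.fst hin.snd.snd.snd.snd.1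
    hin.snd.snd.snd.fst hin.snd.snd.snd.snd.2
    (⟨Units.mk0 f hf, hdvd⟩ : JacTorsion.divGrp QBar (FB M) p)
  have e : ((f' : (FB M)ˣ) : FB M) = heckeNorm M l f := hf'
  refine ⟨e ▸ Units.ne_zero _, fun v => e ▸ f'.2 v, ?_⟩
  show _ = heckeOperatorAlong QBar M l _
  rw [heckeOperatorAlong, dif_pos hin]
  refine Eq.trans ?_ htor
  exact congrArg (fun u : JacTorsion.divGrp QBar (FB M) p =>
    (JacTorsion.toTorsion (Additive.ofMul u) : JZero M)) (Subtype.ext (Units.ext e.symm))

/-- **An eigen residual function with orders divisible by `p` is a `p`-th power, or gives an eigen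
torsion class of level `M`.** -/
theorem exists_eq_pow_or_eigen (hA : A.LiesOverPrime q) (hqM : ¬ q ∣ M) (hpq : p ≠ q)
    (G : ℕ → Prop) (a : ℕ → ℤ) (hG : ∀ l, l.Prime → G l → ¬ l ∣ q * M) {z : KM A M} (hz : z ≠ 0)
    (hord : ∀ v : Place (Res A) (KM A M), (p : ℤ) ∣ v.ord z)
    (heig : ∀ (l : ℕ) [NeZero l], l.Prime → G l → ∃ w ∈ KM A M, w ≠ 0 ∧ ∃ u : Res A, u ≠ 0 ∧
      IsHeckeImage l (z : LaurentSeries (Res A)) (algebraMap (Res A) (LaurentSeries (Res A)) u *
        ((z : LaurentSeries (Res A)) ^ a l * w ^ p))) :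
    (∃ h : KM A M, z = h ^ p) ∨
      ∃ x : JZero M, x ≠ 0 ∧ p • x = 0 ∧ IsEigen M G a x := by
  have hM : (M : Res A) ≠ 0 := fun h => hqM ((CharP.cast_eq_zero_iff (Res A) q M).mp h)
  have hqp : ¬ q ∣ p := fun h => hpq ((Nat.prime_dvd_prime_iff_eq hq.out hp.out).mp h).symm
  have : FF.IsFunctionField QBar (modularFunctionFieldBar M) := EichlerShimura.isFunctionField_bar
  have hp0 : (p : ℤ) ≠ 0 := Int.natCast_ne_zero.mpr hp.out.ne_zero
  set Dz : Divisor (Res A) (KM A M) := divFloor (p : ℤ) (FF.div (Res A) z) with hDz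
  have hDzv : ∀ v, (p : ℤ) * Dz v = v.ord z := fun v => by
    rw [hDz, divFloor_apply, FF.div_apply, Int.mul_ediv_cancel' (hord v)]
  have hDz0 : Dz ∈ Divisor.degZero (K := Res A) (F := KM A M) := by
    have : (p : ℤ) • Dz = FF.div (Res A) z := Finsupp.ext fun v => by
      rw [Finsupp.smul_apply, smul_eq_mul, hDzv, FF.div_apply]
    have := congrArg Divisor.degree this
    rw [map_zsmul, FF.degree_div, smul_eq_mul] at this
    exact Divisor.mem_degZero.mpr ((mul_eq_zero.mp this).resolve_left hp0)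
  obtain ⟨x, hpx, hx⟩ := exists_torsion_of_reduced hA hqM hpq (Pic0.mk ⟨Dz, hDz0⟩) (by
    rw [← natCast_zsmul]
    refine (QuotientAddGroup.eq_zero_iff ((p : ℤ) • (⟨Dz, hDz0⟩ :
      Divisor.degZero (K := Res A) (F := KM A M)))).mpr (AddSubgroup.mem_addSubgroupOf.mpr
      ⟨z, hz, fun v => ?_⟩)
    rw [AddSubgroup.coe_zsmul, Finsupp.smul_apply, smul_eq_mul, hDzv])
  obtain ⟨φ, hφ⟩ := JacTorsion.toTorsion_surjective
    (⟨x, Pic0.mem_torsion.mpr (by rw [natCast_zsmul]; exact hpx)⟩ : Pic0.torsion QBar (FB M) p)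
  let f : FB M := ((φ.toMul : (FB M)ˣ) : FB M)
  have hf : f ≠ 0 := Units.ne_zero _
  have hdvd : ∀ v : Place QBar (FB M), (p : ℤ) ∣ v.ord f := φ.toMul.2
  have hclsx : cls p hf hdvd = x := Eq.trans
    (congrArg (fun u : JacTorsion.divGrp QBar (FB M) p =>
      (JacTorsion.toTorsion (Additive.ofMul u) : JZero M)) (Subtype.ext (Units.ext rfl)))
    (congrArg Subtype.val hφ)
  obtain ⟨Z, hZ⟩ := IsRed.exists_of_ne_zero hA hq.out (mem_fracS_of_mem f)
    (fun h => hf (Subtype.ext h))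
  let zf : KM A M := ⟨Z, isRed_mem_level hM hZ⟩
  have hzf0 : zf ≠ 0 := fun h => hZ.1 (congrArg Subtype.val h)
  obtain ⟨Df, hDf, hDfx⟩ := exists_reduction_cls (p := p) hM hf hdvd (z := zf) hZ
  rw [hclsx, hx] at hDfx
  -- the reduction of `f` is a constant times `z g ^ p`
  obtain ⟨g, hg, hgv⟩ : ∃ g : KM A M, g ≠ 0 ∧
      ∀ v : Place (Res A) (KM A M), v.ord g = (Df : Divisor (Res A) (KM A M)) v - Dz v := by
    let Dz' : Divisor.degZero (K := Res A) (F := KM A M) := ⟨Dz, hDz0⟩
    have h1 : (Pic0.mk Df : Pic0 (Res A) (KM A M)) - Pic0.mk Dz' = 0 := sub_eq_zero.mpr hDfx.symm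
    have h2 : (QuotientAddGroup.mk (Df - Dz') : Pic0 (Res A) (KM A M)) = 0 :=
      (map_sub (QuotientAddGroup.mk' _) Df Dz').trans h1
    obtain ⟨g, hg, hgv⟩ := AddSubgroup.mem_addSubgroupOf.mp
      ((QuotientAddGroup.eq_zero_iff (Df - Dz')).mp h2)
    exact ⟨g, hg, fun v => (hgv v).symm⟩
  obtain ⟨c, hc⟩ : ∃ c : Res A, zf / (z * g ^ p) = algebraMap (Res A) (KM A M) c := by
    refine FF.eq_algebraMap_of_ord_nonneg fun v => ?_
    rw [JacTorsion.ord_div v hzf0 (mul_ne_zero hz (pow_ne_zero _ hg)),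
      v.ord_mul hz (pow_ne_zero _ hg), FF.ord_pow, ← hDf, hgv, ← hDzv]
    linarith
  rw [div_eq_iff (mul_ne_zero hz (pow_ne_zero _ hg))] at hc
  have hc0 : c ≠ 0 := fun h => hzf0 (by rw [hc, h, map_zero, zero_mul])
  by_cases hx0 : x = 0
  · -- a principal lift
    left
    obtain ⟨k, hk, hfk⟩ := (MazurP.cls_eq_zero_iff hf hdvd).mp (hclsx.trans hx0)
    obtain ⟨W, hW⟩ := IsRed.exists_of_ne_zero hA hq.out (mem_fracS_of_mem k)
      (fun h => hk (Subtype.ext h))
    have h2 : IsRed A (f : LSer) (W ^ p) := by rw [hfk]; exact hW.pow p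
    obtain ⟨u, hu, huW⟩ := IsRed.unique h2 hZ
    obtain ⟨d, hd⟩ := IsAlgClosed.exists_pow_nat_eq (u / c) hp.out.pos
    refine ⟨algebraMap (Res A) (KM A M) d * ⟨W, isRed_mem_level hM hW⟩ / g, ?_⟩
    rw [div_pow, mul_pow, ← map_pow, hd, map_div₀, eq_div_iff (pow_ne_zero _ hg),
      div_mul_eq_mul_div, eq_div_iff ((map_ne_zero _).mpr hc0)]
    have e : zf = algebraMap (Res A) (KM A M) u * (⟨W, isRed_mem_level hM hW⟩ : KM A M) ^ p :=
      Subtype.ext huW
    rw [← e, hc]
    ring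
  -- the eigen class
  refine Or.inr ⟨x, hx0, hpx, fun l hl hGl => ?_⟩
  have : NeZero l := ⟨hl.ne_zero⟩
  have hlN := hG l hl hGl
  have hlM : ¬ l ∣ M := fun h => hlN (dvd_mul_of_dvd_right h q)
  have hql : ¬ q ∣ l := fun h =>
    hlN ((Nat.prime_dvd_prime_iff_eq hq.out hl).mp h ▸ dvd_mul_right q M)
  obtain ⟨w, hw, hw0, u, hu, himg⟩ := heig l hl hGl
  obtain ⟨Xg, hXg0, hXg⟩ := exists_heckeImage hA hM hl hlM hql hg
  obtain ⟨hn, hn', hncls⟩ := exists_norm_cls (p := p) hl hf hdvd
  obtain ⟨X, hX, hXimg⟩ := MazurP.exists_isRed_heckeImage hA hq.out hql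
    (mem_fracS_of_mem (heckeNorm M l f)) (fun ζ hζ => MazurP.qExpand_heckeNorm hl hlM hζ f) hZ
  let W : KM A M := ⟨w, hw⟩ * Xg / g ^ a l
  have hWdef : W = ⟨w, hw⟩ * Xg / g ^ a l := rfl
  let C' : Res A := c ^ (l + 1) * u / c ^ a l
  have hXz : X = ((algebraMap (Res A) (KM A M) C' * W ^ p * zf ^ a l : KM A M) :
      LaurentSeries (Res A)) := by
    have hCimg : IsHeckeImage l (algebraMap (Res A) (LaurentSeries (Res A)) c)
        (algebraMap (Res A) (LaurentSeries (Res A)) (c ^ (l + 1))) := fun η _ => by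
      rw [MazurP.algebraMap_eq_C, MazurP.algebraMap_eq_C, qExpand_C, MazurP.heckeProd_C]
    have hpow : IsHeckeImage l ((g : LaurentSeries (Res A)) ^ p)
        ((Xg : LaurentSeries (Res A)) ^ p) := fun η hη => by rw [map_pow, map_pow, hXg η hη]
    have hzf' : Z = algebraMap (Res A) (LaurentSeries (Res A)) c *
        ((z : LaurentSeries (Res A)) * (g : LaurentSeries (Res A)) ^ p) := congrArg Subtype.val hc
    rw [hzf'] at hXimg
    rw [heckeImage_unique hA hql hXimg (heckeImage_mul hCimg (heckeImage_mul himg hpow))]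
    have hKM : (algebraMap (Res A) (KM A M) C' * W ^ p * zf ^ a l) =
        algebraMap (Res A) (KM A M) (c ^ (l + 1)) *
          (algebraMap (Res A) (KM A M) u * (z ^ a l * (⟨w, hw⟩ : KM A M) ^ p) * Xg ^ p) := by
      have hgz : (g : KM A M) ^ a l ≠ 0 := zpow_ne_zero _ hg
      have hcz : algebraMap (Res A) (KM A M) c ^ a l ≠ 0 := zpow_ne_zero _ ((map_ne_zero _).mpr hc0)
      have hcomm : (g ^ p) ^ a l = (g ^ a l) ^ p := by
        rw [← zpow_natCast, ← zpow_mul, mul_comm, zpow_mul, zpow_natCast]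
      rw [hc, hWdef, mul_zpow, mul_zpow, hcomm]
      simp only [C', map_div₀, map_mul, map_pow, map_zpow₀]
      exact mul_div_pow_cancel p hcz hgz
    rw [hKM]
    rfl
  have hW0 : W ≠ 0 := div_ne_zero (mul_ne_zero (fun h => hw0 (congrArg Subtype.val h)) hXg0)
    (zpow_ne_zero _ hg)
  have hC' : C' ≠ 0 := div_ne_zero (mul_ne_zero (pow_ne_zero _ hc0) hu) (zpow_ne_zero _ hc0)
  have hfa : ∀ v : Place QBar (FB M), (p : ℤ) ∣ v.ord (f ^ (-a l)) := fun v => by
    rw [v.ord_zpow]; exact dvd_mul_of_dvd_right (hdvd v) _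
  have hy : ∀ v : Place QBar (FB M), (p : ℤ) ∣ v.ord (heckeNorm M l f * f ^ (-a l)) := fun v => by
    rw [v.ord_mul hn (zpow_ne_zero _ hf)]
    exact dvd_add (hn' v) (hfa v)
  have hyred : IsRed A ((heckeNorm M l f * f ^ (-a l) : FB M) : LSer)
      ((algebraMap (Res A) (KM A M) C' * W ^ p : KM A M) : LaurentSeries (Res A)) := by
    have h1 := hX.mul (hZ.zpow (-a l))
    have e : algebraMap (Res A) (KM A M) C' * W ^ p =
        algebraMap (Res A) (KM A M) C' * W ^ p * zf ^ a l * zf ^ (-a l) := by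
      rw [zpow_neg, mul_inv_cancel_right₀ (zpow_ne_zero _ hzf0)]
    rw [hXz] at h1
    rw [e]
    exact h1
  obtain ⟨Dy, hDy, hDyx⟩ := exists_reduction_cls (p := p) hM
    (mul_ne_zero hn (zpow_ne_zero _ hf)) hy hyred
  have hzero : Pic0.mk Dy = 0 := by
    refine (QuotientAddGroup.eq_zero_iff Dy).mpr (AddSubgroup.mem_addSubgroupOf.mpr
      ⟨W, hW0, fun v => ?_⟩)
    have := hDy v
    rw [ord_const_mul v hC' (pow_ne_zero _ hW0), FF.ord_pow] at this
    exact mul_left_cancel₀ hp0 this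
  have hcls : cls p (mul_ne_zero hn (zpow_ne_zero _ hf)) hy =
      heckeOperatorBar M ⟨l, hl⟩ x + (-a l) • x := by
    rw [MazurP.cls_mul hn (zpow_ne_zero _ hf) hn' hfa hy, hncls,
      MazurP.cls_zpow hf hdvd (-a l) hfa, hclsx]
  have key := S18.result M hqM A hA (EichlerShimura.reductionInputsModL hM) p hqp _
    (MazurP.nsmul_cls (mul_ne_zero hn (zpow_ne_zero _ hf)) hy) (hDyx.trans hzero)
  rw [hcls, neg_smul] at key
  exact add_neg_eq_zero.mp key

end Fermat.Agent.RT.Mazur

end
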