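import Fermat.Agent.RT.Mazur.Injective

/-!
# Frobenius on torsion classes with constant reductions

On such classes at level `q M` a Frobenius at `q` is `-q w`: it raises gluings to the `q`-th
power and twists them, while `w` inverts and twists them.
-/

set_option autoImplicit false
set_option synthInstance.maxHeartbeats 400000
set_option maxHeartbeats 1000000
set_option linter.unusedSectionVars false

noncomputable section

namespace Fermat.Agent.RT.Mazur

open ModularCurve AlgebraicCurve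
open Fermat.Agent.Semistable Fermat.Agent.Arith

variable {A : ValuationSubring QBar} {q : ℕ} [hq : Fact q.Prime] [CharP (Res A) q]
  {M : ℕ} [NeZero M] [FF.IsFunctionField (Res A) (KM A M)] (h : Setup A M q)

/-- `D` is the divisor of an `p`-th root of a function with constant nonzero reductions. -/
def IsToric (p : ℕ) (D : Divisor QBar (FB (q * M))) : Prop :=
  ∃ f : loc2 A (iota2 M q h.hqM), (∀ v, v.ord (f : FB (q * M)) = (p : ℤ) * D v) ∧
    ∃ a : Fin 2 → Res A, (∀ s, a s ≠ 0) ∧
      ∀ s, red2 A (iota2 M q h.hqM) f s = algebraMap (Res A) _ (a s)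

variable {h} {p : ℕ} {D D' : Divisor QBar (FB (q * M))}

theorem IsToric.add (hD : IsToric h p D) (hD' : IsToric h p D') : IsToric h p (D + D') := by
  obtain ⟨f, hf, a, ha, hr⟩ := hD
  obtain ⟨f', hf', a', ha', hr'⟩ := hD'
  have hne : ∀ {g : loc2 A (iota2 M q h.hqM)} {b : Fin 2 → Res A}, (∀ s, b s ≠ 0) →
      (∀ s, red2 A (iota2 M q h.hqM) g s = algebraMap (Res A) _ (b s)) →
      (g : FB (q * M)) ≠ 0 := by
    intro g b hb hg h0
    have := hg 0
    rw [show g = 0 from Subtype.ext h0, map_zero, Pi.zero_apply, eq_comm, _root_.map_eq_zero]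
      at this
    exact hb 0 this
  refine ⟨f * f', fun v => ?_, fun s => a s * a' s, fun s => mul_ne_zero (ha s) (ha' s),
    fun s => ?_⟩
  · rw [Subring.coe_mul, v.ord_mul (hne ha hr) (hne ha' hr'), hf, hf', Finsupp.add_apply, mul_add]
  · rw [map_mul, Pi.mul_apply, hr, hr', map_mul]

theorem IsToric.nsmul (hD : IsToric h p D) : ∀ n : ℕ, IsToric h p (n • D)
  | 0 => ⟨1, fun v => by rw [OneMemClass.coe_one, v.ord_one, zero_smul, Finsupp.zero_apply,
      mul_zero], fun _ => 1, fun _ => one_ne_zero,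
      fun s => by rw [map_one, Pi.one_apply, map_one]⟩
  | n + 1 => by rw [succ_nsmul]; exact (IsToric.nsmul hD n).add hD

theorem IsToric.galois {σ : GQ} {φ : Res A →+* Res A} (hσ : ResLift A σ φ)
    (hD : IsToric h p D) :
    IsToric h p (arithmeticGalois (modularFunctionFieldFull (q * M)) σ • D) := by
  obtain ⟨f, hf, a, ha, hr⟩ := hD
  obtain ⟨hm, hred⟩ := hσ.galF_mem_loc2 M q h.hqM f
  refine ⟨⟨_, hm⟩, fun v => ?_, fun s => φ (a s), fun s => (_root_.map_ne_zero φ).mpr (ha s),
    fun s => ?_⟩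
  · set g := arithmeticGalois (modularFunctionFieldFull (q * M)) σ
    have e := SemilinearAut.ord_smul g (g⁻¹ • v) (f : FB (q * M))
    rw [smul_inv_smul] at e
    rw [SemilinearAut.divisor_smul_apply, ← hf]
    exact e
  · rw [hred, hr, algebraMap_laurentSeries_eq_single, algebraMap_laurentSeries_eq_single]
    ext n
    rw [coeffMap_coeff, HahnSeries.coeff_single, HahnSeries.coeff_single]
    split_ifs
    · rfl
    · exact map_zero φ

theorem IsToric.wAut (hD : IsToric h p D) : IsToric h p (Semistable.wAut h • D) := by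
  obtain ⟨f, hf, a, ha, hr⟩ := hD
  obtain ⟨hw, hwr⟩ := h.wEquiv_red2 f
  refine ⟨⟨_, hw⟩, fun v => ?_, ![a 1, a 0], fun s => by fin_cases s; exacts [ha 1, ha 0],
    fun s => ?_⟩
  · rw [SemilinearAut.divisor_smul_apply, ← hf]
    exact h.ord_wEquiv v _
  · rw [hwr]
    fin_cases s
    · exact hr 1
    · exact hr 0

theorem IsToric.exists_glue (hp : p ≠ 0) (hD : IsToric h p D) :
    ∃ c : Pt h → Res A, IsGlue h D c := by
  obtain ⟨f, hf, a, ha, hr⟩ := hD
  obtain ⟨c, hc, -⟩ := h.exists_isGlue hp f hf a ha hr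
  exact ⟨c, hc⟩

theorem IsToric.isGlue_nsmul (hp : p ≠ 0) (hD : IsToric h p D) {c : Pt h → Res A}
    (hc : IsGlue h D c) : ∀ n : ℕ, IsGlue h (n • D) (c ^ n)
  | 0 => by rw [zero_smul, pow_zero]; exact h.isGlue_zero
  | n + 1 => by
    obtain ⟨e, he⟩ := (hD.nsmul (n + 1)).exists_glue hp
    rw [succ_nsmul] at he ⊢
    rw [h.isGlue_eq_mul (IsToric.isGlue_nsmul hp hD hc n) hc he, ← pow_succ] at he
    exact he

/-- **Frobenius is `-q w` on classes with constant reductions.** -/
theorem exists_principal_frobenius (hell : NoElliptic M) (hp : (p : Res A) ≠ 0) {σ : GQ}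
    (hσ : A.IsFrobeniusAt σ q) (hD : IsToric h p D) :
    ∃ y : FB (q * M), y ≠ 0 ∧ ∀ v, v.ord y =
      (arithmeticGalois (modularFunctionFieldFull (q * M)) σ • D + q • (Semistable.wAut h • D) :
        Divisor QBar (FB (q * M))) v := by
  have hp0 : p ≠ 0 := fun h0 => hp (by simp [h0])
  have hσD := hD.galois (resLift_of_frobenius hσ)
  have hwD := hD.wAut
  obtain ⟨c, hc⟩ := hD.exists_glue hp0
  obtain ⟨c₁, hc₁⟩ := hσD.exists_glue hp0
  obtain ⟨c₂, hc₂⟩ := hwD.exists_glue hp0
  have hsum := hσD.add (hwD.nsmul q)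
  obtain ⟨e, he⟩ := hsum.exists_glue hp0
  have he1 : e = 1 := by
    rw [h.isGlue_eq_mul hc₁ (hwD.isGlue_nsmul hp0 hc₂ q) he, h.isGlue_frobenius hσ hc hc₁]
    funext χ
    rw [Pi.mul_apply, Pi.pow_apply, ← mul_pow, mul_comm, h.isGlue_wAut hc hc₂ χ, one_pow,
      Pi.one_apply]
  subst he1
  obtain ⟨f, hf, a, ha, hr⟩ := hsum
  exact exists_principal_of_isGlue_one h hell hp f hf a ha hr he

end Fermat.Agent.RT.Mazur

end
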