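import Fermat.Agent.RT.Mazur.Orders
import Fermat.Agent.RT.MazurP.Classes

/-!
# Removing the vertical part of an eigen Kummer function

An inertia-fixed eigen Kummer function at level `q M` becomes, after a constant and a `p`-th power,
a function with both reductions nonzero: `T_l` multiplies both vertical orders by `l + 1`, so
their difference is divisible by `p` when the eigenvalue is not `l + 1`.
-/

set_option autoImplicit false
set_option linter.unusedSectionVars false

noncomputable section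

namespace Fermat.Agent.RT.Mazur

open ModularCurve AlgebraicCurve
open Fermat.Agent.Semistable Fermat.Agent.Arith
open Fermat.Agent.RT.MazurP (heckeNorm heckeProd cls IsEigen)
-- Both lines shorten the searches for `Algebra` instances on `FB N` and on Laurent series.
attribute [-instance] IntermediateField.algebra'
attribute [local instance 10000] HahnSeries.powerSeriesAlgebra

variable {A : ValuationSubring QBar} {q p : ℕ} [hq : Fact q.Prime] [hp : Fact p.Prime]
  {M : ℕ} [NeZero M] (hqM : ¬ q ∣ M)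

theorem IsGUnit.zpow {x : LSer} (hx : IsGUnit A x) (n : ℤ) : IsGUnit A (x ^ n) := by
  rcases Int.eq_nat_or_neg n with ⟨m, rfl | rfl⟩
  · rw [zpow_natCast]; exact hx.pow m
  · rw [zpow_neg, zpow_natCast]; exact (hx.pow m).inv

/-- Both expansions of a function with fixed coefficients are fixed. -/
theorem inertiaFixed_iota2 {x : FB (q * M)} (hx : InertiaFixed A (x : LSer)) (s : Fin 2) :
    InertiaFixed A (iota2 M q hqM s x) := by
  intro τ hτ
  fin_cases s
  · exact hx τ hτ
  · show coeffMap (τ : QBar →+* QBar) ((wEquiv q M hqM x : FB (q * M)) : LSer) = _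
    rw [← coe_arithmeticRingAut, ← wEquiv_galois,
      show arithmeticRingAut (modularFunctionFieldFull (q * M)) τ x = x from
        Subtype.ext ((coe_arithmeticRingAut τ _).trans (hx τ hτ))]
    rfl

/-- The order at `q` of an image is `l + 1` times the order. -/
theorem gOrd_heckeImage (hA : A.LiesOverPrime q) {l : ℕ} [NeZero l] {x y : LSer}
    (hx : x ∈ fracS A) (hx0 : x ≠ 0) (hfix : InertiaFixed A x) (hy : y ∈ fracS A)
    (hxy : ∀ ζ : QBarˣ, IsPrimitiveRoot ζ l → qExpand QBar l y = heckeProd l ζ x) :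
    gOrd A q y = ((l : ℤ) + 1) * gOrd A q x := by
  refine gOrd_eq hA hq.out (MazurP.isGUnit_of_qExpand (l := l) hA hq.out
    (mul_mem (algebraMap_mem_fracS _) hy) ?_)
  obtain ⟨h, hne⟩ := gOrd_spec hA hq.out hx hx0 hfix
  obtain ⟨ζ₀, hζ₀⟩ := HasEnoughRootsOfUnity.exists_primitiveRoot QBar l
  set ζ : QBarˣ := (hζ₀.isUnit (NeZero.ne l)).unit
  have hζ : IsPrimitiveRoot ζ l := IsPrimitiveRoot.coe_units_iff.mp (by simpa [ζ] using hζ₀)
  obtain ⟨hm, e⟩ := MazurP.heckeProd_mem_locS hζ.pow_eq_one h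
  have key : qExpand QBar l
      (algebraMap QBar LSer ((q : QBar) ^ (-(((l : ℤ) + 1) * gOrd A q x))) * y) =
      heckeProd l ζ (algebraMap QBar LSer ((q : QBar) ^ (-gOrd A q x)) * x) := by
    rw [map_mul, hxy ζ hζ, map_mul (heckeProd l ζ), MazurP.algebraMap_eq_C, MazurP.algebraMap_eq_C,
      MazurP.heckeProd_C, qExpand_C, ← zpow_natCast, ← zpow_mul]
    push_cast
    ring_nf
  rw [key]
  exact ⟨hm, by rw [e]; exact MazurP.heckeProd_ne_zero l _ hne⟩

/-- A root of a fixed function is fixed up to a constant. -/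
theorem exists_fixed_root {N : ℕ} [NeZero N] {h : FB N} (hh : h ≠ 0)
    (hfix : InertiaFixed A ((h : LSer) ^ p)) :
    ∃ L : QBar, L ≠ 0 ∧ InertiaFixed A (algebraMap QBar LSer L * (h : LSer)) := by
  have h0 : (h : LSer) ≠ 0 := fun e => hh (Subtype.ext e)
  refine ⟨((h : LSer).leadingCoeff)⁻¹, inv_ne_zero (HahnSeries.leadingCoeff_ne_zero.mpr h0),
    fun τ hτ => ?_⟩
  obtain ⟨ζ₀, hζ₀⟩ := HasEnoughRootsOfUnity.exists_primitiveRoot QBar p
  have hz : (coeffMap (τ : QBar →+* QBar) (h : LSer) / (h : LSer)) ^ p = 1 := by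
    rw [div_pow, ← map_pow, hfix τ hτ, div_self (pow_ne_zero _ h0)]
  obtain ⟨i, -, hi⟩ :=
    (hζ₀.map_of_injective (algebraMap QBar LSer).injective).eq_pow_of_pow_eq_one hz
  rw [← map_pow, eq_comm, div_eq_iff h0] at hi
  have hlead : (τ : QBar →+* QBar) (h : LSer).leadingCoeff =
      ζ₀ ^ i * (h : LSer).leadingCoeff := by
    rw [← JacTorsion.coeffMap_leadingCoeff (τ : QBar →+* QBar), hi, HahnSeries.leadingCoeff_mul,
      algebraMap_laurentSeries_eq_single, HahnSeries.leadingCoeff_of_single]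
  have hζi : ζ₀ ^ i ≠ 0 := pow_ne_zero _ (hζ₀.ne_zero hp.out.ne_zero)
  have hc : ∀ c : QBar, coeffMap (τ : QBar →+* QBar) (algebraMap QBar LSer c) =
      algebraMap QBar LSer ((τ : QBar →+* QBar) c) := fun c => by
    rw [MazurP.algebraMap_eq_C, MazurP.algebraMap_eq_C]
    exact HahnSeries.map_C c (τ : QBar →+* QBar)
  rw [map_mul, hc, map_inv₀, hlead, hi, mul_inv, map_mul, mul_mul_mul_comm, ← map_mul,
    inv_mul_cancel₀ hζi, map_one, one_mul]

variable [CharP (Res A) q] [FF.IsFunctionField (Res A) (KM A M)]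

theorem natCast_series_eq_zero : (q : LaurentSeries (Res A)) = 0 := by
  rw [← map_natCast (algebraMap (Res A) (LaurentSeries (Res A))), CharP.cast_eq_zero, map_zero]

/-- The expansion of `E² + q`, scaled by `i = q⁻¹`. -/
private theorem vertical_identity {F L : Type*} [CommRing F] [CommRing L] (f : F →+* L) (n : ℕ)
    {i : L} {E φ : F} (hφ : φ = E ^ 2 + n) (h : i * n = 1) :
    i * f φ = n * (i * f E * (i * f E)) + 1 := by
  rw [hφ, RingHom.map_add, RingHom.map_pow, map_natCast]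
  linear_combination (1 - i * f E ^ 2) * h

/-- An inertia-fixed function with vertical orders `0` and `1`. -/
theorem exists_vertical (hA : A.LiesOverPrime q) :
    ∃ φ : FB (q * M), φ ≠ 0 ∧ InertiaFixed A (φ : LSer) ∧
      IsGUnit A (iota2 M q hqM 0 φ) ∧
      IsGUnit A (algebraMap QBar LSer (q : QBar)⁻¹ * iota2 M q hqM 1 φ) := by
  set t : loc2 A (iota1 M) := ⟨jM M, jM_mem M⟩
  have hjk : red1 A M t = jqModC (Res A) := red1_jM M
  set E : loc2 A (iota2 M q hqM) :=
    ⟨_, upF_mem_loc2 M q hqM t.2⟩ - ⟨_, downF_mem_loc2 M q hqM t.2⟩ ^ q with hE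
  have hred : red2 A (iota2 M q hqM) E =
      ![jqModC (Res A) - jqModC (Res A) ^ (q * q), 0] := by
    rw [hE, RingHom.map_sub, RingHom.map_pow, red2_upF M q hqM t, red2_downF M q hqM t, hjk]
    funext s
    fin_cases s
    · simp [← pow_eq_qExpand_gen_one, ← pow_mul]
    · simp [← pow_eq_qExpand_gen_one]
  have hj : jqModC (Res A) - jqModC (Res A) ^ (q * q) ≠ 0 := by
    intro h
    have h1 : (Polynomial.X - Polynomial.X ^ (q * q) : Polynomial (Res A)) = 0 :=
      transcendental_iff.mp (transcendental_jqModC _) _ (by simpa using h)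
    have h2 := congrArg (fun p => p.coeff 1) h1
    have hne : q * q ≠ 1 := fun e => hq.out.ne_one (Nat.eq_one_of_mul_eq_one_right e)
    simp only [Polynomial.coeff_sub, Polynomial.coeff_X_one, Polynomial.coeff_X_pow,
      if_neg hne.symm, sub_zero, Polynomial.coeff_zero] at h2
    exact one_ne_zero h2
  have hint : InertiaFixed A (((E : FB (q * M))) : LSer) := fun τ _ => by
    rw [hE]
    push_cast
    rw [coe_upF, coe_downF, coe_jM, RingHom.map_sub, RingHom.map_pow, coeffMap_qExpand,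
      coeffMap_jqModC]
  set φ : loc2 A (iota2 M q hqM) := E ^ 2 + (q : loc2 A (iota2 M q hqM)) with hφ
  have hφfix : InertiaFixed A ((φ : FB (q * M)) : LSer) := fun τ hτ => by
    rw [hφ]
    push_cast
    rw [RingHom.map_add, RingHom.map_pow, hint τ hτ, map_natCast]
  have hφ0 : red2 A (iota2 M q hqM) φ 0 ≠ 0 := by
    have hq0 : (q : LaurentSeries (Res A)) = 0 := natCast_series_eq_zero
    rw [hφ, RingHom.map_add, RingHom.map_pow, map_natCast (red2 A (iota2 M q hqM)), Pi.add_apply,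
      Pi.pow_apply, hred, Pi.natCast_apply, hq0, add_zero]
    exact pow_ne_zero _ hj
  have h0 : IsGUnit A (iota2 M q hqM 0 (φ : FB (q * M))) := ⟨_, hφ0⟩
  refine ⟨φ, fun h => h0.ne_zero (by rw [h, map_zero]), hφfix, h0, ?_⟩
  have hx : iota2 M q hqM 1 (E : FB (q * M)) ∈ locS A := (mem_loc2 _).mp E.2 1
  have hred1 : redL A ⟨_, hx⟩ = 0 := by
    rw [← red2_apply (iota2 M q hqM) E 1, hred]; rfl
  set y := algebraMap QBar LSer (q : QBar)⁻¹ * iota2 M q hqM 1 (E : FB (q * M)) with hy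
  have hyl : y ∈ locS A :=
    inv_mul_mem_locS hA hx (inertiaFixed_iota2 hqM hint 1) (iota2_fracS M q hqM 1 _) hred1
  have e : algebraMap QBar LSer (q : QBar)⁻¹ * iota2 M q hqM 1 (φ : FB (q * M)) =
      ((q : locS A) * (⟨y, hyl⟩ * ⟨y, hyl⟩) + 1 : locS A) := by
    have hqq : algebraMap QBar LSer (q : QBar)⁻¹ * (q : LSer) = 1 := by
      rw [← map_natCast (algebraMap QBar LSer) q, ← map_mul,
        inv_mul_cancel₀ (Nat.cast_ne_zero.mpr hq.out.ne_zero), map_one]
    exact vertical_identity (iota2 M q hqM 1).toRingHom q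
      (show (φ : FB (q * M)) = (E : FB (q * M)) ^ 2 + (q : FB (q * M)) from rfl) hqq
  refine ⟨e ▸ SetLike.coe_mem _, ?_⟩
  rw [redL_congr _ (SetLike.coe_mem _) e]
  show redL A ((q : locS A) * (⟨y, hyl⟩ * ⟨y, hyl⟩) + 1) ≠ 0
  rw [RingHom.map_add, RingHom.map_mul, map_natCast, RingHom.map_one, natCast_series_eq_zero,
    zero_mul, zero_add]
  exact one_ne_zero

/-- Adjusting the vertical orders by a vertical function. -/
theorem exists_gUnit_adjust (hA : A.LiesOverPrime q) {f : FB (q * M)} (hf : f ≠ 0)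
    (hfix : InertiaFixed A (f : LSer)) (k : ℤ)
    (hk : gOrd A q (iota2 M q hqM 1 f) - gOrd A q (iota2 M q hqM 0 f) = (p : ℤ) * k) :
    ∃ (c : QBar) (ψ : FB (q * M)), c ≠ 0 ∧ ψ ≠ 0 ∧
      InertiaFixed A ((algebraMap QBar (FB (q * M)) c * f * ψ ^ p : FB (q * M)) : LSer) ∧
      ∀ s, IsGUnit A (iota2 M q hqM s (algebraMap QBar (FB (q * M)) c * f * ψ ^ p)) := by
  set ι := iota2 M q hqM with hι
  obtain ⟨φ, hφ0, hφfix, hφu0, hφu1⟩ := exists_vertical hqM hA
  have hq0 : (q : QBar) ≠ 0 := Nat.cast_ne_zero.mpr hq.out.ne_zero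
  have hs : ∀ s, IsGUnit A (algebraMap QBar LSer ((q : QBar) ^ (-gOrd A q (ι s f))) * ι s f) :=
    fun s => gOrd_spec hA hq.out (iota2_fracS M q hqM s f) ((map_ne_zero _).mpr hf)
      (inertiaFixed_iota2 hqM hfix s)
  have ez : ((φ ^ (-k) : FB (q * M)) : LSer) = (φ : LSer) ^ (-k) :=
    map_zpow₀ (FB (q * M)).val φ (-k)
  refine ⟨(q : QBar) ^ (-gOrd A q (ι 0 f)), φ ^ (-k), zpow_ne_zero _ hq0, zpow_ne_zero _ hφ0, ?_,
    fun s => ?_⟩
  · have e : ((algebraMap QBar (FB (q * M)) ((q : QBar) ^ (-gOrd A q (ι 0 f))) * f *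
        (φ ^ (-k)) ^ p : FB (q * M)) : LSer) =
        algebraMap QBar LSer ((q : QBar) ^ (-gOrd A q (ι 0 f))) * (f : LSer) *
          ((φ : LSer) ^ (-k)) ^ p := by
      rw [← ez]
      rfl
    rw [e]
    exact ((inertiaFixed_algebraMap fun τ _ => by rw [map_zpow₀, map_natCast]).mul hfix).mul
      ((hφfix.zpow _).pow p)
  · have e1 : ι s (algebraMap QBar (FB (q * M)) ((q : QBar) ^ (-gOrd A q (ι 0 f))) * f *
        (φ ^ (-k)) ^ p) = algebraMap QBar LSer ((q : QBar) ^ (-gOrd A q (ι 0 f))) * ι s f *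
          (ι s φ ^ (-k)) ^ p := by
      rw [map_mul, map_mul, AlgHom.commutes, map_pow (ι s), map_zpow₀ (ι s)]
    rw [e1]
    fin_cases s
    · exact (hs 0).mul ((hφu0.zpow _).pow p)
    · have e : (q : QBar) ^ (-gOrd A q (ι 0 f)) =
          (q : QBar) ^ (-gOrd A q (ι 1 f)) * (((q : QBar)⁻¹) ^ (-k)) ^ p := by
        rw [← zpow_natCast, ← zpow_mul, inv_zpow', ← zpow_add₀ hq0]
        congr 1
        linarith
      have e2 : algebraMap QBar LSer ((q : QBar) ^ (-gOrd A q (ι 0 f))) * ι 1 f *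
          (ι 1 φ ^ (-k)) ^ p = algebraMap QBar LSer ((q : QBar) ^ (-gOrd A q (ι 1 f))) * ι 1 f *
            ((algebraMap QBar LSer (q : QBar)⁻¹ * ι 1 φ) ^ (-k)) ^ p := by
        rw [e, map_mul (algebraMap QBar LSer), map_pow (algebraMap QBar LSer),
          map_zpow₀ (algebraMap QBar LSer) ((q : QBar)⁻¹), mul_zpow, mul_pow]
        ring
      show IsGUnit A (algebraMap QBar LSer ((q : QBar) ^ (-gOrd A q (ι 0 f))) * ι 1 f *
          (ι 1 φ ^ (-k)) ^ p)
      rw [e2]
      exact (hs 1).mul ((hφu1.zpow (-k)).pow p)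

/-- Constants and `p`-th powers make both reductions of an eigen Kummer function nonzero. -/
theorem exists_gUnit_kummer (hA : A.LiesOverPrime q) {l : ℕ} [NeZero l] (hl : l.Prime)
    (hlN : ¬ l ∣ q * M) {a : ℤ} (ha : ¬ (p : ℤ) ∣ a - (1 + (l : ℤ))) {f : FB (q * M)} (hf : f ≠ 0)
    (hfix : InertiaFixed A (f : LSer)) {h : FB (q * M)} (hh : h ≠ 0)
    (heq : heckeNorm (q * M) l f = f ^ a * h ^ p) :
    ∃ (c : QBar) (ψ : FB (q * M)), c ≠ 0 ∧ ψ ≠ 0 ∧
      InertiaFixed A ((algebraMap QBar (FB (q * M)) c * f * ψ ^ p : FB (q * M)) : LSer) ∧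
      ∀ s, IsGUnit A (iota2 M q hqM s (algebraMap QBar (FB (q * M)) c * f * ψ ^ p)) := by
  set ι := iota2 M q hqM
  have hfr : ∀ s x, ι s x ∈ fracS A := iota2_fracS M q hqM
  have hne : ∀ s {x : FB (q * M)}, x ≠ 0 → ι s x ≠ 0 := fun s x hx => (map_ne_zero _).mpr hx
  have hNfix : InertiaFixed A ((heckeNorm (q * M) l f : FB (q * M)) : LSer) := fun τ hτ => by
    have e : galF (q * M) τ f = f :=
      Subtype.ext ((coe_arithmeticRingAut τ f).trans (hfix τ hτ))
    rw [← coe_arithmeticRingAut τ, show arithmeticRingAut (modularFunctionFieldFull (q * M)) τ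
      (heckeNorm (q * M) l f) = galF (q * M) τ (heckeNorm (q * M) l f) from rfl,
      ← MazurP.heckeNorm_galF hl hlN, e]
  have hpow : InertiaFixed A ((h : LSer) ^ p) := by
    have e : ((h : LSer)) ^ p =
        ((heckeNorm (q * M) l f : FB (q * M)) : LSer) * ((f : LSer) ^ a)⁻¹ := by
      have := congrArg Subtype.val heq
      rw [this]
      have ez : ((f ^ a : FB (q * M)) : LSer) = (f : LSer) ^ a :=
        map_zpow₀ (FB (q * M)).val f a
      push_cast
      rw [ez, mul_comm ((f : LSer) ^ a), mul_inv_cancel_right₀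
        (zpow_ne_zero _ fun e => hf (Subtype.ext e))]
    rw [e]
    exact hNfix.mul (hfix.zpow a).inv
  obtain ⟨L, hL, hLfix⟩ := exists_fixed_root hh hpow
  set Lp : FB (q * M) := algebraMap QBar (FB (q * M)) (L ^ p)
  set h' : FB (q * M) := algebraMap QBar (FB (q * M)) L * h with hh'
  have hh'0 : h' ≠ 0 := mul_ne_zero ((map_ne_zero _).mpr hL) hh
  have hLp : Lp * heckeNorm (q * M) l f = f ^ a * h' ^ p := by
    rw [heq, hh', mul_pow, ← map_pow]; ring
  have hLpfix : InertiaFixed A (Lp : LSer) := by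
    have e : (Lp : LSer) =
        (h' : LSer) ^ p * ((h : LSer) ^ p)⁻¹ := by
      show algebraMap QBar LSer (L ^ p) = (algebraMap QBar LSer L * (h : LSer)) ^ p * _
      rw [mul_pow, ← map_pow, mul_inv_cancel_right₀ (pow_ne_zero _ fun e => hh (Subtype.ext e))]
    rw [e]
    exact (hLfix.pow p).mul hpow.inv
  have hh'fix : InertiaFixed A (h' : LSer) := hLfix
  set v : Fin 2 → ℤ := fun s => gOrd A q (ι s f)
  set w : Fin 2 → ℤ := fun s => gOrd A q (ι s h')
  set δ : ℤ := gOrd A q (algebraMap QBar LSer (L ^ p))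
  have hord : ∀ s, δ + ((l : ℤ) + 1) * v s = a * v s + (p : ℤ) * w s := by
    intro s
    have hLs : ι s Lp = algebraMap QBar LSer (L ^ p) := AlgHom.commutes _ _
    have hN : gOrd A q (ι s (heckeNorm (q * M) l f)) = ((l : ℤ) + 1) * v s :=
      gOrd_heckeImage hA (hfr s f) (hne s hf) (inertiaFixed_iota2 hqM hfix s) (hfr s _)
        (fun ζ hζ => MazurP.qExpand_iota2_heckeNorm q M l hqM hl hlN s hζ f)
    have h1 := congrArg (fun z => gOrd A q (ι s z)) hLp
    simp only [map_mul, map_pow, map_zpow₀] at h1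
    rw [gOrd_mul hA hq.out (hfr s _) (hfr s _)
      (hne s ((map_ne_zero _).mpr (pow_ne_zero _ hL))) (hne s (MazurP.heckeNorm_ne_zero hf))
      (inertiaFixed_iota2 hqM hLpfix s) (inertiaFixed_iota2 hqM hNfix s), hN, hLs,
      gOrd_mul hA hq.out (zpow_mem (hfr s f) a) (pow_mem (hfr s h') p)
        (zpow_ne_zero _ (hne s hf)) (pow_ne_zero _ (hne s hh'0))
        ((inertiaFixed_iota2 hqM hfix s).zpow a) ((inertiaFixed_iota2 hqM hh'fix s).pow p),
      gOrd_pow hA hq.out (hfr s h') (hne s hh'0) (inertiaFixed_iota2 hqM hh'fix s)] at h1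
    rw [h1]
    congr 1
    rcases Int.eq_nat_or_neg a with ⟨m, rfl | rfl⟩
    · rw [zpow_natCast, gOrd_pow hA hq.out (hfr s f) (hne s hf) (inertiaFixed_iota2 hqM hfix s)]
    · rw [zpow_neg, zpow_natCast, gOrd_inv hA hq.out (pow_mem (hfr s f) m)
        (pow_ne_zero _ (hne s hf)) ((inertiaFixed_iota2 hqM hfix s).pow m),
        gOrd_pow hA hq.out (hfr s f) (hne s hf) (inertiaFixed_iota2 hqM hfix s), neg_mul]
  obtain ⟨k, hk⟩ : (p : ℤ) ∣ v 1 - v 0 := by
    have h1 : (p : ℤ) ∣ (a - (1 + (l : ℤ))) * (v 1 - v 0) :=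
      ⟨w 0 - w 1, by linear_combination hord 0 - hord 1⟩
    exact ((Nat.prime_iff_prime_int.mp hp.out).dvd_or_dvd h1).resolve_left ha
  exact exists_gUnit_adjust hqM hA hf hfix k hk

end Fermat.Agent.RT.Mazur

end
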