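import Fermat.Agent.RT.Mazur.LevelChange
import Fermat.Agent.RT.Mazur.Reduced
import Fermat.Agent.RT.Mazur.Toric
import Fermat.Agent.RT.Mazur.Vertical

/-!
# Eigen classes fixed by inertia are toric or come from level `M`

An inertia-fixed eigen class of level `q M` has a Kummer function with both reductions nonzero;
their orders are divisible by `p` (pull back to a level without elliptic points), so either both
reductions are `p`-th powers, and can be made constant, or an eigen class of level `M` exists.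
-/

set_option autoImplicit false
set_option synthInstance.maxHeartbeats 400000
set_option maxHeartbeats 1000000
set_option linter.unusedSectionVars false

noncomputable section

namespace Fermat.Agent.RT.Mazur

open ModularCurve AlgebraicCurve
open Fermat.Agent.Semistable Fermat.Agent.Arith
open Fermat.Agent.RT.MazurP (IsRed IsHeckeImage heckeNorm cls IsEigen)

variable {A : ValuationSubring QBar} {q p : ℕ} [hq : Fact q.Prime] [hp : Fact p.Prime]
  [CharP (Res A) q] [IsAlgClosed (Res A)] {M M' : ℕ} [NeZero M] [NeZero M']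
  [FF.IsFunctionField (Res A) (KM A M)] [FF.IsFunctionField (Res A) (KM A M')]

/-- Orders of both reductions of a fixed Kummer function are divisible by `p`. -/
theorem dvd_ord_red_level (hA : A.LiesOverPrime q) (hMM : M ∣ M') (hqM : ¬ q ∣ M)
    (hqM' : ¬ q ∣ M') (hell : NoElliptic M')
    (hdeg : ∃ d, d * dedekindPsi M = dedekindPsi M' ∧ Nat.Coprime p d)
    {F : loc2 A (iota2 M q hqM)} (hfix : InertiaFixed A ((F : FB (q * M)) : LSer))
    (hdiv : ∀ v : Place QBar (FB (q * M)), (p : ℤ) ∣ v.ord (F : FB (q * M)))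
    (hne : ∀ s, red2 A (iota2 M q hqM) F s ≠ 0) (hM : (M : Res A) ≠ 0) (s : Fin 2)
    (P : Place (Res A) (KM A M)) : (p : ℤ) ∣ P.ord (redK hM F s) := by
  have hM' : (M' : Res A) ≠ 0 := fun h => hqM' ((CharP.cast_eq_zero_iff (Res A) q M').mp h)
  obtain ⟨d, hd, hpd⟩ := hdeg
  have hdK : finrankAlong (Res A) (inclK A hMM) = d :=
    Nat.eq_of_mul_eq_mul_right (dedekindPsi_pos M) ((finrankAlong_inclK hMM hM hM').trans hd.symm)
  have hmem : incl q hMM (F : FB (q * M)) ∈ loc2 A (iota2 M' q hqM') :=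
    (mem_loc2 _).mpr fun s => by rw [iota2_incl hMM hqM hqM']; exact (mem_loc2 _).mp F.2 s
  set F' : loc2 A (iota2 M' q hqM') := ⟨_, hmem⟩
  have hr : ∀ t, red2 A (iota2 M' q hqM') F' t = red2 A (iota2 M q hqM) F t := fun t => by
    rw [red2_apply, red2_apply]
    exact redL_congr _ _ (iota2_incl hMM hqM hqM' t _)
  have hφ := FF.isIntegralAlong (incl (M := M) (M' := M') q hMM)
  have hdiv' : ∀ w : Place QBar (FB (q * M')), (p : ℤ) ∣ w.ord (F' : FB (q * M')) := fun w => by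
    show (p : ℤ) ∣ w.ord (incl q hMM (F : FB (q * M)))
    rw [Place.ord_restrictAlong (incl q hMM) hφ]
    exact dvd_mul_of_dvd_right (hdiv _) _
  refine dvd_ord_descend (inclK A hMM) hp.out (hdK ▸ hpd) (fun w => ?_) P
  have h := dvd_ord_red (F := F') hA hell hp.out.pos
    (fun τ hτ => by rw [show ((F' : FB (q * M')) : LSer) = ((F : FB (q * M)) : LSer) from
      coe_incl hMM _]; exact hfix τ hτ) hdiv' (fun t => by rw [hr]; exact hne t) hM' s w
  rwa [show redK hM' F' s = inclK A hMM (redK hM F s) from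
    Subtype.ext (by rw [coe_redK, coe_inclK, coe_redK, hr])] at h

/-- Two nonzero residual functions are the reductions of a unit on both sides. -/
theorem exists_unit_pair (hqM : ¬ q ∣ M) (hM : (M : Res A) ≠ 0) {h₀ h₁ : KM A M} (h0 : h₀ ≠ 0)
    (h1 : h₁ ≠ 0) :
    ∃ η : loc2 A (iota2 M q hqM), (η : FB (q * M)) ≠ 0 ∧
      ∃ hi : (η : FB (q * M))⁻¹ ∈ loc2 A (iota2 M q hqM),
        ∀ s, red2 A (iota2 M q hqM) ⟨_, hi⟩ s =
          (((![h₀, h₁] : Fin 2 → KM A M) s : KM A M) : LaurentSeries (Res A))⁻¹ := by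
  obtain ⟨η, hη⟩ := red2_surjective M q hqM hM h₀.2 h₁.2
  have hne : ∀ s, red2 A (iota2 M q hqM) η s ≠ 0 := fun s => by
    rw [hη]; fin_cases s
    · exact fun e => h0 (Subtype.ext e)
    · exact fun e => h1 (Subtype.ext e)
  obtain ⟨hi, hi'⟩ := inv_mem_loc2 (iota2 M q hqM) η hne
  refine ⟨η, fun e => hne 0 (by rw [show η = 0 from Subtype.ext e, map_zero, Pi.zero_apply]), hi,
    fun s => ?_⟩
  rw [hi' s, hη]
  fin_cases s <;> rfl

/-- **Dichotomy for inertia-fixed eigen classes.** -/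
theorem exists_toric_or_eigen (h : Setup A M q) (hMM : M ∣ M') (hqM' : ¬ q ∣ M')
    (hell : NoElliptic M') (hdeg : ∃ d, d * dedekindPsi M = dedekindPsi M' ∧ Nat.Coprime p d)
    (hpq : p ≠ q) (G : ℕ → Prop) (a : ℕ → ℤ) (hG : ∀ l, l.Prime → G l → ¬ l ∣ q * M)
    (hl₀ : ∃ l, l.Prime ∧ G l ∧ ¬ (p : ℤ) ∣ a l - (1 + (l : ℤ)))
    {x : JZero (q * M)} (hpx : p • x = 0) (hfix : ∀ τ ∈ A.inertiaSubgroupIn ℚ, τ • x = x)
    (heig : IsEigen (q * M) G a x) :
    (∃ D : Divisor.degZero (K := QBar) (F := FB (q * M)),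
        Pic0.mk D = x ∧ IsToric h p (D : Divisor QBar (FB (q * M)))) ∨
      ∃ y : JZero M, y ≠ 0 ∧ p • y = 0 ∧ IsEigen M G a y := by
  obtain ⟨f₀, hf₀x, -, hf₀fix⟩ := exists_rational_kummer (N := q * M) A
    (⟨x, Pic0.mem_torsion.mpr (by rw [natCast_zsmul]; exact hpx)⟩ :
      Pic0.torsion QBar (FB (q * M)) p) hfix
  set f : FB (q * M) := ((f₀ : (FB (q * M))ˣ) : FB (q * M)) with hfdef
  have hf : f ≠ 0 := Units.ne_zero _
  have hfd : ∀ v : Place QBar (FB (q * M)), (p : ℤ) ∣ v.ord f := f₀.2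
  have hfx : cls p hf hfd = x := Eq.trans
    (congrArg (fun u : JacTorsion.divGrp QBar (FB (q * M)) p =>
      (JacTorsion.toTorsion (Additive.ofMul u) : JZero (q * M))) (Subtype.ext (Units.ext rfl)))
    (congrArg Subtype.val hf₀x)
  -- the vertical orders
  obtain ⟨l, hl, hGl, hla⟩ := hl₀
  have : NeZero l := ⟨hl.ne_zero⟩
  obtain ⟨k, hk, hkeq⟩ := MazurP.exists_heckeNorm_eq l hl
    (⟨Units.mk0 f hf, hfd⟩ : JacTorsion.divGrp QBar (FB (q * M)) p) (a l) (by
      show heckeOperatorBar (q * M) ⟨l, hl⟩ (cls p hf hfd) = a l • cls p hf hfd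
      rw [hfx]; exact heig l hl hGl)
  obtain ⟨c, ψ, hc, hψ, hFfix, hFu⟩ :=
    exists_gUnit_kummer h.hqM h.hA hl (hG l hl hGl) hla hf hf₀fix hk hkeq
  set g : FB (q * M) := algebraMap QBar (FB (q * M)) c * f * ψ ^ p with hgdef
  have hg0 : g ≠ 0 := mul_ne_zero (mul_ne_zero ((map_ne_zero _).mpr hc) hf) (pow_ne_zero _ hψ)
  have hgd := MazurP.dvd_ord_const_mul_pow (m := p) hc hf hψ hfd
  have hgx : cls p hg0 hgd = x := (MazurP.cls_const_mul_pow hc hf hψ hfd hg0).trans hfx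
  have hgl : g ∈ loc2 A (iota2 M q h.hqM) := (mem_loc2 _).mpr fun s => (hFu s).1
  set F : loc2 A (iota2 M q h.hqM) := ⟨g, hgl⟩
  have hne : ∀ s, red2 A (iota2 M q h.hqM) F s ≠ 0 := fun s => (hFu s).2
  have hz : ∀ s, redK h.hM F s ≠ 0 := fun s e => hne s (congrArg Subtype.val e)
  have hord := dvd_ord_red_level (p := p) h.hA hMM h.hqM hqM' hell hdeg (F := F) hFfix hgd hne h.hM
  have hred : ∀ s, (∃ r : KM A M, redK h.hM F s = r ^ p) ∨
      ∃ y : JZero M, y ≠ 0 ∧ p • y = 0 ∧ IsEigen M G a y := fun s => by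
    refine exists_eq_pow_or_eigen h.hA h.hqM hpq G a hG (hz s) (hord s) fun l' _ hl' hGl' => ?_
    obtain ⟨k', hk', hk'eq⟩ := MazurP.exists_heckeNorm_eq l' hl'
      (⟨Units.mk0 g hg0, hgd⟩ : JacTorsion.divGrp QBar (FB (q * M)) p) (a l') (by
        show heckeOperatorBar (q * M) ⟨l', hl'⟩ (cls p hg0 hgd) = a l' • cls p hg0 hgd
        rw [hgx]; exact heig l' hl' hGl')
    exact exists_eigen_reduction h.hA h.hM h.hqM hl' (hG l' hl' hGl') hk' hk'eq s
      (IsRed.of_locS ((mem_loc2 _).mp hgl s) (hne s))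
  rcases hred 0 with ⟨r₀, hr₀⟩ | hy
  swap; · exact Or.inr hy
  rcases hred 1 with ⟨r₁, hr₁⟩ | hy
  swap; · exact Or.inr hy
  left
  have hrs : ∀ (s : Fin 2), redK h.hM F s = (![r₀, r₁] s) ^ p := fun s => by
    fin_cases s
    · exact hr₀
    · exact hr₁
  have hrne : ∀ s : Fin 2, (![r₀, r₁] s : KM A M) ≠ 0 := fun s e => hz s (by
    rw [hrs, e, zero_pow hp.out.ne_zero])
  obtain ⟨η, hη, hηi, hηred⟩ := exists_unit_pair h.hqM h.hM (hrne 0) (hrne 1)
  set G' : loc2 A (iota2 M q h.hqM) := F * ⟨_, hηi⟩ ^ p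
  have hη' : (η : FB (q * M))⁻¹ ≠ 0 := inv_ne_zero hη
  set t : FB (q * M) := algebraMap QBar (FB (q * M)) 1 * g * ((η : FB (q * M))⁻¹) ^ p
  have ht0 : t ≠ 0 := mul_ne_zero (mul_ne_zero ((map_ne_zero _).mpr one_ne_zero) hg0)
    (pow_ne_zero _ hη')
  have htd := MazurP.dvd_ord_const_mul_pow (m := p) one_ne_zero hg0 hη' hgd
  have htx : cls p ht0 htd = x :=
    (MazurP.cls_const_mul_pow one_ne_zero hg0 hη' hgd ht0).trans hgx
  have htG : (G' : FB (q * M)) = t := by
    show g * ((η : FB (q * M))⁻¹) ^ p = t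
    simp only [t, map_one, one_mul]
  set φ : JacTorsion.divGrp QBar (FB (q * M)) p := ⟨Units.mk0 t ht0, htd⟩
  refine ⟨⟨JacTorsion.divQuot φ, JacTorsion.divQuot_mem_degZero _⟩, htx, G', fun v => ?_,
    fun _ => 1, fun _ => one_ne_zero, fun s => ?_⟩
  · have e := DFunLike.congr_fun (JacTorsion.smul_divQuot φ) v
    rw [Finsupp.smul_apply, smul_eq_mul, FF.div_apply] at e
    rw [htG]
    exact e.symm
  · have e := congrArg (fun z : KM A M => (z : LaurentSeries (Res A))) (hrs s)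
    simp only [coe_redK, SubmonoidClass.coe_pow] at e
    have hne' : ((![r₀, r₁] s : KM A M) : LaurentSeries (Res A)) ≠ 0 := fun e' =>
      hrne s (Subtype.ext e')
    rw [map_mul, map_pow, Pi.mul_apply, Pi.pow_apply, e, hηred s, inv_pow, map_one]
    convert mul_inv_cancel₀ (pow_ne_zero p hne') using 2
    fin_cases s <;> rfl

end Fermat.Agent.RT.Mazur

end
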