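import Fermat.Agent.Arith.Chebotarev.Main
import Fermat.Agent.GaloisReps.HeckeGalois
import Fermat.Agent.RT.Mazur.Reduced
import Fermat.Agent.RT.Mazur.Residual

/-!
# Torsion of the Jacobian and residual data

The `p`-torsion of `J₀(N)`, injectivity of reduction on torsion, and residual representations with
prescribed Frobenius traces, for which some eigenvalue is not `l + 1`.
-/

set_option autoImplicit false
set_option linter.unusedSectionVars false

noncomputable section

namespace Fermat.Agent.RT.Mazur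

open ModularCurve AlgebraicCurve Matrix
open Fermat.Agent.Semistable Fermat.Agent.Arith

/-- The reduction of torsion prime to the residue characteristic is injective. -/
theorem injectiveOnTorsion (N : ℕ) [NeZero N] : EichlerShimura.InjectiveOnTorsion N :=
  fun {_} _ hlN A hA h m hm z h1 h2 => S18.result N hlN A hA h m hm z h1 h2

variable (N p : ℕ) [NeZero N] [hp : Fact p.Prime]

variable {N p}

/-- A residual datum: a representation through a finite level with the Frobenius traces `a` and
determinants `l` at almost all primes. -/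
structure Datum (p : ℕ) (G : ℕ → Prop) (a : ℕ → ℤ) where
  /-- The representation. -/
  r : GQ →* Matrix (Fin 2) (Fin 2) (ZMod p)
  finite_level : ∃ L : IntermediateField ℚ QBar, FiniteDimensional ℚ L ∧
    ∀ σ : GQ, (∀ z ∈ L, σ z = z) → r σ = 1
  cofinite : ∃ S : Finset ℕ, ∀ l, l.Prime → l ∉ S → G l
  frobenius : ∀ l, l.Prime → G l → ∀ B : ValuationSubring QBar, B.LiesOverPrime l →
    ∀ τ : GQ, B.IsFrobeniusAt τ l → (r τ).trace = (a l : ZMod p) ∧ (r τ).det = (l : ZMod p)

/-- Some eigenvalue is not `l + 1`. -/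
theorem Datum.exists_ne_succ {G : ℕ → Prop} {a : ℕ → ℤ} (R : Datum p G a)
    (hspan : Submodule.span (ZMod p) (Set.range R.r) = ⊤) :
    ∃ l, l.Prime ∧ G l ∧ ¬ (p : ℤ) ∣ a l - (1 + (l : ℤ)) := by
  obtain ⟨g, hg⟩ := exists_det_sub_one_ne_zero R.r hspan
  obtain ⟨L, hL, hLr⟩ := R.finite_level
  obtain ⟨S, hS⟩ := R.cofinite
  obtain ⟨l, hl, hlS, B, hB, τ, hτ, he⟩ := Chebotarev.exists_frobenius_eq R.r L hLr g S
  refine ⟨l, hl, hS l hl hlS, fun hd => hg ?_⟩
  obtain ⟨ht, hdet⟩ := R.frobenius l hl (hS l hl hlS) B hB τ hτ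
  have h0 : ((a l - (1 + (l : ℤ)) : ℤ) : ZMod p) = 0 :=
    (ZMod.intCast_zmod_eq_zero_iff_dvd _ p).mpr hd
  push_cast at h0
  rw [← he, det_fin_two]
  rw [trace_fin_two] at ht
  rw [det_fin_two] at hdet
  simp only [Matrix.sub_apply, Matrix.one_apply_eq, ne_eq, one_ne_zero, not_false_eq_true,
    Matrix.one_apply_ne, zero_ne_one, sub_zero]
  linear_combination hdet - ht - h0

end Fermat.Agent.RT.Mazur

end
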